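import Mathlib.RingTheory.Valuation.Basic
import Mathlib.Tactic.FieldSimp
import Mathlib.Tactic.Ring
import Mathlib.Tactic.NormNum

set_option autoImplicit false

namespace Fermat.Agent.S05.KeyLemma

variable {Γ₀ : Type*} [LinearOrderedCommGroupWithZero Γ₀]

/-- clamped height: `h(P) = clamp ν (v X(P))`, and `h(O) = 1`. -/
def clamp (ν c : Γ₀) : Γ₀ := max ν (min 1 c)

/-- reflection of the product into the fundamental domain `[ν, 1]`. -/
def fold (ν c : Γ₀) : Γ₀ := if ν ≤ c then c else ν * ν / c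

/-- the smaller of the two quotients. -/
def mr (x y : Γ₀) : Γ₀ := min (x / y) (y / x)

/-- unsigned component law. -/
def Rel (ν h1 h2 hp hm : Γ₀) : Prop :=
  (hp = fold ν (h1 * h2) ∧ hm = mr h1 h2) ∨ (hm = fold ν (h1 * h2) ∧ hp = mr h1 h2)

theorem clamp_of_one_le {ν c : Γ₀} (hν : ν ≤ 1) (h : 1 ≤ c) : clamp ν c = 1 := by
  unfold clamp
  rw [min_eq_left h, max_eq_right hν]

theorem clamp_of_le {ν c : Γ₀} (hν : ν ≤ 1) (h : c ≤ ν) : clamp ν c = ν := by
  unfold clamp
  rw [min_eq_right (h.trans hν), max_eq_left h]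

theorem clamp_of_mem {ν c : Γ₀} (h1 : ν ≤ c) (h2 : c ≤ 1) : clamp ν c = c := by
  unfold clamp
  rw [min_eq_right h2, max_eq_right h1]

theorem le_clamp (ν c : Γ₀) : ν ≤ clamp ν c := le_max_left _ _

theorem clamp_le_one {ν : Γ₀} (hν : ν ≤ 1) (c : Γ₀) : clamp ν c ≤ 1 :=
  max_le hν (min_le_left _ _)

theorem fold_of_le {ν c : Γ₀} (h : ν ≤ c) : fold ν c = c := by
  unfold fold
  rw [if_pos h]

theorem fold_of_lt {ν c : Γ₀} (h : c < ν) : fold ν c = ν * ν / c := by
  unfold fold
  rw [if_neg (not_le.mpr h)]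

theorem mr_comm (x y : Γ₀) : mr x y = mr y x := by
  unfold mr
  rw [min_comm]

theorem mr_self {x : Γ₀} (hx : x ≠ 0) : mr x x = 1 := by
  unfold mr
  rw [div_self hx, min_self]

theorem mr_of_le {x y : Γ₀} (hx : x ≠ 0) (hy : y ≠ 0) (h : y ≤ x) : mr x y = y / x := by
  unfold mr
  apply min_eq_right
  have h1 : y / x ≤ 1 := by
    rw [div_le_iff₀ (zero_lt_iff.mpr hx), one_mul]
    exact h
  have h2 : 1 ≤ x / y := by
    rw [le_div_iff₀ (zero_lt_iff.mpr hy), one_mul]
    exact h
  exact h1.trans h2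

theorem Rel.symm12 {ν h1 h2 hp hm : Γ₀} (h : Rel ν h1 h2 hp hm) : Rel ν h2 h1 hp hm := by
  unfold Rel at h ⊢
  rw [mul_comm h2 h1, mr_comm h2 h1]
  exact h

theorem Rel.symmpm {ν h1 h2 hp hm : Γ₀} (h : Rel ν h1 h2 hp hm) : Rel ν h1 h2 hm hp := by
  unfold Rel at h ⊢
  exact h.symm

theorem sq_inj' {a b : Γ₀} (h : a * a = b * b) : a = b := by
  rcases lt_trichotomy a b with h1 | h1 | h1
  · exfalso
    have : a * a < b * b := by
      have hb : 0 < b := lt_of_le_of_lt zero_le h1
      calc a * a ≤ a * b := by gcongr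
        _ < b * b := by gcongr
    exact absurd h this.ne
  · exact h1
  · exfalso
    have : b * b < a * a := by
      have hb : 0 < a := lt_of_le_of_lt zero_le h1
      calc b * b ≤ b * a := by gcongr
        _ < a * a := by gcongr
    exact absurd h.symm this.ne

/-! ### Valuations of the two roots of a quadratic (ordered form `y ≤ x`) -/

theorem rootA_aux {x y σ : Γ₀} (hyx : y ≤ x) (hσ' : x ≠ y → σ = max x y)
    (h1 : 1 ≤ x * y) (h2 : σ ≤ x * y) : 1 ≤ x ∧ 1 ≤ y := by
  have hx : 1 ≤ x := by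
    by_contra hx
    rw [not_le] at hx
    have : x * y < 1 := by
      calc x * y ≤ x * x := by gcongr
        _ ≤ x * 1 := by gcongr
        _ = x := mul_one x
        _ < 1 := hx
    exact absurd h1 (not_le.mpr this)
  refine ⟨hx, ?_⟩
  by_contra hy
  rw [not_le] at hy
  have hne : x ≠ y := fun h => by rw [h] at hx; exact absurd hx (not_le.mpr hy)
  have hσ := hσ' hne
  rw [max_eq_left hyx] at hσ
  have hx0 : 0 < x := lt_of_lt_of_le zero_lt_one hx
  have : x * y < x := by
    calc x * y < x * 1 := by gcongr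
      _ = x := mul_one x
  rw [hσ] at h2
  exact absurd h2 (not_le.mpr this)

theorem rootA {x y σ : Γ₀} (hσ' : x ≠ y → σ = max x y)
    (h1 : 1 ≤ x * y) (h2 : σ ≤ x * y) : 1 ≤ x ∧ 1 ≤ y := by
  rcases le_total y x with h | h
  · exact rootA_aux h hσ' h1 h2
  · have := rootA_aux (x := y) (y := x) (σ := σ) h
      (fun hne => by rw [max_comm]; exact hσ' hne.symm) (by rwa [mul_comm]) (by rwa [mul_comm])
    exact ⟨this.2, this.1⟩

theorem rootB_aux {ν x y σ : Γ₀} (hyx : y ≤ x) (hσ' : x ≠ y → σ = max x y)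
    (h1 : x * y ≤ ν * ν) (h2 : σ ≤ ν) : x ≤ ν ∧ y ≤ ν := by
  have hx : x ≤ ν := by
    by_contra hx
    rw [not_le] at hx
    by_cases hxy : x = y
    · rw [← hxy] at h1
      have : ν * ν < x * x := by
        have hx0 : 0 < x := lt_of_le_of_lt zero_le hx
        calc ν * ν ≤ ν * x := by gcongr
          _ < x * x := by gcongr
      exact absurd h1 (not_le.mpr this)
    · have hσ := hσ' hxy
      rw [max_eq_left hyx] at hσ
      rw [hσ] at h2
      exact absurd h2 (not_le.mpr hx)
  exact ⟨hx, hyx.trans hx⟩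

theorem rootB {ν x y σ : Γ₀} (hσ' : x ≠ y → σ = max x y)
    (h1 : x * y ≤ ν * ν) (h2 : σ ≤ ν) : x ≤ ν ∧ y ≤ ν := by
  rcases le_total y x with h | h
  · exact rootB_aux h hσ' h1 h2
  · have := rootB_aux (x := y) (y := x) (σ := σ) h
      (fun hne => by rw [max_comm]; exact hσ' hne.symm) (by rwa [mul_comm]) h2
    exact ⟨this.2, this.1⟩

theorem rootC_aux {c x y σ : Γ₀} (hyx : y ≤ x) (hσ' : x ≠ y → σ = max x y)
    (h1 : x * y = c * c) (h2 : σ ≤ c) : x = c ∧ y = c := by
  by_cases hxy : x = y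
  · rw [← hxy] at h1
    have := sq_inj' h1
    exact ⟨this, hxy ▸ this⟩
  · exfalso
    have hσ := hσ' hxy
    rw [max_eq_left hyx] at hσ
    have hlt : y < x := lt_of_le_of_ne hyx (Ne.symm hxy)
    have hx0 : 0 < x := lt_of_le_of_lt zero_le hlt
    have h3 : c * c < x * x := by
      rw [← h1]
      gcongr
    have h4 : c < x := by
      by_contra h4
      rw [not_lt] at h4
      have : x * x ≤ c * c := by gcongr
      exact absurd h3 (not_lt.mpr this)
    rw [hσ] at h2
    exact absurd h2 (not_le.mpr h4)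

theorem rootC {c x y σ : Γ₀} (hσ' : x ≠ y → σ = max x y)
    (h1 : x * y = c * c) (h2 : σ ≤ c) : x = c ∧ y = c := by
  rcases le_total y x with h | h
  · exact rootC_aux h hσ' h1 h2
  · have := rootC_aux (x := y) (y := x) (σ := σ) h
      (fun hne => by rw [max_comm]; exact hσ' hne.symm) (by rwa [mul_comm]) h2
    exact ⟨this.2, this.1⟩

theorem rootD {x y σ : Γ₀} (hσ : σ ≤ max x y) (hσ' : x ≠ y → σ = max x y)
    (h1 : x * y < σ * σ) : (x = σ ∧ y < x) ∨ (y = σ ∧ x < y) := by
  have hne : x ≠ y := by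
    intro hxy
    rw [← hxy, max_self] at hσ
    rw [← hxy] at h1
    have : σ * σ ≤ x * x := by gcongr
    exact absurd h1 (not_lt.mpr this)
  have hs := hσ' hne
  rcases lt_or_gt_of_ne hne with h | h
  · right
    rw [max_eq_right h.le] at hs
    exact ⟨hs.symm, h⟩
  · left
    rw [max_eq_left h.le] at hs
    exact ⟨hs.symm, h⟩

/-! ### Scaled forms: `x * y * E = Q`, `σ * E = S` with `E ≠ 0` -/

theorem rootA_scaled {x y σ E Q S : Γ₀} (hE : E ≠ 0) (hprod : x * y * E = Q) (hsum : σ * E = S)
    (hσ' : x ≠ y → σ = max x y) (h1 : E ≤ Q) (h2 : S ≤ Q) : 1 ≤ x ∧ 1 ≤ y := by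
  have hE0 : 0 < E := zero_lt_iff.mpr hE
  apply rootA hσ'
  · apply le_of_mul_le_mul_right _ hE0
    rw [one_mul, hprod]
    exact h1
  · apply le_of_mul_le_mul_right _ hE0
    rw [hsum, hprod]
    exact h2

theorem rootB_scaled {ν x y σ E Q S : Γ₀} (hE : E ≠ 0) (hprod : x * y * E = Q)
    (hsum : σ * E = S) (hσ' : x ≠ y → σ = max x y) (h1 : Q ≤ ν * ν * E) (h2 : S ≤ ν * E) :
    x ≤ ν ∧ y ≤ ν := by
  have hE0 : 0 < E := zero_lt_iff.mpr hE
  apply rootB hσ'
  · apply le_of_mul_le_mul_right _ hE0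
    rw [hprod]
    exact h1
  · apply le_of_mul_le_mul_right _ hE0
    rw [hsum]
    exact h2

theorem rootC_scaled {c x y σ E Q S : Γ₀} (hE : E ≠ 0) (hprod : x * y * E = Q)
    (hsum : σ * E = S) (hσ' : x ≠ y → σ = max x y) (h1 : Q = c * c * E) (h2 : S ≤ c * E) :
    x = c ∧ y = c := by
  have hE0 : 0 < E := zero_lt_iff.mpr hE
  apply rootC hσ'
  · apply mul_right_cancel₀ hE
    rw [hprod]
    exact h1
  · apply le_of_mul_le_mul_right _ hE0
    rw [hsum]
    exact h2

theorem rootD_scaled {x y σ E Q S : Γ₀} (hE : E ≠ 0) (hprod : x * y * E = Q) (hsum : σ * E = S)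
    (hσ : σ ≤ max x y) (hσ' : x ≠ y → σ = max x y) (h1 : Q * E < S * S) :
    (x = σ ∧ y < x) ∨ (y = σ ∧ x < y) := by
  have hE0 : 0 < E := zero_lt_iff.mpr hE
  apply rootD hσ hσ'
  apply lt_of_mul_lt_mul_right (a := E * E) _ zero_le
  have e1 : x * y * (E * E) = Q * E := by rw [← hprod]; ac_rfl
  have e2 : σ * σ * (E * E) = S * S := by rw [← hsum]; ac_rfl
  rw [e1, e2]
  exact h1

theorem rel_of_D {ν h1 h2 x y σ E Q S : Γ₀} (hE : E ≠ 0) (hprod : x * y * E = Q)
    (hsum : σ * E = S) (hσ : σ ≤ max x y) (hσ' : x ≠ y → σ = max x y) (hlt : Q * E < S * S)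
    (key : ∀ u w : Γ₀, u * E = S → S * w = Q →
      clamp ν u = mr h1 h2 ∧ clamp ν w = fold ν (h1 * h2)) :
    Rel ν h1 h2 (clamp ν x) (clamp ν y) := by
  rcases rootD_scaled hE hprod hsum hσ hσ' hlt with ⟨hx, -⟩ | ⟨hy, -⟩
  · have := key x y (by rw [hx]; exact hsum) (by rw [← hprod, ← hsum, hx]; ac_rfl)
    exact Or.inr ⟨this.2, this.1⟩
  · have := key y x (by rw [hy]; exact hsum) (by rw [← hprod, ← hsum, hy]; ac_rfl)
    exact Or.inl ⟨this.2, this.1⟩

/-! ### The ordered-group core of the component law -/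

theorem rel_core_aux {ν c1 c2 x y D P S σ : Γ₀} (hν0 : ν ≠ 0) (hν1 : ν < 1) (h21 : c2 ≤ c1)
    (hD0 : D ≠ 0) (hD : D ≤ c1) (hD' : c2 < c1 → D = c1)
    (hP : P ≤ max (c1 * c2) ν) (hP' : c1 * c2 ≠ ν → P = max (c1 * c2) ν)
    (hS : S ≤ max (c1 * max (c1 * c2) ν) (c1 * c2))
    (hS' : c1 * max (c1 * c2) ν < c1 * c2 → S = c1 * c2)
    (hprod : x * y * (D * D) = P * P) (hsum : σ * (D * D) = S)
    (hσ : σ ≤ max x y) (hσ' : x ≠ y → σ = max x y) :
    Rel ν (clamp ν c1) (clamp ν c2) (clamp ν x) (clamp ν y) := by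
  have hνpos : 0 < ν := zero_lt_iff.mpr hν0
  have hν1' : ν ≤ 1 := hν1.le
  have hE : D * D ≠ 0 := mul_ne_zero hD0 hD0
  have hνν : ν * ν < ν := by
    calc ν * ν < ν * 1 := by gcongr
      _ = ν := mul_one ν
  rcases le_or_gt 1 c1 with h1 | h1
  · -- `c1` in the identity region
    have hc1pos : 0 < c1 := lt_of_lt_of_le zero_lt_one h1
    rcases le_or_gt 1 c2 with h2 | h2
    · -- (I, I)
      have h12 : 1 ≤ c1 * c2 := by
        calc (1 : Γ₀) = 1 * 1 := (mul_one 1).symm
          _ ≤ c1 * c2 := by gcongr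
      have hPe : P = c1 * c2 := by
        rw [hP' (ne_of_gt (lt_of_lt_of_le hν1 h12)), max_eq_left (hν1'.trans h12)]
      have hSle : S ≤ c1 * (c1 * c2) := by
        refine hS.trans ?_
        rw [max_eq_left (hν1'.trans h12)]
        apply max_le le_rfl
        calc c1 * c2 = 1 * (c1 * c2) := (one_mul _).symm
          _ ≤ c1 * (c1 * c2) := by gcongr
      have hc1le : c1 ≤ c1 * c2 := by
        calc c1 = c1 * 1 := (mul_one _).symm
          _ ≤ c1 * c2 := by gcongr
      obtain ⟨hx, hy⟩ := rootA_scaled hE hprod hsum hσ'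
        (by rw [hPe]; exact mul_le_mul' (hD.trans hc1le) (hD.trans hc1le))
        (by rw [hPe]; exact hSle.trans (mul_le_mul' hc1le le_rfl))
      rw [clamp_of_one_le hν1' h1, clamp_of_one_le hν1' h2, clamp_of_one_le hν1' hx,
        clamp_of_one_le hν1' hy]
      refine Or.inl ⟨?_, ?_⟩
      · rw [mul_one, fold_of_le hν1']
      · rw [mr_self one_ne_zero]
    · have hDe : D = c1 := hD' (lt_of_lt_of_le h2 h1)
      rw [hDe] at hprod hsum hE
      rcases lt_or_ge ν c2 with h2' | h2'
      · -- (I, M)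
        have hc2pos : 0 < c2 := lt_trans hνpos h2'
        have hc2le : c2 ≤ c1 * c2 := by
          calc c2 = 1 * c2 := (one_mul _).symm
            _ ≤ c1 * c2 := by gcongr
        have hPe : P = c1 * c2 := by
          rw [hP' (ne_of_gt (lt_of_lt_of_le h2' hc2le)), max_eq_left (h2'.le.trans hc2le)]
        have hSle : S ≤ c1 * (c1 * c2) := by
          refine hS.trans ?_
          rw [max_eq_left (h2'.le.trans hc2le)]
          apply max_le le_rfl
          calc c1 * c2 = 1 * (c1 * c2) := (one_mul _).symm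
            _ ≤ c1 * (c1 * c2) := by gcongr
        obtain ⟨hx, hy⟩ := rootC_scaled (c := c2) hE hprod hsum hσ'
          (by rw [hPe]; ac_rfl)
          (by refine hSle.trans (le_of_eq ?_); ac_rfl)
        rw [clamp_of_one_le hν1' h1, clamp_of_mem h2'.le h2.le, hx, hy,
          clamp_of_mem h2'.le h2.le]
        refine Or.inl ⟨?_, ?_⟩
        · rw [one_mul, fold_of_le h2'.le]
        · rw [mr_of_le one_ne_zero hc2pos.ne' h2.le, div_one]
      · -- (I, B)
        have hmax : max (c1 * c2) ν ≤ c1 * ν := by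
          apply max_le
          · gcongr
          · calc ν = 1 * ν := (one_mul _).symm
              _ ≤ c1 * ν := by gcongr
        have hPle : P ≤ c1 * ν := hP.trans hmax
        have hSle : S ≤ c1 * (c1 * ν) := by
          refine hS.trans ?_
          apply max_le
          · gcongr
          · calc c1 * c2 ≤ c1 * ν := by gcongr
              _ = 1 * (c1 * ν) := (one_mul _).symm
              _ ≤ c1 * (c1 * ν) := by gcongr
        obtain ⟨hx, hy⟩ := rootB_scaled (ν := ν) hE hprod hsum hσ'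
          (by
            calc P * P ≤ (c1 * ν) * (c1 * ν) := mul_le_mul' hPle hPle
              _ = ν * ν * (c1 * c1) := by ac_rfl)
          (by refine hSle.trans (le_of_eq ?_); ac_rfl)
        rw [clamp_of_one_le hν1' h1, clamp_of_le hν1' h2', clamp_of_le hν1' hx,
          clamp_of_le hν1' hy]
        refine Or.inl ⟨?_, ?_⟩
        · rw [one_mul, fold_of_le le_rfl]
        · rw [mr_of_le one_ne_zero hν0 hν1', div_one]
  · rcases lt_or_ge ν c1 with h1' | h1'
    · -- `c1` in the middle region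
      have hc1pos : 0 < c1 := lt_trans hνpos h1'
      rcases lt_or_ge ν c2 with h2' | h2'
      · -- (M, M)
        have hc2pos : 0 < c2 := lt_trans hνpos h2'
        have hc2lt1 : c2 < 1 := lt_of_le_of_lt h21 h1
        have hc12pos : 0 < c1 * c2 := mul_pos hc1pos hc2pos
        have hSe : S = c1 * c2 := by
          apply hS'
          have : max (c1 * c2) ν < c2 := by
            apply max_lt _ h2'
            calc c1 * c2 < 1 * c2 := by gcongr
              _ = c2 := one_mul _
          gcongr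
        rw [clamp_of_mem h1'.le h1.le, clamp_of_mem h2'.le hc2lt1.le]
        rcases lt_or_eq_of_le h21 with h21' | h21'
        · -- `c2 < c1`
          have hDe : D = c1 := hD' h21'
          rw [hDe] at hprod hsum hE
          have hmr : mr c1 c2 = c2 / c1 := mr_of_le hc1pos.ne' hc2pos.ne' h21
          have hu : ∀ u : Γ₀, u * (c1 * c1) = S → u = c2 / c1 := by
            intro u hu
            rw [eq_div_iff hc1pos.ne']
            apply mul_right_cancel₀ hc1pos.ne'
            rw [mul_assoc, hu, hSe, mul_comm]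
          have hc21 : ν ≤ c2 / c1 ∧ c2 / c1 ≤ 1 := by
            constructor
            · rw [le_div_iff₀ hc1pos]
              calc ν * c1 ≤ ν * 1 := by gcongr
                _ = ν := mul_one _
                _ ≤ c2 := h2'.le
            · rw [div_le_iff₀ hc1pos, one_mul]
              exact h21
          rcases lt_trichotomy (c1 * c2) ν with hc | hc | hc
          · -- `c1 * c2 < ν`
            have hPe : P = ν := by rw [hP' hc.ne, max_eq_right hc.le]
            apply rel_of_D hE hprod hsum hσ hσ'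
            · rw [hPe, hSe]
              calc ν * ν * (c1 * c1) = (ν * c1) * (ν * c1) := by ac_rfl
                _ < (c1 * c2) * (c1 * c2) := by
                  have : ν * c1 < c1 * c2 := by
                    rw [mul_comm ν c1]
                    gcongr
                  exact mul_lt_mul'' this this zero_le zero_le
            · intro u w hu' hw
              rw [hu u hu', hmr, clamp_of_mem hc21.1 hc21.2, fold_of_lt hc]
              refine ⟨rfl, ?_⟩
              have hwe : w = ν * ν / (c1 * c2) := by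
                rw [eq_div_iff hc12pos.ne', ← hPe, ← hw, hSe, mul_comm]
              rw [hwe]
              apply clamp_of_mem
              · rw [le_div_iff₀ hc12pos]
                gcongr
              · rw [div_le_iff₀ hc12pos, one_mul]
                exact mul_le_mul' h1'.le h2'.le
          · -- `c1 * c2 = ν`
            have hPle : P ≤ ν := by
              refine hP.trans ?_
              rw [hc, max_self]
            apply rel_of_D hE hprod hsum hσ hσ'
            · rw [hSe]
              calc P * P * (c1 * c1) ≤ ν * ν * (c1 * c1) := by gcongr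
                _ = (c1 * c2) * (c1 * c2) * (c1 * c1) := by rw [hc]
                _ < (c1 * c2) * (c1 * c2) * 1 := by
                  have : c1 * c1 < 1 := by
                    calc c1 * c1 < 1 * 1 := mul_lt_mul'' h1 h1 zero_le zero_le
                      _ = 1 := mul_one 1
                  have h0 : 0 < (c1 * c2) * (c1 * c2) := mul_pos hc12pos hc12pos
                  gcongr
                _ = (c1 * c2) * (c1 * c2) := mul_one _
            · intro u w hu' hw
              rw [hu u hu', hmr, clamp_of_mem hc21.1 hc21.2, hc, fold_of_le le_rfl]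
              refine ⟨rfl, ?_⟩
              apply clamp_of_le hν1'
              apply le_of_mul_le_mul_left _ hνpos
              calc ν * w = S * w := by rw [hSe, hc]
                _ = P * P := hw
                _ ≤ ν * ν := mul_le_mul' hPle hPle
          · -- `ν < c1 * c2`
            have hPe : P = c1 * c2 := by rw [hP' hc.ne', max_eq_left hc.le]
            apply rel_of_D hE hprod hsum hσ hσ'
            · rw [hPe, hSe]
              have : c1 * c1 < 1 := by
                calc c1 * c1 < 1 * 1 := mul_lt_mul'' h1 h1 zero_le zero_le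
                  _ = 1 := mul_one 1
              have h0 : 0 < (c1 * c2) * (c1 * c2) := mul_pos hc12pos hc12pos
              calc c1 * c2 * (c1 * c2) * (c1 * c1) < c1 * c2 * (c1 * c2) * 1 := by gcongr
                _ = c1 * c2 * (c1 * c2) := mul_one _
            · intro u w hu' hw
              rw [hu u hu', hmr, clamp_of_mem hc21.1 hc21.2, fold_of_le hc.le]
              refine ⟨rfl, ?_⟩
              have hwe : w = c1 * c2 := by
                apply mul_left_cancel₀ hc12pos.ne'
                rw [← hSe, hw, hPe, hSe]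
              rw [hwe]
              apply clamp_of_mem hc.le
              calc c1 * c2 ≤ 1 * 1 := mul_le_mul' h1.le hc2lt1.le
                _ = 1 := mul_one 1
        · -- `c2 = c1`
          subst h21'
          have hDpos : 0 < D := zero_lt_iff.mpr hD0
          have hD1 : D < 1 := lt_of_le_of_lt hD h1
          have hEpos : 0 < D * D := mul_pos hDpos hDpos
          have hmr : mr c2 c2 = 1 := mr_self hc2pos.ne'
          have hu : ∀ u : Γ₀, u * (D * D) = S → clamp ν u = 1 := by
            intro u hu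
            apply clamp_of_one_le hν1'
            apply le_of_mul_le_mul_right _ hEpos
            rw [one_mul, hu, hSe]
            exact mul_le_mul' hD hD
          have hDD1 : D * D < 1 := by
            calc D * D < 1 * 1 := mul_lt_mul'' hD1 hD1 zero_le zero_le
              _ = 1 := mul_one 1
          have hc22 : c2 * c2 ≤ 1 := by
            calc c2 * c2 ≤ 1 * 1 := mul_le_mul' h1.le h1.le
              _ = 1 := mul_one 1
          rcases lt_trichotomy (c2 * c2) ν with hc | hc | hc
          · -- `c2 * c2 < ν`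
            have hPe : P = ν := by rw [hP' hc.ne, max_eq_right hc.le]
            apply rel_of_D hE hprod hsum hσ hσ'
            · rw [hPe, hSe]
              calc ν * ν * (D * D) = (ν * D) * (ν * D) := by ac_rfl
                _ < (c2 * c2) * (c2 * c2) := by
                  have : ν * D < c2 * c2 := by
                    calc ν * D ≤ ν * c2 := by gcongr
                      _ < c2 * c2 := by gcongr
                  exact mul_lt_mul'' this this zero_le zero_le
            · intro u w hu' hw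
              rw [hu u hu', hmr, fold_of_lt hc]
              refine ⟨rfl, ?_⟩
              have hwe : w = ν * ν / (c2 * c2) := by
                rw [eq_div_iff hc12pos.ne', ← hPe, ← hw, hSe, mul_comm]
              rw [hwe]
              apply clamp_of_mem
              · rw [le_div_iff₀ hc12pos]
                gcongr
              · rw [div_le_iff₀ hc12pos, one_mul]
                exact mul_le_mul' h1'.le h1'.le
          · -- `c2 * c2 = ν`
            have hPle : P ≤ ν := by
              refine hP.trans ?_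
              rw [hc, max_self]
            apply rel_of_D hE hprod hsum hσ hσ'
            · rw [hSe]
              calc P * P * (D * D) ≤ ν * ν * (D * D) := by gcongr
                _ = (c2 * c2) * (c2 * c2) * (D * D) := by rw [hc]
                _ < (c2 * c2) * (c2 * c2) * 1 := by
                  have h0 : 0 < (c2 * c2) * (c2 * c2) := mul_pos hc12pos hc12pos
                  gcongr
                _ = (c2 * c2) * (c2 * c2) := mul_one _
            · intro u w hu' hw
              rw [hu u hu', hmr, hc, fold_of_le le_rfl]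
              refine ⟨rfl, ?_⟩
              apply clamp_of_le hν1'
              apply le_of_mul_le_mul_left _ hνpos
              calc ν * w = S * w := by rw [hSe, hc]
                _ = P * P := hw
                _ ≤ ν * ν := mul_le_mul' hPle hPle
          · -- `ν < c2 * c2`
            have hPe : P = c2 * c2 := by rw [hP' hc.ne', max_eq_left hc.le]
            apply rel_of_D hE hprod hsum hσ hσ'
            · rw [hPe, hSe]
              have h0 : 0 < (c2 * c2) * (c2 * c2) := mul_pos hc12pos hc12pos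
              calc c2 * c2 * (c2 * c2) * (D * D) < c2 * c2 * (c2 * c2) * 1 := by gcongr
                _ = c2 * c2 * (c2 * c2) := mul_one _
            · intro u w hu' hw
              rw [hu u hu', hmr, fold_of_le hc.le]
              refine ⟨rfl, ?_⟩
              have hwe : w = c2 * c2 := by
                apply mul_left_cancel₀ hc12pos.ne'
                rw [← hSe, hw, hPe, hSe]
              rw [hwe]
              exact clamp_of_mem hc.le hc22
      · -- (M, B)
        have hDe : D = c1 := hD' (lt_of_le_of_lt h2' h1')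
        rw [hDe] at hprod hsum hE
        have hc12 : c1 * c2 < ν := by
          calc c1 * c2 ≤ c1 * ν := by gcongr
            _ < 1 * ν := by gcongr
            _ = ν := one_mul _
        have hPe : P = ν := by rw [hP' hc12.ne, max_eq_right hc12.le]
        have hSle : S ≤ c1 * ν := by
          refine hS.trans ?_
          rw [max_eq_right hc12.le]
          apply max_le le_rfl
          gcongr
        have hc1ν : c1 * ν < ν := by
          calc c1 * ν < 1 * ν := by gcongr
            _ = ν := one_mul _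
        have hmem : ν ≤ ν / c1 ∧ ν / c1 ≤ 1 := by
          constructor
          · rw [le_div_iff₀ hc1pos]
            calc ν * c1 ≤ ν * 1 := by gcongr
              _ = ν := mul_one _
          · rw [div_le_iff₀ hc1pos, one_mul]
            exact h1'.le
        obtain ⟨hx, hy⟩ := rootC_scaled (c := ν / c1) hE hprod hsum hσ'
          (by
            rw [hPe]
            have : ν / c1 * c1 = ν := div_mul_cancel₀ ν hc1pos.ne'
            calc ν * ν = (ν / c1 * c1) * (ν / c1 * c1) := by rw [this]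
              _ = ν / c1 * (ν / c1) * (c1 * c1) := by ac_rfl)
          (by
            refine hSle.trans (le_of_eq ?_)
            have : ν / c1 * c1 = ν := div_mul_cancel₀ ν hc1pos.ne'
            calc c1 * ν = c1 * (ν / c1 * c1) := by rw [this]
              _ = ν / c1 * (c1 * c1) := by ac_rfl)
        rw [clamp_of_mem h1'.le h1.le, clamp_of_le hν1' h2', hx, hy,
          clamp_of_mem hmem.1 hmem.2]
        refine Or.inl ⟨?_, ?_⟩
        · rw [fold_of_lt hc1ν]
          rw [eq_div_iff (mul_pos hc1pos hνpos).ne']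
          calc ν / c1 * (c1 * ν) = (ν / c1 * c1) * ν := by ac_rfl
            _ = ν * ν := by rw [div_mul_cancel₀ ν hc1pos.ne']
        · rw [mr_of_le hc1pos.ne' hν0 h1'.le]
    · -- (B, B)
      have h2' : c2 ≤ ν := h21.trans h1'
      have hDν : D ≤ ν := hD.trans h1'
      have hc12 : c1 * c2 < ν := by
        calc c1 * c2 ≤ ν * ν := mul_le_mul' h1' h2'
          _ < ν := hνν
      have hPe : P = ν := by rw [hP' hc12.ne, max_eq_right hc12.le]
      have hSle : S ≤ ν * ν := by
        refine hS.trans ?_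
        rw [max_eq_right hc12.le]
        apply max_le
        · gcongr
        · exact mul_le_mul' h1' h2'
      obtain ⟨hx, hy⟩ := rootA_scaled hE hprod hsum hσ'
        (by rw [hPe]; exact mul_le_mul' hDν hDν)
        (by rw [hPe]; exact hSle)
      rw [clamp_of_le hν1' h1', clamp_of_le hν1' h2', clamp_of_one_le hν1' hx,
        clamp_of_one_le hν1' hy]
      refine Or.inl ⟨?_, ?_⟩
      · rw [fold_of_lt hνν, div_self (mul_pos hνpos hνpos).ne']
      · rw [mr_self hν0]

theorem rel_core {ν c1 c2 x y D P S σ : Γ₀} (hν0 : ν ≠ 0) (hν1 : ν < 1)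
    (hD0 : D ≠ 0) (hD : D ≤ max c1 c2) (hD' : c1 ≠ c2 → D = max c1 c2)
    (hP : P ≤ max (c1 * c2) ν) (hP' : c1 * c2 ≠ ν → P = max (c1 * c2) ν)
    (hS : S ≤ max (max c1 c2 * max (c1 * c2) ν) (c1 * c2))
    (hS' : max c1 c2 * max (c1 * c2) ν < c1 * c2 → S = c1 * c2)
    (hprod : x * y * (D * D) = P * P) (hsum : σ * (D * D) = S)
    (hσ : σ ≤ max x y) (hσ' : x ≠ y → σ = max x y) :
    Rel ν (clamp ν c1) (clamp ν c2) (clamp ν x) (clamp ν y) := by
  rcases le_total c2 c1 with h | h
  · rw [max_eq_left h] at hD hS hS'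
    refine rel_core_aux hν0 hν1 h hD0 hD (fun hlt => ?_) hP hP' hS hS' hprod hsum hσ hσ'
    rw [hD' hlt.ne', max_eq_left h]
  · rw [max_eq_right h] at hD hS hS'
    rw [mul_comm c1 c2] at hP hP' hS hS'
    refine (rel_core_aux hν0 hν1 h hD0 hD (fun hlt => ?_) hP hP' hS hS' hprod hsum hσ hσ').symm12
    rw [hD' hlt.ne, max_eq_right h]

/-! ### The component law for the Legendre curve `Y² = X (X - al) (X + be)` -/

section Valued

variable {K : Type*} [Field K] (v : Valuation K Γ₀)

/-- Unsigned component law for `P₁ ± P₂` (`X₁ ≠ X₂`), from the two symmetric identities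
`F1` (sum) and `F2` (product) of the `X`-coordinates of `P₁ + P₂` and `P₁ - P₂`. -/
theorem add_law {al be X1 X2 Xp Xm : K} (h2 : v 2 = 1) (hbe : v be = 1) (hal : v al < 1)
    (hal0 : al ≠ 0) (hne : X1 ≠ X2)
    (F1 : Xp + Xm =
      2 * ((X1 + X2) * (X1 * X2 - al * be) + 2 * (be - al) * (X1 * X2)) / (X1 - X2) ^ 2)
    (F2 : Xp * Xm = (X1 * X2 + al * be) ^ 2 / (X1 - X2) ^ 2) :
    Rel (v al) (clamp (v al) (v X1)) (clamp (v al) (v X2)) (clamp (v al) (v Xp))
      (clamp (v al) (v Xm)) := by
  have hν0 : v al ≠ 0 := (v.ne_zero_iff).mpr hal0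
  have hsub : X1 - X2 ≠ 0 := sub_ne_zero.mpr hne
  have hD0 : v (X1 - X2) ≠ 0 := (v.ne_zero_iff).mpr hsub
  have hsq : (X1 - X2) ^ 2 ≠ 0 := pow_ne_zero 2 hsub
  have hab : v (al * be) = v al := by rw [map_mul, hbe, mul_one]
  have hbal : v (be - al) = 1 := by
    rw [v.map_sub_eq_of_lt_left (by rw [hbe]; exact hal), hbe]
  have hterm2 : v (2 * (be - al) * (X1 * X2)) = v X1 * v X2 := by
    rw [map_mul, map_mul, map_mul, h2, hbal, one_mul, one_mul]
  have hsumle : v (X1 + X2) ≤ max (v X1) (v X2) := v.map_add X1 X2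
  have hmle : v (X1 * X2 - al * be) ≤ max (v X1 * v X2) (v al) := by
    refine (v.map_sub _ _).trans ?_
    rw [map_mul, hab]
  have hterm1 : v ((X1 + X2) * (X1 * X2 - al * be)) ≤
      max (v X1) (v X2) * max (v X1 * v X2) (v al) := by
    rw [map_mul]
    exact mul_le_mul' hsumle hmle
  refine rel_core (D := v (X1 - X2)) (P := v (X1 * X2 + al * be))
    (S := v ((X1 + X2) * (X1 * X2 - al * be) + 2 * (be - al) * (X1 * X2)))
    (σ := v (Xp + Xm)) hν0 hal hD0 (v.map_sub X1 X2) ?_ ?_ ?_ ?_ ?_ ?_ ?_ (v.map_add Xp Xm)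
    (fun h => v.map_add_of_distinct_val h)
  · intro h
    rw [sub_eq_add_neg]
    have := v.map_add_of_distinct_val (x := X1) (y := -X2) (by rwa [v.map_neg])
    rwa [v.map_neg] at this
  · refine (v.map_add _ _).trans ?_
    rw [map_mul, hab]
  · intro h
    have := v.map_add_of_distinct_val (x := X1 * X2) (y := al * be) (by rwa [map_mul, hab])
    rwa [map_mul, hab] at this
  · refine (v.map_add _ _).trans ?_
    rw [hterm2]
    exact max_le_max hterm1 le_rfl
  · intro h
    rw [v.map_add_eq_of_lt_right (by rw [hterm2]; exact lt_of_le_of_lt hterm1 h), hterm2]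
  · have e : Xp * Xm * ((X1 - X2) * (X1 - X2)) = (X1 * X2 + al * be) * (X1 * X2 + al * be) := by
      rw [F2]
      field_simp
    have := congrArg v e
    simpa only [map_mul] using this
  · have e : (Xp + Xm) * ((X1 - X2) * (X1 - X2)) =
        2 * ((X1 + X2) * (X1 * X2 - al * be) + 2 * (be - al) * (X1 * X2)) := by
      rw [F1]
      field_simp
    have := congrArg v e
    rw [map_mul, map_mul, map_mul, h2, one_mul] at this
    exact this

/-- Doubling law: `X' = X(2P)` for `2P ≠ O`. -/
theorem double_law {al be X X' : K} (h2 : v 2 = 1) (hbe : v be = 1) (hal : v al < 1)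
    (hal0 : al ≠ 0) (hg : X * (X - al) * (X + be) ≠ 0)
    (F3 : X' = (X ^ 2 + al * be) ^ 2 / (4 * (X * (X - al) * (X + be)))) :
    clamp (v al) (v X') = fold (v al) (clamp (v al) (v X) * clamp (v al) (v X)) := by
  set ν := v al with hνdef
  have hν0 : ν ≠ 0 := (v.ne_zero_iff).mpr hal0
  have hνpos : 0 < ν := zero_lt_iff.mpr hν0
  have hν1' : ν ≤ 1 := hal.le
  have hνν : ν * ν < ν := by
    calc ν * ν < ν * 1 := by gcongr
      _ = ν := mul_one ν
  have hab : v (al * be) = ν := by rw [map_mul, hbe, mul_one]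
  have h4 : v (4 : K) = 1 := by
    have : (4 : K) = 2 * 2 := by norm_num
    rw [this, map_mul, h2, mul_one]
  have hgv : v (X * (X - al) * (X + be)) ≠ 0 := (v.ne_zero_iff).mpr hg
  have hgpos : 0 < v (X * (X - al) * (X + be)) := zero_lt_iff.mpr hgv
  have hX0 : X ≠ 0 := by
    intro h
    rw [h] at hg
    simp at hg
  have hcpos : 0 < v X := zero_lt_iff.mpr ((v.ne_zero_iff).mpr hX0)
  have hXal : X - al ≠ 0 := by
    intro h
    rw [h] at hg
    simp at hg
  have hXbe : X + be ≠ 0 := by
    intro h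
    rw [h] at hg
    simp at hg
  have h4' : (4 : K) ≠ 0 := by
    intro h
    rw [h, map_zero] at h4
    exact zero_ne_one h4
  have e : X' * (X * (X - al) * (X + be)) * 4 = (X * X + al * be) * (X * X + al * be) := by
    rw [F3]
    field_simp
  have ev : v X' * v (X * (X - al) * (X + be)) = v (X * X + al * be) * v (X * X + al * be) := by
    have := congrArg v e
    rw [map_mul, map_mul, h4, mul_one] at this
    rw [this, map_mul]
  have hgmul : v (X * (X - al) * (X + be)) = v X * v (X - al) * v (X + be) := by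
    rw [map_mul, map_mul]
  rcases le_or_gt 1 (v X) with h1 | h1
  · -- identity region
    have hcc : 1 ≤ v X * v X := by
      calc (1 : Γ₀) = 1 * 1 := (mul_one 1).symm
        _ ≤ v X * v X := mul_le_mul' h1 h1
    have hP : v (X * X + al * be) = v X * v X := by
      rw [v.map_add_eq_of_lt_left (by rw [hab, map_mul]; exact lt_of_lt_of_le hal hcc), map_mul]
    have hg1 : v (X - al) ≤ v X := by
      refine (v.map_sub _ _).trans (max_le le_rfl ?_)
      exact hν1'.trans h1
    have hg2 : v (X + be) ≤ v X := by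
      refine (v.map_add _ _).trans (max_le le_rfl ?_)
      rw [hbe]
      exact h1
    have hgle : v (X * (X - al) * (X + be)) ≤ v X * v X * v X := by
      rw [hgmul]
      exact mul_le_mul' (mul_le_mul' le_rfl hg1) hg2
    have hx' : 1 ≤ v X' := by
      have h3 : v X * (v X * v X * v X) ≤ v X' * (v X * v X * v X) := by
        calc v X * (v X * v X * v X) = v X * v X * (v X * v X) := by ac_rfl
          _ = v X' * v (X * (X - al) * (X + be)) := by rw [ev, hP]
          _ ≤ v X' * (v X * v X * v X) := by gcongr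
      have h5 := le_of_mul_le_mul_right h3 (mul_pos (mul_pos hcpos hcpos) hcpos)
      exact h1.trans h5
    rw [clamp_of_one_le hν1' hx', clamp_of_one_le hν1' h1, mul_one, fold_of_le hν1']
  · have hg2 : v (X + be) = 1 := by
      rw [v.map_add_eq_of_lt_right (by rw [hbe]; exact h1), hbe]
    rcases lt_or_ge ν (v X) with h1' | h1'
    · -- middle region
      have hg1 : v (X - al) = v X := v.map_sub_eq_of_lt_left h1'
      have hgv' : v (X * (X - al) * (X + be)) = v X * v X := by
        rw [hgmul, hg1, hg2, mul_one]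
      rw [hgv'] at ev
      have hPle : v (X * X + al * be) ≤ max (v X * v X) ν := by
        refine (v.map_add _ _).trans ?_
        rw [map_mul, hab]
      have hcc1 : v X * v X ≤ 1 := by
        calc v X * v X ≤ 1 * 1 := mul_le_mul' h1.le h1.le
          _ = 1 := mul_one 1
      have hccpos : 0 < v X * v X := mul_pos hcpos hcpos
      rw [clamp_of_mem h1'.le h1.le]
      rcases lt_trichotomy (v X * v X) ν with hc | hc | hc
      · have hP : v (X * X + al * be) = ν := by
          rw [v.map_add_eq_of_lt_right (by rw [map_mul, hab]; exact hc), hab]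
        rw [hP] at ev
        have hx' : v X' = ν * ν / (v X * v X) := by
          rw [eq_div_iff hccpos.ne']
          exact ev
        rw [fold_of_lt hc, hx']
        apply clamp_of_mem
        · rw [le_div_iff₀ hccpos]
          gcongr
        · rw [div_le_iff₀ hccpos, one_mul]
          exact mul_le_mul' h1'.le h1'.le
      · have hPle' : v (X * X + al * be) ≤ ν := by
          refine hPle.trans ?_
          rw [hc, max_self]
        rw [hc, fold_of_le le_rfl]
        apply clamp_of_le hν1'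
        apply le_of_mul_le_mul_right _ hνpos
        calc v X' * ν = v X' * (v X * v X) := by rw [hc]
          _ = v (X * X + al * be) * v (X * X + al * be) := ev
          _ ≤ ν * ν := mul_le_mul' hPle' hPle'
      · have hP : v (X * X + al * be) = v X * v X := by
          rw [v.map_add_eq_of_lt_left (by rw [hab, map_mul]; exact hc), map_mul]
        rw [hP] at ev
        have hx' : v X' = v X * v X := mul_right_cancel₀ hccpos.ne' ev
        rw [fold_of_le hc.le, hx']
        exact clamp_of_mem hc.le hcc1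
    · -- the far region `v X ≤ ν`
      have hcc : v X * v X < ν := by
        calc v X * v X ≤ ν * ν := mul_le_mul' h1' h1'
          _ < ν := hνν
      have hP : v (X * X + al * be) = ν := by
        rw [v.map_add_eq_of_lt_right (by rw [map_mul, hab]; exact hcc), hab]
      have hg1 : v (X - al) ≤ ν := (v.map_sub _ _).trans (max_le h1' le_rfl)
      have hgle : v (X * (X - al) * (X + be)) ≤ ν * ν := by
        rw [hgmul, hg2, mul_one]
        exact mul_le_mul' h1' hg1
      rw [hP] at ev
      have hx' : 1 ≤ v X' := by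
        have h3 : 1 * (ν * ν) ≤ v X' * (ν * ν) := by
          calc 1 * (ν * ν) = ν * ν := one_mul _
            _ = v X' * v (X * (X - al) * (X + be)) := ev.symm
            _ ≤ v X' * (ν * ν) := by gcongr
        exact le_of_mul_le_mul_right h3 (mul_pos hνpos hνpos)
      rw [clamp_of_one_le hν1' hx', clamp_of_le hν1' h1', fold_of_lt hνν,
        div_self (mul_pos hνpos hνpos).ne']

/-- `add_law` in the shape produced by `Fermat.Agent.S05.Ident.add_sub_of_X_ne`
(`a = W.a₂`, `b = W.a₄`). -/
theorem add_law_ab {a b al be x1 x2 x3 x4 : K} (ha : a = be - al) (hb : b = -(al * be))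
    (h2 : v 2 = 1) (hbe : v be = 1) (hal : v al < 1) (hal0 : al ≠ 0) (hne : x1 ≠ x2)
    (F1 : x3 + x4 = 2 * ((x1 + x2) * (x1 * x2 + b) + 2 * a * x1 * x2) / (x1 - x2) ^ 2)
    (F2 : x3 * x4 = ((x1 * x2 - b) / (x1 - x2)) ^ 2) :
    Rel (v al) (clamp (v al) (v x1)) (clamp (v al) (v x2)) (clamp (v al) (v x3))
      (clamp (v al) (v x4)) := by
  apply add_law v h2 hbe hal hal0 hne
  · rw [F1, ha, hb]
    congr 1
    ring
  · rw [F2, hb, div_pow]
    congr 1
    ring

/-- `double_law` in the shape produced by `Fermat.Agent.S05.Ident.add_self_leg`. -/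
theorem double_law_ab {a b al be x y x' : K} (ha : a = be - al) (hb : b = -(al * be))
    (h2 : v 2 = 1) (hbe : v be = 1) (hal : v al < 1) (hal0 : al ≠ 0) (hy : y ≠ 0)
    (heq : y ^ 2 = x ^ 3 + a * x ^ 2 + b * x) (F3 : x' = (x ^ 2 - b) ^ 2 / (4 * y ^ 2)) :
    clamp (v al) (v x') = fold (v al) (clamp (v al) (v x) * clamp (v al) (v x)) := by
  have hyy : y ^ 2 = x * (x - al) * (x + be) := by
    rw [heq, ha, hb]
    ring
  apply double_law v h2 hbe hal hal0 (X := x)
  · rw [← hyy]
    exact pow_ne_zero 2 hy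
  · rw [F3, ← hyy, hb]
    congr 2
    ring

end Valued

/-! ### The abstract induction: `h (n • P)` is the normal form of `j ^ n` -/

/-- `a` and `b` differ by the action of the infinite dihedral group generated by
`c ↦ c * ν ^ 2` and `c ↦ c⁻¹`. -/
def Sim (ν a b : Γ₀) : Prop := ∃ k : ℤ, a = b * ν ^ (2 * k) ∨ a * b = ν ^ (2 * k)

theorem Sim.refl (ν a : Γ₀) : Sim ν a a := ⟨0, Or.inl (by simp)⟩

theorem Sim.symm {ν a b : Γ₀} (hν : ν ≠ 0) (h : Sim ν a b) : Sim ν b a := by
  obtain ⟨k, h | h⟩ := h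
  · refine ⟨-k, Or.inl ?_⟩
    rw [h, mul_assoc, ← zpow_add₀ hν]
    simp
  · exact ⟨k, Or.inr (by rw [mul_comm]; exact h)⟩

theorem Sim.trans {ν a b c : Γ₀} (hν : ν ≠ 0) (hb : b ≠ 0) (h1 : Sim ν a b) (h2 : Sim ν b c) :
    Sim ν a c := by
  obtain ⟨k, h1 | h1⟩ := h1 <;> obtain ⟨l, h2 | h2⟩ := h2
  · refine ⟨l + k, Or.inl ?_⟩
    rw [h1, h2, mul_assoc, ← zpow_add₀ hν, mul_add]
  · refine ⟨l + k, Or.inr ?_⟩
    rw [h1, mul_right_comm, h2, ← zpow_add₀ hν, mul_add]
  · refine ⟨k - l, Or.inr ?_⟩
    have hz : ν ^ (2 * l) ≠ 0 := zpow_ne_zero _ hν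
    apply mul_right_cancel₀ hz
    rw [mul_assoc, ← h2, h1, ← zpow_add₀ hν]
    congr 1
    ring
  · refine ⟨k - l, Or.inl ?_⟩
    have hz : ν ^ (2 * l) ≠ 0 := zpow_ne_zero _ hν
    apply mul_right_cancel₀ hb
    rw [h1]
    apply mul_right_cancel₀ hz
    calc ν ^ (2 * k) * ν ^ (2 * l) = ν ^ (2 * k) * (b * c) := by rw [h2]
      _ = c * ν ^ (2 * k) * b := by ac_rfl
      _ = c * (ν ^ (2 * (k - l)) * ν ^ (2 * l)) * b := by
        rw [← zpow_add₀ hν]
        congr 3
        ring
      _ = c * ν ^ (2 * (k - l)) * b * ν ^ (2 * l) := by ac_rfl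

theorem Sim.eq_of_mem {ν a b : Γ₀} (hν0 : ν ≠ 0) (hν1 : ν < 1) (ha : ν ≤ a) (ha1 : a ≤ 1)
    (hb : ν ≤ b) (hb1 : b ≤ 1) (h : Sim ν a b) : a = b := by
  have hνpos : 0 < ν := zero_lt_iff.mpr hν0
  have hνν : ν * ν < ν := by
    calc ν * ν < ν * 1 := by gcongr
      _ = ν := mul_one ν
  have hpow2 : ν ^ (2 : ℤ) = ν * ν := by
    rw [show (2 : ℤ) = 1 + 1 by norm_num, zpow_add₀ hν0, zpow_one]
  obtain ⟨k, h | h⟩ := h
  · rcases lt_trichotomy k 0 with hk | hk | hk
    · exfalso
      -- `b = a * ν ^ (2 * -k)` and `-k ≥ 1`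
      have hb' : b = a * ν ^ (2 * (-k)) := by
        rw [h, mul_assoc, ← zpow_add₀ hν0]
        simp
      have hle : ν ^ (2 * (-k)) ≤ ν ^ (2 : ℤ) :=
        zpow_le_zpow_right_of_le_one₀ hνpos hν1.le (by omega)
      have : b < ν := by
        calc b = a * ν ^ (2 * (-k)) := hb'
          _ ≤ 1 * ν ^ (2 : ℤ) := mul_le_mul' ha1 hle
          _ = ν * ν := by rw [one_mul, hpow2]
          _ < ν := hνν
      exact absurd hb (not_le.mpr this)
    · rw [h, hk]
      simp
    · exfalso
      have hle : ν ^ (2 * k) ≤ ν ^ (2 : ℤ) :=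
        zpow_le_zpow_right_of_le_one₀ hνpos hν1.le (by omega)
      have : a < ν := by
        calc a = b * ν ^ (2 * k) := h
          _ ≤ 1 * ν ^ (2 : ℤ) := mul_le_mul' hb1 hle
          _ = ν * ν := by rw [one_mul, hpow2]
          _ < ν := hνν
      exact absurd ha (not_le.mpr this)
  · have hab1 : a * b ≤ 1 := by
      calc a * b ≤ 1 * 1 := mul_le_mul' ha1 hb1
        _ = 1 := mul_one 1
    have habν : ν * ν ≤ a * b := mul_le_mul' ha hb
    rcases lt_trichotomy k 1 with hk | hk | hk
    · -- `k ≤ 0`: `a * b ≥ 1`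
      have h1 : 1 ≤ a * b := by
        rw [h]
        exact one_le_zpow_of_nonpos₀ hνpos hν1.le (by omega)
      have hab : a * b = 1 := le_antisymm hab1 h1
      have ha' : a = 1 := by
        apply le_antisymm ha1
        calc (1 : Γ₀) = a * b := hab.symm
          _ ≤ a * 1 := by gcongr
          _ = a := mul_one a
      have hb' : b = 1 := by
        rw [ha', one_mul] at hab
        exact hab
      rw [ha', hb']
    · -- `k = 1`: `a * b = ν * ν`
      rw [hk, mul_one, hpow2] at h
      have ha' : a = ν := by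
        apply le_antisymm _ ha
        by_contra hcon
        rw [not_le] at hcon
        have : ν * ν < a * b := by
          calc ν * ν < a * ν := by gcongr
            _ ≤ a * b := by gcongr
        exact absurd h this.ne'
      have hb' : b = ν := by
        rw [ha'] at h
        exact mul_left_cancel₀ hν0 h
      rw [ha', hb']
    · exfalso
      have hlt : ν ^ (2 * k) < ν ^ (2 : ℤ) :=
        zpow_lt_zpow_right_of_lt_one₀ hνpos hν1 (by omega)
      rw [← h, hpow2] at hlt
      exact absurd habν (not_le.mpr hlt)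

theorem sim_fold {ν c : Γ₀} (hν : ν ≠ 0) (hc : c ≠ 0) : Sim ν (fold ν c) c := by
  unfold fold
  split_ifs with h
  · exact Sim.refl ν c
  · refine ⟨1, Or.inr ?_⟩
    rw [div_mul_cancel₀ _ hc, mul_one, show (2 : ℤ) = 1 + 1 by norm_num, zpow_add₀ hν, zpow_one]

theorem sim_mr {ν x y : Γ₀} (hx : x ≠ 0) (hy : y ≠ 0) : Sim ν (mr x y) (x / y) := by
  unfold mr
  rcases min_choice (x / y) (y / x) with h | h
  · rw [h]
    exact Sim.refl ν _
  · rw [h]
    refine ⟨0, Or.inr ?_⟩
    rw [mul_zero, zpow_zero, div_mul_div_comm, mul_comm y x, div_self (mul_ne_zero hx hy)]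

theorem sim_step {ν j a : Γ₀} (hj : j ≠ 0) {n : ℕ} (hn : 1 ≤ n) (h : Sim ν a (j ^ n)) :
    (Sim ν (a * j) (j ^ (n + 1)) ∧ Sim ν (a / j) (j ^ (n - 1))) ∨
      (Sim ν (a * j) (j ^ (n - 1)) ∧ Sim ν (a / j) (j ^ (n + 1))) := by
  obtain ⟨m, rfl⟩ : ∃ m, n = m + 1 := ⟨n - 1, by omega⟩
  rw [Nat.add_sub_cancel]
  obtain ⟨k, h | h⟩ := h
  · left
    constructor
    · refine ⟨k, Or.inl ?_⟩
      rw [h, pow_succ j (m + 1)]
      ac_rfl
    · refine ⟨k, Or.inl ?_⟩
      rw [h, pow_succ j m, div_eq_iff hj]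
      ac_rfl
  · right
    constructor
    · refine ⟨k, Or.inr ?_⟩
      rw [← h, pow_succ j m]
      ac_rfl
    · refine ⟨k, Or.inr ?_⟩
      rw [← h, pow_succ j (m + 1), div_mul_eq_mul_div, div_eq_iff hj]
      ac_rfl

/-- The abstract induction.  If `h 0 = 1`, `h 1 = j` and the component law holds along the
sequence, then `h n` is equivalent to `j ^ n`. -/
theorem seq_law {ν j : Γ₀} (hν0 : ν ≠ 0) (hν1 : ν < 1) (hj : ν ≤ j) (h : ℕ → Γ₀)
    (hmem : ∀ n, ν ≤ h n ∧ h n ≤ 1) (h0 : h 0 = 1) (h1 : h 1 = j)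
    (hR : ∀ n, 1 ≤ n → Rel ν (h n) j (h (n + 1)) (h (n - 1))) :
    ∀ n : ℕ, Sim ν (h n) (j ^ n) := by
  have hνpos : 0 < ν := zero_lt_iff.mpr hν0
  have hj0 : j ≠ 0 := (lt_of_lt_of_le hνpos hj).ne'
  have hh0 : ∀ n, h n ≠ 0 := fun n => (lt_of_lt_of_le hνpos (hmem n).1).ne'
  have key : ∀ n : ℕ, Sim ν (h n) (j ^ n) ∧ Sim ν (h (n + 1)) (j ^ (n + 1)) := by
    intro n
    induction n with
    | zero =>
      refine ⟨?_, ?_⟩
      · rw [h0, pow_zero]
        exact Sim.refl ν 1
      · rw [h1, zero_add, pow_one]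
        exact Sim.refl ν j
    | succ n ih =>
      refine ⟨ih.2, ?_⟩
      have hRn := hR (n + 1) (by omega)
      rw [Nat.add_sub_cancel] at hRn
      have hstep := sim_step (ν := ν) hj0 (n := n + 1) (by omega) ih.2
      rw [Nat.add_sub_cancel] at hstep
      have hmul0 : h (n + 1) * j ≠ 0 := mul_ne_zero (hh0 _) hj0
      have hdiv0 : h (n + 1) / j ≠ 0 := div_ne_zero (hh0 _) hj0
      have hf : Sim ν (fold ν (h (n + 1) * j)) (h (n + 1) * j) := sim_fold hν0 hmul0
      have hm : Sim ν (mr (h (n + 1)) j) (h (n + 1) / j) := sim_mr (hh0 _) hj0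
      have hpn : j ^ n ≠ 0 := pow_ne_zero _ hj0
      rcases hRn with ⟨hA1, hA2⟩ | ⟨hB1, hB2⟩ <;> rcases hstep with ⟨hs1, hs2⟩ | ⟨hs1, hs2⟩
      · -- `h (n+2) = fold`, `fold ~ j^(n+2)`
        rw [hA1]
        exact hf.trans hν0 hmul0 hs1
      · -- `h (n+2) = fold ~ j^n ~ h n`, hence `h (n+2) = h n = mr ~ j^(n+2)`
        have e1 : Sim ν (h (n + 1 + 1)) (j ^ n) := by
          rw [hA1]
          exact hf.trans hν0 hmul0 hs1
        have e2 : Sim ν (h (n + 1 + 1)) (h n) := e1.trans hν0 hpn (ih.1.symm hν0)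
        have e3 : h (n + 1 + 1) = h n :=
          e2.eq_of_mem hν0 hν1 (hmem _).1 (hmem _).2 (hmem _).1 (hmem _).2
        rw [e3, hA2]
        exact hm.trans hν0 hdiv0 hs2
      · -- `h (n+2) = mr ~ j^n ~ h n`, hence `h (n+2) = h n = fold ~ j^(n+2)`
        have e1 : Sim ν (h (n + 1 + 1)) (j ^ n) := by
          rw [hB2]
          exact hm.trans hν0 hdiv0 hs2
        have e2 : Sim ν (h (n + 1 + 1)) (h n) := e1.trans hν0 hpn (ih.1.symm hν0)
        have e3 : h (n + 1 + 1) = h n :=
          e2.eq_of_mem hν0 hν1 (hmem _).1 (hmem _).2 (hmem _).1 (hmem _).2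
        rw [e3, hB1]
        exact hf.trans hν0 hmul0 hs1
      · rw [hB2]
        exact hm.trans hν0 hdiv0 hs2
  exact fun n => (key n).1

/-- If `h p = 1` then `j ^ p` is an even power of `ν`. -/
theorem pow_eq_zpow_of_seq {ν j : Γ₀} (hν0 : ν ≠ 0) (hν1 : ν < 1) (hj : ν ≤ j) (h : ℕ → Γ₀)
    (hmem : ∀ n, ν ≤ h n ∧ h n ≤ 1) (h0 : h 0 = 1) (h1 : h 1 = j)
    (hR : ∀ n, 1 ≤ n → Rel ν (h n) j (h (n + 1)) (h (n - 1))) {p : ℕ} (hp : h p = 1) :
    ∃ k : ℤ, j ^ p = ν ^ (2 * k) := by
  have hs := seq_law hν0 hν1 hj h hmem h0 h1 hR p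
  rw [hp] at hs
  obtain ⟨k, hk | hk⟩ := hs
  · refine ⟨-k, ?_⟩
    have hz : ν ^ (2 * k) ≠ 0 := zpow_ne_zero _ hν0
    apply mul_right_cancel₀ hz
    rw [← hk, ← zpow_add₀ hν0]
    simp
  · exact ⟨k, by rw [← hk, one_mul]⟩

/-- Torsion points have rational height: if `ν = d ^ p` with `p` odd and `h p = 1`, then
`j = h 1` is an even power of `d`, and `j ≠ ν`. -/
theorem torsion_height {ν j d : Γ₀} {p : ℕ} (hodd : Odd p) (hν0 : ν ≠ 0) (hν1 : ν < 1)
    (hνd : ν = d ^ p) (hj : ν ≤ j) (h : ℕ → Γ₀)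
    (hmem : ∀ n, ν ≤ h n ∧ h n ≤ 1) (h0 : h 0 = 1) (h1 : h 1 = j)
    (hR : ∀ n, 1 ≤ n → Rel ν (h n) j (h (n + 1)) (h (n - 1))) (hp : h p = 1) :
    (∃ k : ℤ, j = d ^ (2 * k)) ∧ j ≠ ν := by
  have hp0 : p ≠ 0 := by
    rintro rfl
    simp at hodd
  have hd0 : d ≠ 0 := by
    rintro rfl
    rw [zero_pow hp0] at hνd
    exact hν0 hνd
  have hdpos : 0 < d := zero_lt_iff.mpr hd0
  obtain ⟨k, hk⟩ := pow_eq_zpow_of_seq hν0 hν1 hj h hmem h0 h1 hR hp
  have hk' : j ^ p = (d ^ (2 * k)) ^ p := by
    rw [hk, hνd, ← zpow_natCast d p, ← zpow_mul, ← zpow_natCast (d ^ (2 * k)) p, ← zpow_mul,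
      mul_comm]
  have hjd : j = d ^ (2 * k) :=
    (pow_left_inj₀ zero_le zero_le hp0).mp hk'
  refine ⟨⟨k, hjd⟩, ?_⟩
  intro hjν
  have hd1 : d ≠ 1 := by
    rintro rfl
    rw [one_pow] at hνd
    exact hν1.ne hνd
  have he : d ^ (2 * k) = d ^ (p : ℤ) := by
    rw [← hjd, hjν, hνd, zpow_natCast]
  have := zpow_right_injective₀ hdpos hd1 he
  obtain ⟨m, hm⟩ := hodd
  have hm' : (p : ℤ) = 2 * (m : ℤ) + 1 := by
    rw [hm]
    push_cast
    ring
  omega

/-- Output shape of Part 3: if `h p = 1` with `p` odd, then `ν < j` and `j ^ p` is an even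
power of `ν`. -/
theorem height_of_torsion {ν j : Γ₀} {p : ℕ} (hodd : Odd p) (hν0 : ν ≠ 0) (hν1 : ν < 1)
    (hj : ν ≤ j) (h : ℕ → Γ₀) (hmem : ∀ n, ν ≤ h n ∧ h n ≤ 1) (h0 : h 0 = 1) (h1 : h 1 = j)
    (hR : ∀ n, 1 ≤ n → Rel ν (h n) j (h (n + 1)) (h (n - 1))) (hp : h p = 1) :
    ν < j ∧ ∃ k : ℤ, j ^ p = ν ^ (2 * k) := by
  have hνpos : 0 < ν := zero_lt_iff.mpr hν0
  obtain ⟨k, hk⟩ := pow_eq_zpow_of_seq hν0 hν1 hj h hmem h0 h1 hR hp
  refine ⟨lt_of_le_of_ne hj ?_, k, hk⟩
  intro hjν
  rw [← hjν, ← zpow_natCast ν p] at hk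
  have := zpow_right_injective₀ hνpos hν1.ne hk
  obtain ⟨m, hm⟩ := hodd
  have hm' : (p : ℤ) = 2 * (m : ℤ) + 1 := by
    rw [hm]
    push_cast
    ring
  omega

end Fermat.Agent.S05.KeyLemma
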