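import Mathlib.AlgebraicGeometry.EllipticCurve.Affine.Point

set_option autoImplicit false

/-!
Explicit identities for the group law on a Weierstrass curve of the shape
`y² = x³ + a x² + b x` (`a₁ = a₃ = a₆ = 0`, `a = a₂`, `b = a₄`), stated on Mathlib's affine points.
-/

namespace Fermat.Agent.S05.Ident

open WeierstrassCurve WeierstrassCurve.Affine

variable {K : Type*} [Field K] {W : WeierstrassCurve K}

/-- The Weierstrass equation in the shape `y² = x³ + a x² + b x`. -/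
theorem equation_iff_leg (h₁ : W.a₁ = 0) (h₃ : W.a₃ = 0) (h₆ : W.a₆ = 0) (x y : K) :
    W.toAffine.Equation x y ↔ y ^ 2 = x ^ 3 + W.a₂ * x ^ 2 + W.a₄ * x := by
  rw [Affine.equation_iff, h₁, h₃, h₆]
  constructor <;> intro h <;> linear_combination h

theorem negY_leg (h₁ : W.a₁ = 0) (h₃ : W.a₃ = 0) (x y : K) : W.toAffine.negY x y = -y := by
  simp [Affine.negY, h₁, h₃]

theorem neg_some_leg (h₁ : W.a₁ = 0) (h₃ : W.a₃ = 0) {x y : K} (h : W.toAffine.Nonsingular x y) :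
    ∃ h' : W.toAffine.Nonsingular x (-y), -Point.some x y h = Point.some x (-y) h' := by
  have hn : W.toAffine.negY x y = -y := negY_leg h₁ h₃ x y
  have h' : W.toAffine.Nonsingular x (-y) := by
    rw [← hn]; exact (Affine.nonsingular_neg x y).mpr h
  refine ⟨h', ?_⟩
  rw [Point.neg_some]
  congr 1

theorem nonsingular_neg_leg (h₁ : W.a₁ = 0) (h₃ : W.a₃ = 0) {x y : K}
    (h : W.toAffine.Nonsingular x y) : W.toAffine.Nonsingular x (-y) :=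
  (neg_some_leg h₁ h₃ h).1

variable [DecidableEq K]

/-- Chord formulas: sum and difference of two affine points with distinct `x`-coordinates. -/
theorem add_of_X_ne_leg (h₁ : W.a₁ = 0) (h₃ : W.a₃ = 0) {x₁ y₁ x₂ y₂ : K}
    (hP₁ : W.toAffine.Nonsingular x₁ y₁) (hP₂ : W.toAffine.Nonsingular x₂ y₂) (hx : x₁ ≠ x₂) :
    ∃ (x₃ y₃ : K) (hP₃ : W.toAffine.Nonsingular x₃ y₃),
      Point.some x₁ y₁ hP₁ + Point.some x₂ y₂ hP₂ = Point.some x₃ y₃ hP₃ ∧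
      x₃ = ((y₁ - y₂) / (x₁ - x₂)) ^ 2 - W.a₂ - x₁ - x₂ ∧
      y₃ = -((y₁ - y₂) / (x₁ - x₂) * (x₃ - x₁) + y₁) := by
  refine ⟨_, _, _, Point.add_of_X_ne hx, ?_, ?_⟩
  · rw [Affine.slope_of_X_ne hx, Affine.addX, h₁]; ring
  · rw [Affine.addY, negY_leg h₁ h₃, Affine.negAddY, Affine.slope_of_X_ne hx]

theorem sub_of_X_ne_leg (h₁ : W.a₁ = 0) (h₃ : W.a₃ = 0) {x₁ y₁ x₂ y₂ : K}
    (hP₁ : W.toAffine.Nonsingular x₁ y₁) (hP₂ : W.toAffine.Nonsingular x₂ y₂) (hx : x₁ ≠ x₂) :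
    ∃ (x₄ y₄ : K) (hP₄ : W.toAffine.Nonsingular x₄ y₄),
      Point.some x₁ y₁ hP₁ - Point.some x₂ y₂ hP₂ = Point.some x₄ y₄ hP₄ ∧
      x₄ = ((y₁ + y₂) / (x₁ - x₂)) ^ 2 - W.a₂ - x₁ - x₂ ∧
      y₄ = -((y₁ + y₂) / (x₁ - x₂) * (x₄ - x₁) + y₁) := by
  obtain ⟨h', hneg⟩ := neg_some_leg h₁ h₃ hP₂
  obtain ⟨x₄, y₄, hP₄, hadd, hx₄, hy₄⟩ := add_of_X_ne_leg h₁ h₃ hP₁ h' hx
  refine ⟨x₄, y₄, hP₄, ?_, ?_, ?_⟩
  · rw [sub_eq_add_neg, hneg, hadd]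
  · rw [hx₄, sub_neg_eq_add]
  · rw [hy₄, sub_neg_eq_add]

/-- (F1), (F2), (F4): sum and difference of two affine points with distinct `x`-coordinates. -/
theorem add_sub_of_X_ne (h₁ : W.a₁ = 0) (h₃ : W.a₃ = 0) (h₆ : W.a₆ = 0) {x₁ y₁ x₂ y₂ : K}
    (hP₁ : W.toAffine.Nonsingular x₁ y₁) (hP₂ : W.toAffine.Nonsingular x₂ y₂) (hx : x₁ ≠ x₂) :
    ∃ (x₃ y₃ : K) (hP₃ : W.toAffine.Nonsingular x₃ y₃)
      (x₄ y₄ : K) (hP₄ : W.toAffine.Nonsingular x₄ y₄),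
      Point.some x₁ y₁ hP₁ + Point.some x₂ y₂ hP₂ = Point.some x₃ y₃ hP₃ ∧
      Point.some x₁ y₁ hP₁ - Point.some x₂ y₂ hP₂ = Point.some x₄ y₄ hP₄ ∧
      x₃ = ((y₁ - y₂) / (x₁ - x₂)) ^ 2 - W.a₂ - x₁ - x₂ ∧
      x₄ = ((y₁ + y₂) / (x₁ - x₂)) ^ 2 - W.a₂ - x₁ - x₂ ∧
      x₃ + x₄ = 2 * ((x₁ + x₂) * (x₁ * x₂ + W.a₄) + 2 * W.a₂ * x₁ * x₂) / (x₁ - x₂) ^ 2 ∧
      x₃ * x₄ = ((x₁ * x₂ - W.a₄) / (x₁ - x₂)) ^ 2 := by
  obtain ⟨x₃, y₃, hP₃, hadd, hx₃, -⟩ := add_of_X_ne_leg h₁ h₃ hP₁ hP₂ hx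
  obtain ⟨x₄, y₄, hP₄, hsub, hx₄, -⟩ := sub_of_X_ne_leg h₁ h₃ hP₁ hP₂ hx
  have E₁ := (equation_iff_leg h₁ h₃ h₆ x₁ y₁).mp hP₁.1
  have E₂ := (equation_iff_leg h₁ h₃ h₆ x₂ y₂).mp hP₂.1
  have hd : x₁ - x₂ ≠ 0 := sub_ne_zero.mpr hx
  have hd2 : (x₁ - x₂) ^ 2 ≠ 0 := pow_ne_zero 2 hd
  refine ⟨x₃, y₃, hP₃, x₄, y₄, hP₄, hadd, hsub, hx₃, hx₄, ?_, ?_⟩
  · rw [hx₃, hx₄]; grind
  · rw [hx₃, hx₄]; grind

/-- (F3): doubling. -/
theorem add_self_leg (h₁ : W.a₁ = 0) (h₃ : W.a₃ = 0) (h₆ : W.a₆ = 0) (h2 : (2 : K) ≠ 0)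
    {x y : K} (hP : W.toAffine.Nonsingular x y) :
    (y = 0 → Point.some x y hP + Point.some x y hP = 0) ∧
    (y ≠ 0 → ∃ (x' y' : K) (hP' : W.toAffine.Nonsingular x' y'),
      Point.some x y hP + Point.some x y hP = Point.some x' y' hP' ∧
      x' = (x ^ 2 - W.a₄) ^ 2 / (4 * y ^ 2)) := by
  have hn : W.toAffine.negY x y = -y := negY_leg h₁ h₃ x y
  have E := (equation_iff_leg h₁ h₃ h₆ x y).mp hP.1
  constructor
  · intro hy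
    exact Point.add_self_of_Y_eq (by rw [hn, hy, neg_zero])
  · intro hy
    have hy' : y ≠ W.toAffine.negY x y := by
      rw [hn]; intro h
      have : (2 : K) * y = 0 := by linear_combination h
      rcases mul_eq_zero.mp this with h | h
      · exact h2 h
      · exact hy h
    refine ⟨_, _, _, Point.add_self_of_Y_ne hy', ?_⟩
    rw [Affine.slope_of_Y_ne rfl hy', Affine.addX, hn, h₁]
    have h4 : (4 : K) ≠ 0 := by
      have : (4 : K) = 2 * 2 := by norm_num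
      rw [this]; exact mul_ne_zero h2 h2
    have hy2 : (4 : K) * y ^ 2 ≠ 0 := mul_ne_zero h4 (pow_ne_zero 2 hy)
    have hyy : y - -y ≠ 0 := by
      intro h
      have : (2 : K) * y = 0 := by linear_combination h
      rcases mul_eq_zero.mp this with h | h
      · exact h2 h
      · exact hy h
    grind

end Fermat.Agent.S05.Ident
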