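import Mathlib

set_option autoImplicit false

namespace Fermat.Agent.S05.SameRed

open WeierstrassCurve WeierstrassCurve.Affine

variable {K : Type*} [Field K] {Γ₀ : Type*} [LinearOrderedCommGroupWithZero Γ₀]
  (v : Valuation K Γ₀)

lemma val_lt_sq {L : K} (hL : 1 < v L) : v L < v (L ^ 2) := by
  rw [map_pow, pow_two]
  have h0 : 0 < v L := lt_trans zero_lt_one hL
  calc v L = v L * 1 := (mul_one _).symm
    _ < v L * v L := by
      exact (mul_lt_mul_iff_right₀ h0).mpr hL

/-- If the slope is non-integral then so is the `x`-coordinate of the sum. -/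
lemma one_lt_val_addX (W : Affine K) (h₁ : v W.a₁ ≤ 1) (h₂ : v W.a₂ ≤ 1)
    {x1 x2 L : K} (hx1 : v x1 ≤ 1) (hx2 : v x2 ≤ 1) (hL : 1 < v L) :
    1 < v (W.addX x1 x2 L) := by
  have hL2 : v L < v (L ^ 2) := val_lt_sq v hL
  have h1L2 : 1 < v (L ^ 2) := lt_trans hL hL2
  have ha : v (W.a₁ * L) < v (L ^ 2) := by
    rw [map_mul]
    calc v W.a₁ * v L ≤ 1 * v L := by gcongr
      _ = v L := one_mul _
      _ < v (L ^ 2) := hL2
  have e1 : v (L ^ 2 + W.a₁ * L) = v (L ^ 2) := v.map_add_eq_of_lt_left ha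
  have e2 : v (L ^ 2 + W.a₁ * L - W.a₂) = v (L ^ 2) := by
    rw [v.map_sub_eq_of_lt_left (by rw [e1]; exact lt_of_le_of_lt h₂ h1L2), e1]
  have e3 : v (L ^ 2 + W.a₁ * L - W.a₂ - x1) = v (L ^ 2) := by
    rw [v.map_sub_eq_of_lt_left (by rw [e2]; exact lt_of_le_of_lt hx1 h1L2), e2]
  have e4 : v (L ^ 2 + W.a₁ * L - W.a₂ - x1 - x2) = v (L ^ 2) := by
    rw [v.map_sub_eq_of_lt_left (by rw [e3]; exact lt_of_le_of_lt hx2 h1L2), e3]
  rw [addX, e4]
  exact h1L2

lemma one_lt_val_div {N D : K} (hN : 1 ≤ v N) (hD : v D < 1) (hD0 : D ≠ 0) : 1 < v (N / D) := by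
  rw [map_div₀]
  have hD0' : 0 < v D := by
    rw [pos_iff_ne_zero]; exact (v.ne_zero_iff).mpr hD0
  rw [lt_div_iff₀ hD0', one_mul]
  exact lt_of_lt_of_le hD hN

variable [DecidableEq K]

/-- Two distinct affine points with the same reduction modulo the maximal ideal, the reduction
being a nonsingular point of the reduced curve: their difference is an affine point with
non-integral `x`-coordinate. -/
theorem same_red_sub (W : Affine K) (h₁ : v W.a₁ ≤ 1) (h₂ : v W.a₂ ≤ 1)
    {x1 y1 x2 y2 : K} (hP1 : W.Nonsingular x1 y1) (hP2 : W.Nonsingular x2 y2)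
    (hx2 : v x2 ≤ 1)
    (hx : v (x1 - x2) < 1) (hy : v (y1 - y2) < 1)
    (hns : ¬ (v (2 * y2 + W.a₁ * x2 + W.a₃) < 1 ∧
      v (3 * x2 ^ 2 + 2 * W.a₂ * x2 + W.a₄ - W.a₁ * y2) < 1))
    (hne : ¬ (x1 = x2 ∧ y1 = y2)) :
    ∃ (x3 y3 : K) (h3 : W.Nonsingular x3 y3),
      Point.some x1 y1 hP1 - Point.some x2 y2 hP2 = Point.some x3 y3 h3 ∧ 1 < v x3 := by
  have hx1 : v x1 ≤ 1 := by
    have : x1 = (x1 - x2) + x2 := by ring
    rw [this]
    exact v.map_add_le hx.le hx2
  have hxy : ¬(x1 = x2 ∧ y1 = W.negY x2 (W.negY x2 y2)) := by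
    rw [negY_negY]; exact hne
  have hE1 := (W.equation_iff x1 y1).mp hP1.1
  have hE2 := (W.equation_iff x2 y2).mp hP2.1
  -- the key identity
  have key : (y1 - y2) * (y1 + y2 + W.a₁ * x2 + W.a₃) =
      (x1 - x2) * (x1 ^ 2 + x1 * x2 + x2 ^ 2 + W.a₂ * (x1 + x2) + W.a₄ - W.a₁ * y1) := by
    linear_combination hE1 - hE2
  refine ⟨_, _, nonsingular_add hP1 ((nonsingular_neg ..).mpr hP2) hxy, ?_, ?_⟩
  · rw [sub_eq_add_neg, Point.neg_some, Point.add_some hxy]
  · apply one_lt_val_addX v W h₁ h₂ hx1 hx2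
    by_cases hxx : x1 = x2
    · -- doubling case
      have hyy : y1 ≠ y2 := fun h => hne ⟨hxx, h⟩
      have hy1 : y1 = W.negY x2 y2 := by
        have h0 : (y1 - y2) * (y1 + y2 + W.a₁ * x2 + W.a₃) = 0 := by
          rw [key, hxx]; ring
        rcases mul_eq_zero.mp h0 with h | h
        · exact absurd (sub_eq_zero.mp h) hyy
        · simp only [negY]; linear_combination h
      have hy1' : y1 ≠ W.negY x2 (W.negY x2 y2) := by rw [negY_negY]; exact hyy
      rw [slope_of_Y_ne hxx hy1']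
      have hden : y1 - W.negY x1 y1 = y1 - y2 := by
        rw [hxx, hy1, negY_negY]
      rw [hden]
      have hWy : v (2 * y2 + W.a₁ * x2 + W.a₃) < 1 := by
        have : 2 * y2 + W.a₁ * x2 + W.a₃ = -(y1 - y2) := by
          rw [hy1]; simp only [negY]; ring
        rw [this, v.map_neg]; exact hy
      have hWx : ¬ v (3 * x2 ^ 2 + 2 * W.a₂ * x2 + W.a₄ - W.a₁ * y2) < 1 := fun h => hns ⟨hWy, h⟩
      have hnum : 1 ≤ v (3 * x1 ^ 2 + 2 * W.a₂ * x1 + W.a₄ - W.a₁ * y1) := by
        have e : 3 * x1 ^ 2 + 2 * W.a₂ * x1 + W.a₄ - W.a₁ * y1 =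
            (3 * x2 ^ 2 + 2 * W.a₂ * x2 + W.a₄ - W.a₁ * y2) - W.a₁ * (y1 - y2) := by
          rw [hxx]; ring
        have hsmall : v (W.a₁ * (y1 - y2)) < 1 := by
          rw [map_mul]
          calc v W.a₁ * v (y1 - y2) ≤ 1 * v (y1 - y2) := by gcongr
            _ = v (y1 - y2) := one_mul _
            _ < 1 := hy
        rw [e, v.map_sub_eq_of_lt_left (lt_of_lt_of_le hsmall (not_lt.mp hWx))]
        exact not_lt.mp hWx
      exact one_lt_val_div v hnum hy (sub_ne_zero.mpr hyy)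
    · rw [slope_of_X_ne hxx]
      have hxx' : x1 - x2 ≠ 0 := sub_ne_zero.mpr hxx
      have hN : y1 - W.negY x2 y2 = y1 + y2 + W.a₁ * x2 + W.a₃ := by
        simp only [negY]; ring
      rw [hN]
      by_cases hWy : v (2 * y2 + W.a₁ * x2 + W.a₃) < 1
      · have hWx : ¬ v (3 * x2 ^ 2 + 2 * W.a₂ * x2 + W.a₄ - W.a₁ * y2) < 1 :=
          fun h => hns ⟨hWy, h⟩
        have hM : 1 ≤ v (x1 ^ 2 + x1 * x2 + x2 ^ 2 + W.a₂ * (x1 + x2) + W.a₄ - W.a₁ * y1) := by
          have e : x1 ^ 2 + x1 * x2 + x2 ^ 2 + W.a₂ * (x1 + x2) + W.a₄ - W.a₁ * y1 =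
              (3 * x2 ^ 2 + 2 * W.a₂ * x2 + W.a₄ - W.a₁ * y2) +
                ((x1 - x2) * (x1 + 2 * x2 + W.a₂) - W.a₁ * (y1 - y2)) := by ring
          have hsmall : v ((x1 - x2) * (x1 + 2 * x2 + W.a₂) - W.a₁ * (y1 - y2)) < 1 := by
            apply v.map_sub_lt
            · rw [map_mul]
              have h3 : v (x1 + 2 * x2 + W.a₂) ≤ 1 := by
                apply v.map_add_le (v.map_add_le hx1 _) h₂
                rw [two_mul]; exact v.map_add_le hx2 hx2
              calc v (x1 - x2) * v (x1 + 2 * x2 + W.a₂) ≤ v (x1 - x2) * 1 := by gcongr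
                _ = v (x1 - x2) := mul_one _
                _ < 1 := hx
            · rw [map_mul]
              calc v W.a₁ * v (y1 - y2) ≤ 1 * v (y1 - y2) := by gcongr
                _ = v (y1 - y2) := one_mul _
                _ < 1 := hy
          rw [e, v.map_add_eq_of_lt_left (lt_of_lt_of_le hsmall (not_lt.mp hWx))]
          exact not_lt.mp hWx
        have hyy : y1 - y2 ≠ 0 := by
          intro h0
          rw [h0, zero_mul] at key
          rcases mul_eq_zero.mp key.symm with h | h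
          · exact hxx' h
          · rw [h, map_zero] at hM
            exact absurd hM (not_le.mpr zero_lt_one)
        have hL : (y1 + y2 + W.a₁ * x2 + W.a₃) / (x1 - x2) =
            (x1 ^ 2 + x1 * x2 + x2 ^ 2 + W.a₂ * (x1 + x2) + W.a₄ - W.a₁ * y1) / (y1 - y2) := by
          rw [div_eq_div_iff hxx' hyy]
          linear_combination key
        rw [hL]
        exact one_lt_val_div v hM hy hyy
      · have hN1 : 1 ≤ v (y1 + y2 + W.a₁ * x2 + W.a₃) := by
          have e : y1 + y2 + W.a₁ * x2 + W.a₃ = (2 * y2 + W.a₁ * x2 + W.a₃) + (y1 - y2) := by ring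
          rw [e, v.map_add_eq_of_lt_left (lt_of_lt_of_le hy (not_lt.mp hWy))]
          exact not_lt.mp hWy
        exact one_lt_val_div v hN1 hx hxx'

omit [DecidableEq K] in
/-- Integrality of the `y`-coordinate of an integral point. -/
lemma val_y_le_one (W : Affine K) (h₁ : v W.a₁ ≤ 1) (h₂ : v W.a₂ ≤ 1) (h₃ : v W.a₃ ≤ 1)
    (h₄ : v W.a₄ ≤ 1) (h₆ : v W.a₆ ≤ 1) {x y : K} (hE : W.Equation x y) (hx : v x ≤ 1) :
    v y ≤ 1 := by
  by_contra hy
  rw [not_le] at hy
  have hE' := (W.equation_iff x y).mp hE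
  have hR : v (x ^ 3 + W.a₂ * x ^ 2 + W.a₄ * x + W.a₆) ≤ 1 := by
    refine v.map_add_le (v.map_add_le (v.map_add_le ?_ ?_) ?_) h₆
    · rw [map_pow]; exact pow_le_one₀ zero_le hx
    · rw [map_mul, map_pow]; exact mul_le_one₀ h₂ zero_le (pow_le_one₀ zero_le hx)
    · rw [map_mul]; exact mul_le_one₀ h₄ zero_le hx
  have hs : v (W.a₁ * x + W.a₃) ≤ 1 := by
    refine v.map_add_le ?_ h₃
    rw [map_mul]; exact mul_le_one₀ h₁ zero_le hx
  have hL : y ^ 2 + W.a₁ * x * y + W.a₃ * y = y * (y + (W.a₁ * x + W.a₃)) := by ring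
  have hv : v (y + (W.a₁ * x + W.a₃)) = v y :=
    v.map_add_eq_of_lt_left (lt_of_le_of_lt hs hy)
  rw [← hE', hL, map_mul, hv] at hR
  have : 1 < v y * v y := by
    calc (1 : Γ₀) < v y := hy
      _ = v y * 1 := (mul_one _).symm
      _ < v y * v y := (mul_lt_mul_iff_right₀ (lt_trans zero_lt_one hy)).mpr hy
  exact absurd hR (not_le.mpr this)

section Map

variable {R S : Type*} [CommRing R] [CommRing S] [Algebra R S] [Algebra R K] [Algebra S K]
  [IsScalarTower R S K]

/-- PART 2, general form.  `f` is an `S`-algebra endomorphism of `K` which is congruent to the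
identity modulo the maximal ideal on integral elements (e.g. an element of an inertia group).
If all `n`-torsion points are integral (Part 1), then `f` fixes every `n`-torsion point which is
integral with nonsingular reduction. -/
theorem map_eq_self_of_nonsingular_reduction {n : ℕ} (W' : Affine R) (f : K →ₐ[S] K)
    (hf : ∀ x, v x ≤ 1 → v (f x - x) < 1)
    (h₁ : v (W'⁄K).a₁ ≤ 1) (h₂ : v (W'⁄K).a₂ ≤ 1)
    (hint : ∀ Q : (W'⁄K).Point, n • Q = 0 → ∀ (x y : K) (h : (W'⁄K).Nonsingular x y),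
      Q = Point.some x y h → v x ≤ 1)
    {x y : K} (h : (W'⁄K).Nonsingular x y) (hn : n • Point.some x y h = 0)
    (hx : v x ≤ 1) (hy : v y ≤ 1)
    (hns : ¬ (v (2 * y + (W'⁄K).a₁ * x + (W'⁄K).a₃) < 1 ∧
      v (3 * x ^ 2 + 2 * (W'⁄K).a₂ * x + (W'⁄K).a₄ - (W'⁄K).a₁ * y) < 1)) :
    Point.map f (Point.some x y h) = Point.some x y h := by
  by_contra hne
  rw [Point.map_some] at hne
  have hne' : ¬ (f x = x ∧ f y = y) := by
    intro hxy
    apply hne
    rw [Point.some.injEq]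
    exact hxy
  obtain ⟨x3, y3, h3, hsub, hx3⟩ := same_red_sub v (W'⁄K) h₁ h₂
    ((W'.baseChange_nonsingular f.injective ..).mpr h) h hx (hf x hx) (hf y hy) hns hne'
  have hQ : n • (Point.map f (Point.some x y h) - Point.some x y h) = 0 := by
    rw [smul_sub, ← map_nsmul, hn, map_zero, sub_zero]
  rw [Point.map_some, hsub] at hQ
  exact absurd (hint _ hQ x3 y3 h3 rfl) (not_le.mpr hx3)

end Map

omit [DecidableEq K] in
/-- Nonsingularity of the reduction for the Legendre form `y² = x (x - α) (x + β)`: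
`2`, `β`, `α + β` units, `α` integral; `x` integral, and `x` a unit unless `α` is a unit. -/
lemma legendre_nonsingular_reduction (W : Affine K) {α β : K}
    (ha₁ : W.a₁ = 0) (ha₃ : W.a₃ = 0) (ha₆ : W.a₆ = 0) (ha₂ : W.a₂ = β - α)
    (ha₄ : W.a₄ = -(α * β))
    (h2 : v 2 = 1) (hα : v α ≤ 1) (hβ : v β = 1) (hαβ : v (α + β) = 1)
    {x y : K} (hE : W.Equation x y) (hx : v x ≤ 1) (hgood : v α = 1 ∨ v x = 1) :
    ¬ (v (2 * y + W.a₁ * x + W.a₃) < 1 ∧
      v (3 * x ^ 2 + 2 * W.a₂ * x + W.a₄ - W.a₁ * y) < 1) := by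
  rintro ⟨hy, hg⟩
  rw [ha₁, ha₃, zero_mul, add_zero, add_zero, map_mul, h2, one_mul] at hy
  rw [ha₁, ha₂, ha₄, zero_mul, sub_zero] at hg
  have hE' := (W.equation_iff x y).mp hE
  rw [ha₁, ha₃, ha₆, ha₂, ha₄] at hE'
  have hprod : v (x * (x - α) * (x + β)) < 1 := by
    have e : x * (x - α) * (x + β) = y ^ 2 := by linear_combination -hE'
    rw [e, map_pow]
    exact pow_lt_one₀ zero_le hy (by norm_num)
  have hβ' : v β ≤ 1 := hβ.le
  have hxα : v (x - α) ≤ 1 := v.map_sub_le hx hα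
  have hxβ : v (x + β) ≤ 1 := v.map_add_le hx hβ'
  -- `v x = 1` unless `v x < 1`
  have key : ∀ {s t u w : K}, v s < 1 → v t = 1 → v u = 1 → v w ≤ 1 →
      3 * x ^ 2 + 2 * (β - α) * x + -(α * β) = t * u + s * w → False := by
    intro s t u w hs ht hu hw e
    rw [e] at hg
    have h1 : v (t * u) = 1 := by rw [map_mul, ht, hu, one_mul]
    have h2' : v (s * w) < 1 := by
      rw [map_mul]
      calc v s * v w ≤ v s * 1 := by gcongr
        _ = v s := mul_one _
        _ < 1 := hs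
    rw [v.map_add_eq_of_lt_left (by rw [h1]; exact h2'), h1] at hg
    exact lt_irrefl _ hg
  by_cases c1 : v x < 1
  · -- then `α` is a unit
    have hα1 : v α = 1 := by
      rcases hgood with h | h
      · exact h
      · exact absurd c1 (by rw [h]; exact lt_irrefl _)
    have t1 : v (x - α) = 1 := by
      rw [v.map_sub_eq_of_lt_right (by rw [hα1]; exact c1), hα1]
    have t2 : v (x + β) = 1 := by
      rw [v.map_add_eq_of_lt_right (by rw [hβ]; exact c1), hβ]
    have hw : v (2 * x + β - α) ≤ 1 := by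
      refine v.map_sub_le (v.map_add_le ?_ hβ') hα
      rw [map_mul, h2, one_mul]; exact hx
    exact key c1 t1 t2 hw (by ring)
  · have hx1 : v x = 1 := le_antisymm hx (not_lt.mp c1)
    by_cases c2 : v (x - α) < 1
    · have t2 : v (x + β) = 1 := by
        have e : x + β = (α + β) + (x - α) := by ring
        rw [e, v.map_add_eq_of_lt_left (by rw [hαβ]; exact c2), hαβ]
      have hw : v (2 * x + β) ≤ 1 := by
        refine v.map_add_le ?_ hβ'
        rw [map_mul, h2, one_mul]; exact hx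
      exact key c2 hx1 t2 hw (by ring)
    · have hxα1 : v (x - α) = 1 := le_antisymm hxα (not_lt.mp c2)
      by_cases c3 : v (x + β) < 1
      · have hw : v (2 * x - α) ≤ 1 := by
          refine v.map_sub_le ?_ hα
          rw [map_mul, h2, one_mul]; exact hx
        exact key c3 hx1 hxα1 hw (by ring)
      · have hxβ1 : v (x + β) = 1 := le_antisymm hxβ (not_lt.mp c3)
        rw [map_mul, map_mul, hx1, hxα1, hxβ1] at hprod
        simp at hprod

end Fermat.Agent.S05.SameRed
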