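import Mathlib
import Fermat.Prelude.Def_FLTPrelim_Ramification

set_option autoImplicit false

namespace Fermat.Agent.S05.Glue

open scoped Pointwise

variable {K : Type*} [Field K] (S : Type*) [Field S] [Algebra S K]

theorem mem_of_mem_inertia (A : ValuationSubring K) (σ : K ≃ₐ[S] K)
    (hσ : σ ∈ A.inertiaSubgroupIn S) (x : K) (hx : x ∈ A) : σ x ∈ A := by
  obtain ⟨τ, -, rfl⟩ := hσ
  obtain ⟨τ, hτ⟩ := τ
  have h1 : τ • x ∈ τ • A := ValuationSubring.smul_mem_pointwise_smul τ x A hx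
  have h2 : τ • A = A := hτ
  rw [h2] at h1
  exact h1

theorem mem_iff_of_mem_inertia (A : ValuationSubring K) (σ : K ≃ₐ[S] K)
    (hσ : σ ∈ A.inertiaSubgroupIn S) (x : K) : x ∈ A ↔ σ x ∈ A := by
  refine ⟨mem_of_mem_inertia S A σ hσ x, fun h => ?_⟩
  have h1 := mem_of_mem_inertia S A σ⁻¹ (inv_mem hσ) (σ x) h
  have h2 : σ⁻¹ (σ x) = x := σ.symm_apply_apply x
  rwa [h2] at h1

theorem valuation_sub_lt_one_of_mem_inertia (A : ValuationSubring K) (σ : K ≃ₐ[S] K)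
    (hσ : σ ∈ A.inertiaSubgroupIn S) (x : K) (hx : x ∈ A) : A.valuation (σ x - x) < 1 := by
  have hσx : σ x ∈ A := mem_of_mem_inertia S A σ hσ x hx
  obtain ⟨τ, hτ, rfl⟩ := hσ
  have h1 : MulSemiringAction.toRingAut (A.decompositionSubgroup S) (IsLocalRing.ResidueField A) τ
      = 1 := hτ
  have h2 : τ • (IsLocalRing.residue A ⟨x, hx⟩) = IsLocalRing.residue A ⟨x, hx⟩ := by
    have := congrArg (fun f => f (IsLocalRing.residue A ⟨x, hx⟩)) h1
    simpa using this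
  rw [← IsLocalRing.ResidueField.residue_smul] at h2
  have h3 : (τ • (⟨x, hx⟩ : A)) - ⟨x, hx⟩ ∈ IsLocalRing.maximalIdeal A := by
    rw [← Ideal.Quotient.eq]
    exact h2
  have h4 : ((τ • (⟨x, hx⟩ : A)) - ⟨x, hx⟩ : A) = ⟨(τ : K ≃ₐ[S] K) x - x, A.sub_mem hσx hx⟩ := by
    rfl
  rw [h4] at h3
  exact (A.valuation_lt_one_iff _).mp h3

end Fermat.Agent.S05.Glue
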