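import Mathlib

set_option autoImplicit false

namespace Fermat.Agent.S05.VarChange

open WeierstrassCurve WeierstrassCurve.Affine

variable {F : Type*} [Field F]

/-- `W'` is obtained from `W` by the admissible change of variables
`X = u²x + r`, `Y = u³y + u²sx + t` (coefficient relations). -/
structure Rel (W W' : Affine F) (u r s t : F) : Prop where
  hu : u ≠ 0
  h₁ : u * W'.a₁ = W.a₁ + 2 * s
  h₂ : u ^ 2 * W'.a₂ = W.a₂ - s * W.a₁ + 3 * r - s ^ 2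
  h₃ : u ^ 3 * W'.a₃ = W.a₃ + r * W.a₁ + 2 * t
  h₄ : u ^ 4 * W'.a₄ = W.a₄ - s * W.a₃ + 2 * r * W.a₂ - (t + r * s) * W.a₁ + 3 * r ^ 2 - 2 * s * t
  h₆ : u ^ 6 * W'.a₆ = W.a₆ + r * W.a₄ + r ^ 2 * W.a₂ + r ^ 3 - t * W.a₃ - t ^ 2 - r * t * W.a₁

variable {W W' : Affine F} {u r s t : F}

namespace Rel

theorem a₁_eq (H : Rel W W' u r s t) : W.a₁ = u * W'.a₁ - 2 * s := by
  linear_combination -H.h₁

theorem a₂_eq (H : Rel W W' u r s t) :
    W.a₂ = u ^ 2 * W'.a₂ + s * (u * W'.a₁ - 2 * s) - 3 * r + s ^ 2 := by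
  linear_combination -H.h₂ - s * H.h₁

theorem a₃_eq (H : Rel W W' u r s t) :
    W.a₃ = u ^ 3 * W'.a₃ - r * (u * W'.a₁ - 2 * s) - 2 * t := by
  linear_combination -H.h₃ + r * H.h₁

theorem a₄_eq (H : Rel W W' u r s t) :
    W.a₄ = u ^ 4 * W'.a₄ + s * (u ^ 3 * W'.a₃ - r * (u * W'.a₁ - 2 * s) - 2 * t)
      - 2 * r * (u ^ 2 * W'.a₂ + s * (u * W'.a₁ - 2 * s) - 3 * r + s ^ 2)
      + (t + r * s) * (u * W'.a₁ - 2 * s) - 3 * r ^ 2 + 2 * s * t := by
  have e1 := H.a₁_eq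
  have e2 := H.a₂_eq
  have e3 := H.a₃_eq
  linear_combination -H.h₄ + s * e3 - 2 * r * e2 + (t + r * s) * e1

theorem a₆_eq (H : Rel W W' u r s t) :
    W.a₆ = u ^ 6 * W'.a₆ - r * W.a₄ - r ^ 2 * W.a₂ - r ^ 3 + t * W.a₃ + t ^ 2 + r * t * W.a₁ := by
  linear_combination -H.h₆

theorem equation_iff (H : Rel W W' u r s t) (x y : F) :
    W'.Equation x y ↔ W.Equation (u ^ 2 * x + r) (u ^ 3 * y + u ^ 2 * s * x + t) := by
  rw [Affine.equation_iff, Affine.equation_iff]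
  have key : (u ^ 3 * y + u ^ 2 * s * x + t) ^ 2 + W.a₁ * (u ^ 2 * x + r) * (u ^ 3 * y + u ^ 2 * s * x + t)
      + W.a₃ * (u ^ 3 * y + u ^ 2 * s * x + t)
      - ((u ^ 2 * x + r) ^ 3 + W.a₂ * (u ^ 2 * x + r) ^ 2 + W.a₄ * (u ^ 2 * x + r) + W.a₆)
      = u ^ 6 * (y ^ 2 + W'.a₁ * x * y + W'.a₃ * y - (x ^ 3 + W'.a₂ * x ^ 2 + W'.a₄ * x + W'.a₆)) := by
    rw [H.a₆_eq, H.a₄_eq, H.a₃_eq, H.a₂_eq, H.a₁_eq]
    ring
  have hu6 : u ^ 6 ≠ 0 := pow_ne_zero _ H.hu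
  constructor
  · intro h
    have : y ^ 2 + W'.a₁ * x * y + W'.a₃ * y - (x ^ 3 + W'.a₂ * x ^ 2 + W'.a₄ * x + W'.a₆) = 0 := by
      rw [h]; ring
    rw [this, mul_zero] at key
    linear_combination key
  · intro h
    have h0 : u ^ 6 * (y ^ 2 + W'.a₁ * x * y + W'.a₃ * y - (x ^ 3 + W'.a₂ * x ^ 2 + W'.a₄ * x + W'.a₆)) = 0 := by
      rw [← key, h]; ring
    have := (mul_eq_zero.mp h0).resolve_left hu6
    linear_combination this

theorem polyY (H : Rel W W' u r s t) (x y : F) :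
    (u ^ 3 * y + u ^ 2 * s * x + t) - (-(u ^ 3 * y + u ^ 2 * s * x + t) - W.a₁ * (u ^ 2 * x + r) - W.a₃)
      = u ^ 3 * (y - (-y - W'.a₁ * x - W'.a₃)) := by
  rw [H.a₃_eq, H.a₁_eq]
  ring

theorem polyX (H : Rel W W' u r s t) (x y : F) :
    W.a₁ * (u ^ 3 * y + u ^ 2 * s * x + t) - (3 * (u ^ 2 * x + r) ^ 2 + 2 * W.a₂ * (u ^ 2 * x + r) + W.a₄)
      = u ^ 4 * (W'.a₁ * y - (3 * x ^ 2 + 2 * W'.a₂ * x + W'.a₄))
        - s * (u ^ 3 * (y - (-y - W'.a₁ * x - W'.a₃))) := by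
  rw [H.a₄_eq, H.a₂_eq, H.a₁_eq]
  ring

theorem nonsingular_iff (H : Rel W W' u r s t) (x y : F) :
    W'.Nonsingular x y ↔ W.Nonsingular (u ^ 2 * x + r) (u ^ 3 * y + u ^ 2 * s * x + t) := by
  rw [Affine.nonsingular_iff, Affine.nonsingular_iff, ← H.equation_iff]
  have hu3 : u ^ 3 ≠ 0 := pow_ne_zero _ H.hu
  have hu4 : u ^ 4 ≠ 0 := pow_ne_zero _ H.hu
  have hY := H.polyY x y
  have hX := H.polyX x y
  refine and_congr_right fun _ => ?_
  rw [← not_iff_not]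
  push Not
  constructor
  · rintro ⟨e1, e2⟩
    have e2' : y - (-y - W'.a₁ * x - W'.a₃) = 0 := by linear_combination e2
    have e1' : W'.a₁ * y - (3 * x ^ 2 + 2 * W'.a₂ * x + W'.a₄) = 0 := by linear_combination e1
    rw [e2', mul_zero] at hY
    rw [e1', e2', mul_zero, mul_zero, mul_zero, sub_zero] at hX
    exact ⟨by linear_combination hX, by linear_combination hY⟩
  · rintro ⟨e1, e2⟩
    have e2' : u ^ 3 * (y - (-y - W'.a₁ * x - W'.a₃)) = 0 := by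
      rw [← hY]; linear_combination e2
    have e2'' := (mul_eq_zero.mp e2').resolve_left hu3
    have e1' : u ^ 4 * (W'.a₁ * y - (3 * x ^ 2 + 2 * W'.a₂ * x + W'.a₄)) = 0 := by
      have : u ^ 4 * (W'.a₁ * y - (3 * x ^ 2 + 2 * W'.a₂ * x + W'.a₄)) =
          W.a₁ * (u ^ 3 * y + u ^ 2 * s * x + t)
            - (3 * (u ^ 2 * x + r) ^ 2 + 2 * W.a₂ * (u ^ 2 * x + r) + W.a₄)
            + s * (u ^ 3 * (y - (-y - W'.a₁ * x - W'.a₃))) := by rw [hX]; ring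
      rw [this, e2']
      linear_combination e1
    have e1'' := (mul_eq_zero.mp e1').resolve_left hu4
    exact ⟨by linear_combination e1'', by linear_combination e2''⟩

theorem negY_eq (H : Rel W W' u r s t) (x y : F) :
    W.negY (u ^ 2 * x + r) (u ^ 3 * y + u ^ 2 * s * x + t)
      = u ^ 3 * W'.negY x y + u ^ 2 * s * x + t := by
  simp only [Affine.negY]
  rw [H.a₃_eq, H.a₁_eq]
  ring

theorem slope_eq [DecidableEq F] (H : Rel W W' u r s t) {x₁ x₂ y₁ y₂ : F}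
    (h₁ : W'.Equation x₁ y₁) (h₂ : W'.Equation x₂ y₂)
    (hxy : ¬(x₁ = x₂ ∧ y₁ = W'.negY x₂ y₂)) :
    W.slope (u ^ 2 * x₁ + r) (u ^ 2 * x₂ + r) (u ^ 3 * y₁ + u ^ 2 * s * x₁ + t)
        (u ^ 3 * y₂ + u ^ 2 * s * x₂ + t)
      = u * W'.slope x₁ x₂ y₁ y₂ + s := by
  have hu := H.hu
  by_cases hx : x₁ = x₂
  · have hy : y₁ ≠ W'.negY x₂ y₂ := fun h => hxy ⟨hx, h⟩
    have hyy : y₁ = y₂ := Affine.Y_eq_of_Y_ne h₁ h₂ hx hy
    subst hx
    subst hyy
    have hy' : u ^ 3 * y₁ + u ^ 2 * s * x₁ + t ≠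
        W.negY (u ^ 2 * x₁ + r) (u ^ 3 * y₁ + u ^ 2 * s * x₁ + t) := by
      rw [H.negY_eq]
      intro h
      apply hy
      have : u ^ 3 * (y₁ - W'.negY x₁ y₁) = 0 := by linear_combination h
      have := (mul_eq_zero.mp this).resolve_left (pow_ne_zero _ hu)
      linear_combination this
    rw [Affine.slope_of_Y_ne rfl hy', Affine.slope_of_Y_ne rfl hy]
    have hd : y₁ - W'.negY x₁ y₁ ≠ 0 := sub_ne_zero.mpr hy
    have hd' : (u ^ 3 * y₁ + u ^ 2 * s * x₁ + t) -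
        W.negY (u ^ 2 * x₁ + r) (u ^ 3 * y₁ + u ^ 2 * s * x₁ + t) ≠ 0 := sub_ne_zero.mpr hy'
    have hY := H.polyY x₁ y₁
    have hX := H.polyX x₁ y₁
    have hD : (u ^ 3 * y₁ + u ^ 2 * s * x₁ + t) -
        W.negY (u ^ 2 * x₁ + r) (u ^ 3 * y₁ + u ^ 2 * s * x₁ + t) = u ^ 3 * (y₁ - W'.negY x₁ y₁) := by
      simp only [Affine.negY]
      exact hY
    rw [hD]
    rw [div_eq_iff (mul_ne_zero (pow_ne_zero _ hu) hd)]
    have hN : 3 * (u ^ 2 * x₁ + r) ^ 2 + 2 * W.a₂ * (u ^ 2 * x₁ + r) + W.a₄ -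
        W.a₁ * (u ^ 3 * y₁ + u ^ 2 * s * x₁ + t)
        = u ^ 4 * (3 * x₁ ^ 2 + 2 * W'.a₂ * x₁ + W'.a₄ - W'.a₁ * y₁) +
          s * (u ^ 3 * (y₁ - W'.negY x₁ y₁)) := by
      simp only [Affine.negY]
      linear_combination -hX
    rw [hN]
    field_simp
  · have hx' : u ^ 2 * x₁ + r ≠ u ^ 2 * x₂ + r := by
      intro h
      apply hx
      have : u ^ 2 * (x₁ - x₂) = 0 := by linear_combination h
      have := (mul_eq_zero.mp this).resolve_left (pow_ne_zero _ hu)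
      linear_combination this
    rw [Affine.slope_of_X_ne hx', Affine.slope_of_X_ne hx]
    have hx'' : x₁ - x₂ ≠ 0 := sub_ne_zero.mpr hx
    field_simp
    ring

theorem addX_eq (H : Rel W W' u r s t) (x₁ x₂ ℓ : F) :
    W.addX (u ^ 2 * x₁ + r) (u ^ 2 * x₂ + r) (u * ℓ + s) = u ^ 2 * W'.addX x₁ x₂ ℓ + r := by
  simp only [Affine.addX]
  rw [H.a₂_eq, H.a₁_eq]
  ring

theorem negAddY_eq (H : Rel W W' u r s t) (x₁ x₂ y₁ ℓ : F) :
    W.negAddY (u ^ 2 * x₁ + r) (u ^ 2 * x₂ + r) (u ^ 3 * y₁ + u ^ 2 * s * x₁ + t) (u * ℓ + s)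
      = u ^ 3 * W'.negAddY x₁ x₂ y₁ ℓ + u ^ 2 * s * W'.addX x₁ x₂ ℓ + t := by
  simp only [Affine.negAddY]
  rw [H.addX_eq]
  ring

theorem addY_eq (H : Rel W W' u r s t) (x₁ x₂ y₁ ℓ : F) :
    W.addY (u ^ 2 * x₁ + r) (u ^ 2 * x₂ + r) (u ^ 3 * y₁ + u ^ 2 * s * x₁ + t) (u * ℓ + s)
      = u ^ 3 * W'.addY x₁ x₂ y₁ ℓ + u ^ 2 * s * W'.addX x₁ x₂ ℓ + t := by
  simp only [Affine.addY]
  rw [H.negAddY_eq, H.addX_eq, H.negY_eq]

/-- The map on points induced by the change of variables. -/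
def pointMap (H : Rel W W' u r s t) : W'.Point → W.Point
  | .zero => 0
  | .some x y h => .some (u ^ 2 * x + r) (u ^ 3 * y + u ^ 2 * s * x + t) ((H.nonsingular_iff x y).mp h)

@[simp] theorem pointMap_zero (H : Rel W W' u r s t) : H.pointMap 0 = 0 := rfl

theorem pointMap_some (H : Rel W W' u r s t) {x y : F} (h : W'.Nonsingular x y) :
    H.pointMap (.some x y h) =
      .some (u ^ 2 * x + r) (u ^ 3 * y + u ^ 2 * s * x + t) ((H.nonsingular_iff x y).mp h) := rfl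

theorem pointMap_add [DecidableEq F] (H : Rel W W' u r s t) (P Q : W'.Point) :
    H.pointMap (P + Q) = H.pointMap P + H.pointMap Q := by
  rcases P with _ | ⟨x₁, y₁, h₁⟩
  · change H.pointMap (0 + Q) = 0 + H.pointMap Q
    rw [zero_add, zero_add]
  rcases Q with _ | ⟨x₂, y₂, h₂⟩
  · change H.pointMap (_ + 0) = _ + 0
    rw [add_zero, add_zero]
  by_cases hxy : x₁ = x₂ ∧ y₁ = W'.negY x₂ y₂
  · rw [Point.add_of_Y_eq hxy.1 hxy.2, pointMap_some, pointMap_some]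
    rw [Point.add_of_Y_eq (by rw [hxy.1]) (by rw [H.negY_eq, hxy.2, hxy.1])]
    rfl
  · have hxy' : ¬(u ^ 2 * x₁ + r = u ^ 2 * x₂ + r ∧
        u ^ 3 * y₁ + u ^ 2 * s * x₁ + t = W.negY (u ^ 2 * x₂ + r) (u ^ 3 * y₂ + u ^ 2 * s * x₂ + t)) := by
      rintro ⟨e1, e2⟩
      apply hxy
      have hx : x₁ = x₂ := by
        have : u ^ 2 * (x₁ - x₂) = 0 := by linear_combination e1
        have := (mul_eq_zero.mp this).resolve_left (pow_ne_zero _ H.hu)
        linear_combination this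
      refine ⟨hx, ?_⟩
      rw [H.negY_eq, hx] at e2
      have : u ^ 3 * (y₁ - W'.negY x₂ y₂) = 0 := by linear_combination e2
      have := (mul_eq_zero.mp this).resolve_left (pow_ne_zero _ H.hu)
      linear_combination this
    rw [Point.add_some hxy, pointMap_some, pointMap_some, pointMap_some, Point.add_some hxy']
    have hs := H.slope_eq h₁.1 h₂.1 hxy
    congr 1
    · rw [hs, H.addX_eq]
    · rw [hs, H.addY_eq]

theorem pointMap_injective (H : Rel W W' u r s t) : Function.Injective H.pointMap := by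
  rintro (_ | ⟨x₁, y₁, h₁⟩) (_ | ⟨x₂, y₂, h₂⟩) h
  · rfl
  · exact absurd h.symm (Point.some_ne_zero _)
  · exact absurd h (Point.some_ne_zero _)
  · rw [pointMap_some, pointMap_some] at h
    simp only [Point.some.injEq] at h
    obtain ⟨e1, e2⟩ := h
    have hx : x₁ = x₂ := by
      have : u ^ 2 * (x₁ - x₂) = 0 := by linear_combination e1
      have := (mul_eq_zero.mp this).resolve_left (pow_ne_zero _ H.hu)
      linear_combination this
    subst hx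
    have hy : y₁ = y₂ := by
      have : u ^ 3 * (y₁ - y₂) = 0 := by linear_combination e2
      have := (mul_eq_zero.mp this).resolve_left (pow_ne_zero _ H.hu)
      linear_combination this
    subst hy
    rfl

/-- The additive group homomorphism on points induced by the change of variables. -/
def pointHom [DecidableEq F] (H : Rel W W' u r s t) : W'.Point →+ W.Point where
  toFun := H.pointMap
  map_zero' := rfl
  map_add' := H.pointMap_add

end Rel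

end Fermat.Agent.S05.VarChange
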