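import Mathlib
import Fermat.Prelude.Def_FLTPrelim_Ramification
import Fermat.Agent.S05.Glue
import Fermat.Agent.S05.VarChange

set_option autoImplicit false

namespace Fermat.Agent.S05.Shell

open WeierstrassCurve WeierstrassCurve.Affine WeierstrassCurve.Affine.Point
open Fermat.Agent.S05.VarChange

/-- Legendre-form curve `Y² = X (X - α) (X + β)`. -/
def Leg {R : Type*} [CommRing R] (α β : R) : WeierstrassCurve R := ⟨0, β - α, 0, -(α * β), 0⟩

local notation "Kbar" => AlgebraicClosure ℚ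

/-- The abstract statement about Legendre-form curves that the shell needs. -/
def LegStatement : Prop :=
  ∀ (A : ValuationSubring Kbar) (σ : Kbar ≃ₐ[ℚ] Kbar) (α β d : ℤ) (p : ℕ),
    p.Prime → p ≠ 2 → α ≠ 0 →
    A.valuation (2 : Kbar) = 1 → A.valuation (p : Kbar) = 1 →
    A.valuation (β : Kbar) = 1 → A.valuation ((α : Kbar) + β) = 1 →
    A.valuation (α : Kbar) = A.valuation (d : Kbar) ^ p →
    (∀ x, x ∈ A ↔ σ x ∈ A) → (∀ x ∈ A, A.valuation (σ x - x) < 1) →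
    ∀ Q : ((Leg (α : ℚ) (β : ℚ))⁄Kbar).Point, (p : ℤ) • Q = 0 → σ • Q = Q

/-- In a valuation subring in which the prime `ℓ` is a non-unit, integers prime to `ℓ` are units. -/
theorem valuation_intCast_eq_one {L : Type*} [Field L] (A : ValuationSubring L) (ℓ : ℕ)
    (hℓ : ℓ.Prime) (hA : (ℓ : L) ∈ A.nonunits) (c : ℤ) (hc : ¬ (ℓ : ℤ) ∣ c) :
    A.valuation (c : L) = 1 := by
  have hle : ∀ d : ℤ, A.valuation (d : L) ≤ 1 := fun d =>
    (A.valuation_le_one_iff _).mpr (intCast_mem A d)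
  refine le_antisymm (hle c) (not_lt.mp fun hlt => ?_)
  have hcop : IsCoprime c (ℓ : ℤ) :=
    ((Nat.prime_iff_prime_int.mp hℓ).coprime_iff_not_dvd.mpr hc).symm
  obtain ⟨u, w, huw⟩ := hcop
  have h1 : A.valuation ((u : L) * c + (w : L) * ℓ) < 1 := by
    refine A.valuation.map_add_lt ?_ ?_
    · rw [map_mul]
      calc A.valuation (u : L) * A.valuation (c : L) ≤ 1 * A.valuation (c : L) := by
            gcongr; exact hle u
        _ < 1 := by rw [one_mul]; exact hlt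
    · rw [map_mul]
      calc A.valuation (w : L) * A.valuation (ℓ : L) ≤ 1 * A.valuation (ℓ : L) := by
            gcongr; exact hle w
        _ < 1 := by rw [one_mul]; exact A.mem_nonunits_iff.mp hA
  have h2 : ((u : L) * c + (w : L) * ℓ) = 1 := by exact_mod_cast congrArg (Int.cast : ℤ → L) huw
  rw [h2, map_one] at h1
  exact lt_irrefl _ h1

theorem frey_a₁ (P : FreyPackage) : (P.freyCurve⁄Kbar).a₁ = 1 := by
  simp [FreyPackage.freyCurve, WeierstrassCurve.baseChange]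

theorem frey_a₂ (P : FreyPackage) :
    (P.freyCurve⁄Kbar).a₂ = ((P.b : Kbar) ^ P.p - 1 - (P.a : Kbar) ^ P.p) / 4 := by
  simp [FreyPackage.freyCurve, WeierstrassCurve.baseChange]

theorem frey_a₃ (P : FreyPackage) : (P.freyCurve⁄Kbar).a₃ = 0 := by
  simp [FreyPackage.freyCurve, WeierstrassCurve.baseChange]

theorem frey_a₄ (P : FreyPackage) :
    (P.freyCurve⁄Kbar).a₄ = -((P.a : Kbar) ^ P.p) * ((P.b : Kbar) ^ P.p) / 16 := by
  simp [FreyPackage.freyCurve, WeierstrassCurve.baseChange]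

theorem frey_a₆ (P : FreyPackage) : (P.freyCurve⁄Kbar).a₆ = 0 := by
  simp [FreyPackage.freyCurve, WeierstrassCurve.baseChange]

theorem leg_a₁ (α β : ℤ) : ((Leg (α : ℚ) (β : ℚ))⁄Kbar).a₁ = 0 := by
  simp [Leg, WeierstrassCurve.baseChange]

theorem leg_a₂ (α β : ℤ) : ((Leg (α : ℚ) (β : ℚ))⁄Kbar).a₂ = (β : Kbar) - (α : Kbar) := by
  simp [Leg, WeierstrassCurve.baseChange]

theorem leg_a₃ (α β : ℤ) : ((Leg (α : ℚ) (β : ℚ))⁄Kbar).a₃ = 0 := by
  simp [Leg, WeierstrassCurve.baseChange]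

theorem leg_a₄ (α β : ℤ) : ((Leg (α : ℚ) (β : ℚ))⁄Kbar).a₄ = -((α : Kbar) * (β : Kbar)) := by
  simp [Leg, WeierstrassCurve.baseChange]

theorem leg_a₆ (α β : ℤ) : ((Leg (α : ℚ) (β : ℚ))⁄Kbar).a₆ = 0 := by
  simp [Leg, WeierstrassCurve.baseChange]

/-- The change of variables `X = 4x - e`, `Y = 8y + 4x` from the Frey model to Legendre form. -/
theorem rel (P : FreyPackage) (e α β : ℤ)
    (h2 : β - α = P.b ^ P.p - P.a ^ P.p + 3 * e)
    (h4 : -(P.a ^ P.p * P.b ^ P.p) = -(α * β) - 2 * e * (β - α) + 3 * e ^ 2)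
    (h6 : 0 = e * (α * β) + e ^ 2 * (β - α) - e ^ 3) :
    Rel ((Leg (α : ℚ) (β : ℚ))⁄Kbar) (P.freyCurve⁄Kbar) (2 : Kbar) (-(e : Kbar)) 1 0 := by
  have h2' : ((β : Kbar) - α) = (P.b : Kbar) ^ P.p - (P.a : Kbar) ^ P.p + 3 * e := by
    exact_mod_cast h2
  have h4' : -((P.a : Kbar) ^ P.p * (P.b : Kbar) ^ P.p) =
      -((α : Kbar) * β) - 2 * e * (β - α) + 3 * (e : Kbar) ^ 2 := by
    exact_mod_cast h4
  have h6' : (0 : Kbar) = e * ((α : Kbar) * β) + (e : Kbar) ^ 2 * (β - α) - (e : Kbar) ^ 3 := by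
    exact_mod_cast h6
  refine ⟨two_ne_zero, ?_, ?_, ?_, ?_, ?_⟩
  · rw [frey_a₁, leg_a₁]; ring
  · rw [frey_a₂, leg_a₂, leg_a₁]; linear_combination -h2'
  · rw [frey_a₃, leg_a₃, leg_a₁]; ring
  · rw [frey_a₄, leg_a₄, leg_a₃, leg_a₂, leg_a₁]; linear_combination h4'
  · rw [frey_a₆, leg_a₆, leg_a₄, leg_a₃, leg_a₂, leg_a₁]; linear_combination h6'

theorem pointMap_smul {P : FreyPackage} {e α β : ℤ}
    (H : Rel ((Leg (α : ℚ) (β : ℚ))⁄Kbar) (P.freyCurve⁄Kbar) (2 : Kbar) (-(e : Kbar)) 1 0)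
    (σ : Kbar ≃ₐ[ℚ] Kbar) (Pt : (P.freyCurve⁄Kbar).Point) :
    H.pointMap (σ • Pt) = σ • H.pointMap Pt := by
  rcases Pt with _ | ⟨x, y, h⟩
  · rfl
  · obtain ⟨h', e1⟩ : ∃ h', σ • (Point.some x y h : (P.freyCurve⁄Kbar).Point) =
        Point.some (σ x) (σ y) h' := ⟨_, rfl⟩
    rw [e1, Rel.pointMap_some, Rel.pointMap_some]
    obtain ⟨h'', e2⟩ : ∃ h'', σ • (Point.some ((2 : Kbar) ^ 2 * x + -(e : Kbar))
        ((2 : Kbar) ^ 3 * y + (2 : Kbar) ^ 2 * 1 * x + 0) ((H.nonsingular_iff x y).mp h) :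
          ((Leg (α : ℚ) (β : ℚ))⁄Kbar).Point) =
        Point.some (σ ((2 : Kbar) ^ 2 * x + -(e : Kbar)))
          (σ ((2 : Kbar) ^ 3 * y + (2 : Kbar) ^ 2 * 1 * x + 0)) h'' := ⟨_, rfl⟩
    rw [e2]
    have hσ2 : σ (2 : Kbar) = 2 := map_ofNat σ 2
    simp only [Point.some.injEq]
    constructor
    · simp [hσ2]
    · simp [hσ2]

theorem core (hLeg : LegStatement) (P : FreyPackage) {q : ℕ} (hq : q.Prime) (hq2 : q ≠ 2)
    (hqp : q ≠ P.p) (A : ValuationSubring Kbar) (hA : (q : Kbar) ∈ A.nonunits)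
    (σ : Kbar ≃ₐ[ℚ] Kbar) (hσ : σ ∈ A.inertiaSubgroupIn ℚ) (e α β d : ℤ)
    (h2 : β - α = P.b ^ P.p - P.a ^ P.p + 3 * e)
    (h4 : -(P.a ^ P.p * P.b ^ P.p) = -(α * β) - 2 * e * (β - α) + 3 * e ^ 2)
    (h6 : 0 = e * (α * β) + e ^ 2 * (β - α) - e ^ 3)
    (hβ : ¬ (q : ℤ) ∣ β) (hαβ : ¬ (q : ℤ) ∣ α + β) (hα : α = d ^ P.p ∨ α = -d ^ P.p)
    (hd : d ≠ 0) (Pt : (P.freyCurve⁄Kbar).Point) (hPt : (P.p : ℤ) • Pt = 0) : σ • Pt = Pt := by
  have H := rel P e α β h2 h4 h6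
  have v2 : A.valuation (2 : Kbar) = 1 := by
    have := valuation_intCast_eq_one A q hq hA 2 (by
      intro h
      have h' : q ∣ 2 := by exact_mod_cast h
      exact hq2 ((Nat.prime_dvd_prime_iff_eq hq Nat.prime_two).mp h'))
    simpa using this
  have vp : A.valuation (P.p : Kbar) = 1 := by
    have := valuation_intCast_eq_one A q hq hA (P.p : ℤ) (by
      intro h
      have h' : q ∣ P.p := by exact_mod_cast h
      exact hqp ((Nat.prime_dvd_prime_iff_eq hq P.pp).mp h'))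
    simpa using this
  have vβ : A.valuation (β : Kbar) = 1 := valuation_intCast_eq_one A q hq hA β hβ
  have vαβ : A.valuation ((α : Kbar) + β) = 1 := by
    have := valuation_intCast_eq_one A q hq hA (α + β) hαβ
    simpa using this
  have vα : A.valuation (α : Kbar) = A.valuation (d : Kbar) ^ P.p := by
    rcases hα with h | h
    · rw [h]; simp
    · rw [h]; simp
  have hp2 : P.p ≠ 2 := by have := P.hp5; omega
  have hα0 : α ≠ 0 := by
    rcases hα with h | h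
    · rw [h]; exact pow_ne_zero _ hd
    · rw [h]; exact neg_ne_zero.mpr (pow_ne_zero _ hd)
  have key := hLeg A σ α β d P.p P.pp hp2 hα0 v2 vp vβ vαβ vα
    (Glue.mem_iff_of_mem_inertia ℚ A σ hσ) (Glue.valuation_sub_lt_one_of_mem_inertia ℚ A σ hσ)
    (H.pointMap Pt) (by
      have := map_zsmul H.pointHom (P.p : ℤ) Pt
      rw [hPt, _root_.map_zero] at this
      exact this.symm)
  rw [← pointMap_smul H σ Pt] at key
  exact H.pointMap_injective key

theorem result_of_leg (hLeg : LegStatement) (P : FreyPackage) {q : ℕ} (hq : q.Prime)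
    (hq2 : q ≠ 2) (hqp : q ≠ P.p) : P.GaloisRepUnramifiedAt q := by
  intro A hA σ hσ x
  obtain ⟨Pt, hPt⟩ := x
  have hPt' : (P.p : ℤ) • Pt = 0 := (Submodule.mem_torsionBy_iff _ _).mp hPt
  apply Subtype.ext
  change σ • Pt = Pt
  have hqZ : Prime (q : ℤ) := Nat.prime_iff_prime_int.mp hq
  have hFLT := P.hFLT
  have hppos : P.p ≠ 0 := P.hp0
  by_cases hb : (q : ℤ) ∣ P.b
  · -- node at X = 0, with α = -b^p, β = -a^p
    have ha : ¬ (q : ℤ) ∣ P.a := by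
      intro ha
      have := dvd_gcd ha hb
      rw [P.hgcdab] at this
      exact hqZ.not_dvd_one this
    have hc : ¬ (q : ℤ) ∣ P.c := by
      intro hc
      have := dvd_gcd hb hc
      rw [P.hgcdbc] at this
      exact hqZ.not_dvd_one this
    refine core hLeg P hq hq2 hqp A hA σ hσ 0 (-(P.b ^ P.p)) (-(P.a ^ P.p)) P.b ?_ ?_ ?_ ?_ ?_
      (Or.inr rfl) P.hb0 Pt hPt'
    · ring
    · ring
    · ring
    · rw [dvd_neg]; exact fun h => ha (hqZ.dvd_of_dvd_pow h)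
    · have : -(P.b ^ P.p) + -(P.a ^ P.p) = -(P.c ^ P.p) := by rw [← hFLT]; ring
      rw [this, dvd_neg]; exact fun h => hc (hqZ.dvd_of_dvd_pow h)
  by_cases hc : (q : ℤ) ∣ P.c
  · -- node at X = a^p: translate by e = a^p, α = -c^p, β = a^p
    have ha : ¬ (q : ℤ) ∣ P.a := by
      intro ha
      have := dvd_gcd ha hc
      rw [P.hgcdac] at this
      exact hqZ.not_dvd_one this
    refine core hLeg P hq hq2 hqp A hA σ hσ (P.a ^ P.p) (-(P.c ^ P.p)) (P.a ^ P.p) P.c ?_ ?_ ?_ ?_ ?_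
      (Or.inr rfl) P.hc0 Pt hPt'
    · rw [← hFLT]; ring
    · rw [← hFLT]; ring
    · rw [← hFLT]; ring
    · exact fun h => ha (hqZ.dvd_of_dvd_pow h)
    · have : -(P.c ^ P.p) + P.a ^ P.p = -(P.b ^ P.p) := by rw [← hFLT]; ring
      rw [this, dvd_neg]; exact fun h => hb (hqZ.dvd_of_dvd_pow h)
  · -- good reduction, or node at X = 0 with α = a^p, β = b^p
    refine core hLeg P hq hq2 hqp A hA σ hσ 0 (P.a ^ P.p) (P.b ^ P.p) P.a ?_ ?_ ?_ ?_ ?_
      (Or.inl rfl) P.ha0 Pt hPt'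
    · ring
    · ring
    · ring
    · exact fun h => hb (hqZ.dvd_of_dvd_pow h)
    · rw [hFLT]; exact fun h => hc (hqZ.dvd_of_dvd_pow h)

end Fermat.Agent.S05.Shell
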