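import Mathlib
import Fermat.Agent.S05.Ident
import Fermat.Agent.S05.SameRed
import Fermat.Agent.S05.Shell

set_option autoImplicit false

namespace Fermat.Agent.S05.Final

open WeierstrassCurve WeierstrassCurve.Affine

variable {K : Type*} [Field K] [DecidableEq K] {Γ₀ : Type*} [LinearOrderedCommGroupWithZero Γ₀]
  (v : Valuation K Γ₀)

section Map

variable {R S : Type*} [CommRing R] [CommRing S] [Algebra R S] [Algebra R K] [Algebra S K]
  [IsScalarTower R S K]

/-- Last step of Part 3: a torsion point whose `x`-coordinate has the valuation of an element fixed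
by `f`, strictly between `v α` and `1`, is fixed by `f`. -/
theorem fixed_of_val_eq {n : ℕ} (W' : Affine R) (f : K →ₐ[S] K)
    (hf : ∀ x, v x ≤ 1 → v (f x - x) < 1) {α β : K}
    (ha₁ : (W'⁄K).a₁ = 0) (ha₃ : (W'⁄K).a₃ = 0) (ha₆ : (W'⁄K).a₆ = 0)
    (ha₂ : (W'⁄K).a₂ = β - α) (ha₄ : (W'⁄K).a₄ = -(α * β))
    (h2 : v 2 = 1) (hβ : v β = 1)
    (hint : ∀ Q : (W'⁄K).Point, n • Q = 0 → ∀ (x y : K) (h : (W'⁄K).Nonsingular x y),
      Q = Point.some x y h → v x ≤ 1)
    {x y : K} (h : (W'⁄K).Nonsingular x y) (hn : n • Point.some x y h = 0)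
    (hxα : v α < v x) (hx1 : v x < 1) (c : K) (hc : f c = c) (hxc : v x = v c) :
    Point.map f (Point.some x y h) = Point.some x y h := by
  have hvx0 : 0 < v x := lt_of_le_of_lt zero_le hxα
  have hx0 : x ≠ 0 := (v.ne_zero_iff).mp hvx0.ne'
  have hc0 : c ≠ 0 := by
    rintro rfl
    rw [map_zero] at hxc
    exact hvx0.ne' hxc
  have hfx0 : f x ≠ 0 := (map_ne_zero f).mpr hx0
  -- `x = c * w` with `w` a unit
  have hw : v (x / c) = 1 := by
    rw [map_div₀, hxc, div_self]
    exact (v.ne_zero_iff).mpr hc0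
  have hfw := hf (x / c) hw.le
  have hfx : f x - x = c * (f (x / c) - x / c) := by
    rw [map_div₀, hc]
    field_simp
  have hvfx : v (f x - x) < v x := by
    rw [hfx, map_mul, hxc]
    calc v c * v (f (x / c) - x / c) < v c * 1 :=
          (mul_lt_mul_iff_right₀ (by rw [← hxc]; exact hvx0)).mpr hfw
      _ = v c := mul_one _
  have hvfx' : v (f x) = v x := by
    have e : f x = x + (f x - x) := by ring
    rw [e, v.map_add_eq_of_lt_left hvfx]
  -- `γ = y / x` is a unit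
  have hE := (Ident.equation_iff_leg ha₁ ha₃ ha₆ x y).mp h.1
  rw [ha₂, ha₄] at hE
  have hγ2 : (y / x) ^ 2 = (1 - α / x) * (x + β) := by
    field_simp
    linear_combination hE
  have hv1 : v (1 - α / x) = 1 := by
    have ht : v (α / x) < 1 := by
      rw [map_div₀]
      exact (div_lt_one₀ hvx0).mpr hxα
    rw [v.map_sub_eq_of_lt_left (by rw [map_one]; exact ht), map_one]
  have hv2 : v (x + β) = 1 := by
    rw [v.map_add_eq_of_lt_right (by rw [hβ]; exact hx1), hβ]
  have hγ : v (y / x) = 1 := by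
    have h1 : v (y / x) ^ 2 = 1 := by
      rw [← map_pow, hγ2, map_mul, hv1, hv2, one_mul]
    exact (pow_eq_one_iff_of_nonneg zero_le (by norm_num)).mp h1
  have hfγ := hf (y / x) hγ.le
  have hfy : f y + y = (f (y / x) - y / x) * f x + y / x * (f x - x) + 2 * (y / x) * x := by
    rw [map_div₀]
    field_simp
    ring
  have hvfy : v (f y + y) = v x := by
    have t1 : v ((f (y / x) - y / x) * f x) < v x := by
      rw [map_mul, hvfx']
      calc v (f (y / x) - y / x) * v x < 1 * v x := (mul_lt_mul_iff_left₀ hvx0).mpr hfγ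
        _ = v x := one_mul _
    have t2 : v (y / x * (f x - x)) < v x := by
      rw [map_mul, hγ, one_mul]
      exact hvfx
    have t3 : v (2 * (y / x) * x) = v x := by
      rw [map_mul, map_mul, h2, hγ, one_mul, one_mul]
    have t12 : v ((f (y / x) - y / x) * f x + y / x * (f x - x)) < v x := v.map_add_lt t1 t2
    rw [hfy, v.map_add_eq_of_lt_right (by rw [t3]; exact t12), t3]
  have hfP : (W'⁄K).Nonsingular (f x) (f y) := (W'.baseChange_nonsingular f.injective ..).mpr h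
  rw [Point.map_some]
  by_cases hxx : f x = x
  · have hfE := (Ident.equation_iff_leg ha₁ ha₃ ha₆ (f x) (f y)).mp hfP.1
    rw [ha₂, ha₄, hxx] at hfE
    have hsq : (f y - y) * (f y + y) = 0 := by linear_combination hfE - hE
    rcases mul_eq_zero.mp hsq with h0 | h0
    · rw [Point.some.injEq]
      exact ⟨hxx, by linear_combination h0⟩
    · rw [h0, map_zero] at hvfy
      exact absurd hvfy.symm hvx0.ne'
  · by_contra _
    obtain ⟨x₄, y₄, h₄, hsub, hx₄, -⟩ := Ident.sub_of_X_ne_leg ha₁ ha₃ hfP h hxx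
    have hd0 : f x - x ≠ 0 := sub_ne_zero.mpr hxx
    have hL : 1 < v ((f y + y) / (f x - x)) := by
      rw [map_div₀, hvfy]
      exact (one_lt_div₀ (by rw [pos_iff_ne_zero]; exact (v.ne_zero_iff).mpr hd0)).mpr hvfx
    have hva₂ : v (W'⁄K).a₂ ≤ 1 := by
      rw [ha₂]
      exact v.map_sub_le hβ.le (hxα.le.trans hx1.le)
    have hva₁ : v (W'⁄K).a₁ ≤ 1 := by rw [ha₁, map_zero]; exact zero_le_one
    have hx₄' : 1 < v x₄ := by
      have := SameRed.one_lt_val_addX v (W'⁄K) hva₁ hva₂ (hvfx'.le.trans hx1.le) hx1.le hL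
      rw [Affine.addX, ha₁, zero_mul, add_zero] at this
      rw [hx₄]
      exact this
    have hQ : n • (Point.map f (Point.some x y h) - Point.some x y h) = 0 := by
      rw [smul_sub, ← map_nsmul, hn, map_zero, sub_zero]
    rw [Point.map_some, hsub] at hQ
    exact absurd (hint _ hQ x₄ y₄ h₄ rfl) (not_le.mpr hx₄')

end Map

local notation "Kbar" => AlgebraicClosure ℚ

open Fermat.Agent.S05.Shell in
/-- Adapter: Part 1 (torsion points are integral) and the valuation statement of Part 3 imply the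
abstract statement `Shell.LegStatement`. -/
theorem legStatement_of_parts
    (hP1 : ∀ (A : ValuationSubring Kbar) (α β : ℤ) (p : ℕ), p.Prime → p ≠ 2 →
      A.valuation (2 : Kbar) = 1 → A.valuation (p : Kbar) = 1 →
      A.valuation (β : Kbar) = 1 → A.valuation ((α : Kbar) + β) = 1 →
      A.valuation (α : Kbar) ≤ 1 →
      ∀ Q : ((Leg (α : ℚ) (β : ℚ))⁄Kbar).Point, p • Q = 0 →
        ∀ (x y : Kbar) (h : ((Leg (α : ℚ) (β : ℚ))⁄Kbar).Nonsingular x y),
          Q = Point.some x y h → A.valuation x ≤ 1)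
    (hP3 : ∀ (A : ValuationSubring Kbar) (α β : ℤ) (p : ℕ), p.Prime → p ≠ 2 → α ≠ 0 →
      A.valuation (2 : Kbar) = 1 → A.valuation (p : Kbar) = 1 →
      A.valuation (β : Kbar) = 1 → A.valuation ((α : Kbar) + β) = 1 →
      A.valuation (α : Kbar) < 1 →
      ∀ (x y : Kbar) (h : ((Leg (α : ℚ) (β : ℚ))⁄Kbar).Nonsingular x y),
        p • Point.some x y h = 0 → A.valuation x < 1 →
          A.valuation (α : Kbar) < A.valuation x ∧
            ∃ k : ℤ, A.valuation x ^ p = A.valuation (α : Kbar) ^ (2 * k)) :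
    LegStatement := by
  intro A σ α β d p hp hp2 hα0 v2 vp vβ vαβ vα _ hσ Q hQ
  have hα1 : A.valuation (α : Kbar) ≤ 1 := (A.valuation_le_one_iff _).mpr (intCast_mem A α)
  have hf : ∀ x, A.valuation x ≤ 1 → A.valuation (σ.toAlgHom x - x) < 1 :=
    fun x hx => hσ x ((A.valuation_le_one_iff x).mp hx)
  change Point.map σ.toAlgHom Q = Q
  rcases Q with _ | ⟨x, y, h⟩
  · rfl
  have hQn : p • Point.some x y h = 0 := by
    rw [← natCast_zsmul]; exact hQ
  have hint := hP1 A α β p hp hp2 v2 vp vβ vαβ hα1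
  have hx : A.valuation x ≤ 1 := hint _ hQn x y h rfl
  have h₁ : A.valuation ((Leg (α : ℚ) (β : ℚ))⁄Kbar).a₁ ≤ 1 := by
    rw [leg_a₁, map_zero]; exact zero_le_one
  have h₂ : A.valuation ((Leg (α : ℚ) (β : ℚ))⁄Kbar).a₂ ≤ 1 := by
    rw [leg_a₂]; exact A.valuation.map_sub_le vβ.le hα1
  have h₃ : A.valuation ((Leg (α : ℚ) (β : ℚ))⁄Kbar).a₃ ≤ 1 := by
    rw [leg_a₃, map_zero]; exact zero_le_one
  have h₄ : A.valuation ((Leg (α : ℚ) (β : ℚ))⁄Kbar).a₄ ≤ 1 := by
    rw [leg_a₄, Valuation.map_neg, map_mul, vβ, mul_one]; exact hα1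
  have h₆ : A.valuation ((Leg (α : ℚ) (β : ℚ))⁄Kbar).a₆ ≤ 1 := by
    rw [leg_a₆, map_zero]; exact zero_le_one
  have hy : A.valuation y ≤ 1 := SameRed.val_y_le_one A.valuation _ h₁ h₂ h₃ h₄ h₆ h.1 hx
  by_cases hgood : A.valuation (α : Kbar) = 1 ∨ A.valuation x = 1
  · have hns := SameRed.legendre_nonsingular_reduction A.valuation ((Leg (α : ℚ) (β : ℚ))⁄Kbar)
      (leg_a₁ α β) (leg_a₃ α β) (leg_a₆ α β) (leg_a₂ α β) (leg_a₄ α β) v2 hα1 vβ vαβ h.1 hx hgood
    exact SameRed.map_eq_self_of_nonsingular_reduction A.valuation (Leg (α : ℚ) (β : ℚ))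
      σ.toAlgHom hf h₁ h₂ hint h hQn hx hy hns
  · push Not at hgood
    obtain ⟨hα', hx'⟩ := hgood
    have hαlt : A.valuation (α : Kbar) < 1 := lt_of_le_of_ne hα1 hα'
    have hxlt : A.valuation x < 1 := lt_of_le_of_ne hx hx'
    obtain ⟨hαx, k, hk⟩ := hP3 A α β p hp hp2 hα0 v2 vp vβ vαβ hαlt x y h hQn hxlt
    have hvx : A.valuation x = A.valuation (d : Kbar) ^ (2 * k) := by
      have e : A.valuation x ^ p = (A.valuation (d : Kbar) ^ (2 * k)) ^ p := by
        rw [hk, vα, ← zpow_natCast, ← zpow_natCast, ← zpow_mul, ← zpow_mul, mul_comm]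
      exact (pow_left_inj₀ zero_le zero_le hp.ne_zero).mp e
    refine fixed_of_val_eq A.valuation (Leg (α : ℚ) (β : ℚ)) σ.toAlgHom hf
      (leg_a₁ α β) (leg_a₃ α β) (leg_a₆ α β) (leg_a₂ α β) (leg_a₄ α β) v2 vβ hint h hQn hαx hxlt
      ((d : Kbar) ^ (2 * k)) ?_ ?_
    · change σ ((d : Kbar) ^ (2 * k)) = (d : Kbar) ^ (2 * k)
      rw [map_zpow₀, map_intCast]
    · rw [map_zpow₀]; exact hvx

end Fermat.Agent.S05.Final
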