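import Mathlib

set_option autoImplicit false

/-!
Part 1 of the S05 plan: on a Weierstrass curve `y² = x³ + a x² + b x` with integral `a`, `b`
over a valued field with `v 2 = 1`, a nonzero point with non-integral `x`-coordinate is not
killed by any natural number `n` with `v n = 1`.
-/

namespace Fermat.Agent.S05.KerRed

open WeierstrassCurve

variable {K : Type*} [Field K]

section model

variable {W : WeierstrassCurve.Affine K}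

/-- The `x`-coordinate (and `0` at the point at infinity). -/
def xc : W.Point → K
  | .zero => 0
  | .some x _ _ => x

/-- The `y`-coordinate (and `0` at the point at infinity). -/
def yc : W.Point → K
  | .zero => 0
  | .some _ y _ => y

lemma xc_some {x y : K} (h : W.Nonsingular x y) : xc (Affine.Point.some x y h) = x := rfl

lemma yc_some {x y : K} (h : W.Nonsingular x y) : yc (Affine.Point.some x y h) = y := rfl

lemma yc_sq (h₁ : W.a₁ = 0) (h₃ : W.a₃ = 0) (h₆ : W.a₆ = 0) {P : W.Point} (hP : P ≠ 0) :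
    yc P ^ 2 = xc P ^ 3 + W.a₂ * xc P ^ 2 + W.a₄ * xc P := by
  rcases P with _ | ⟨x, y, h⟩
  · exact absurd rfl hP
  · have := (Affine.equation_iff x y).1 h.1
    rw [h₁, h₃, h₆] at this
    rw [xc_some, yc_some]
    linear_combination this

lemma xc_neg (P : W.Point) : xc (-P) = xc P := by
  rcases P with _ | ⟨x, y, h⟩ <;> rfl

lemma yc_neg (h₁ : W.a₁ = 0) (h₃ : W.a₃ = 0) (P : W.Point) : yc (-P) = -yc P := by
  rcases P with _ | ⟨x, y, h⟩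
  · change (0 : K) = -0
    simp
  · rw [Affine.Point.neg_some, yc_some, yc_some]
    simp only [Affine.negY, h₁, h₃]
    ring

lemma neg_ne_zero_iff (P : W.Point) : -P ≠ 0 ↔ P ≠ 0 := by
  rw [Ne, Ne, neg_eq_iff_eq_neg, Affine.Point.neg_zero]

lemma eq_of_xc_yc {P Q : W.Point} (hP : P ≠ 0) (hQ : Q ≠ 0)
    (hX : xc P = xc Q) (hY : yc P = yc Q) : P = Q := by
  rcases P with _ | ⟨x₁, y₁, hh₁⟩
  · exact absurd rfl hP
  rcases Q with _ | ⟨x₂, y₂, hh₂⟩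
  · exact absurd rfl hQ
  rw [xc_some, xc_some] at hX
  rw [yc_some, yc_some] at hY
  subst hX
  subst hY
  rfl

lemma eq_or_eq_neg_of_xc (h₁ : W.a₁ = 0) (h₃ : W.a₃ = 0) (h₆ : W.a₆ = 0)
    {P Q : W.Point} (hP : P ≠ 0) (hQ : Q ≠ 0) (hX : xc P = xc Q) : P = Q ∨ P = -Q := by
  have e1 := yc_sq h₁ h₃ h₆ hP
  have e2 := yc_sq h₁ h₃ h₆ hQ
  rw [hX, ← e2] at e1
  rcases sq_eq_sq_iff_eq_or_eq_neg.1 e1 with h | h
  · exact Or.inl (eq_of_xc_yc hP hQ hX h)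
  · right
    apply eq_of_xc_yc hP ((neg_ne_zero_iff Q).2 hQ)
    · rw [xc_neg, hX]
    · rw [yc_neg h₁ h₃, h]

variable [DecidableEq K]

/-- Chord formula. -/
lemma add_of_xc_ne (h₁ : W.a₁ = 0) {P Q : W.Point} (hP : P ≠ 0) (hQ : Q ≠ 0)
    (hX : xc P ≠ xc Q) :
    P + Q ≠ 0 ∧ xc (P + Q) = ((yc P - yc Q) / (xc P - xc Q)) ^ 2 - W.a₂ - xc P - xc Q := by
  rcases P with _ | ⟨x₁, y₁, hh₁⟩
  · exact absurd rfl hP
  rcases Q with _ | ⟨x₂, y₂, hh₂⟩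
  · exact absurd rfl hQ
  have hx : x₁ ≠ x₂ := by
    rintro rfl
    exact hX rfl
  rw [Affine.Point.add_of_X_ne hx]
  refine ⟨Affine.Point.some_ne_zero _, ?_⟩
  rw [xc_some, xc_some, xc_some, yc_some, yc_some, Affine.slope_of_X_ne hx]
  simp only [Affine.addX, h₁]
  ring

/-- Tangent formula. -/
lemma add_self_of_yc_ne (h₁ : W.a₁ = 0) (h₃ : W.a₃ = 0) (h2 : (2 : K) ≠ 0) {P : W.Point}
    (hP : P ≠ 0) (hY : yc P ≠ 0) :
    P + P ≠ 0 ∧ xc (P + P) =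
      ((3 * xc P ^ 2 + 2 * W.a₂ * xc P + W.a₄) / (2 * yc P)) ^ 2 - W.a₂ - 2 * xc P := by
  rcases P with _ | ⟨x, y, h⟩
  · exact absurd rfl hP
  rw [yc_some] at hY
  have hneg : W.negY x y = -y := by simp only [Affine.negY, h₁, h₃]; ring
  have hy : y ≠ W.negY x y := by
    rw [hneg]
    intro hy
    apply hY
    have : (2 : K) * y = 0 := by linear_combination hy
    exact (mul_eq_zero.1 this).resolve_left h2
  rw [Affine.Point.add_self_of_Y_ne hy]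
  refine ⟨Affine.Point.some_ne_zero _, ?_⟩
  rw [xc_some, xc_some, yc_some, Affine.slope_of_Y_ne rfl hy, hneg]
  simp only [Affine.addX, h₁]
  have : y - -y = 2 * y := by ring
  rw [this]
  ring

lemma sub_of_xc_ne (h₁ : W.a₁ = 0) (h₃ : W.a₃ = 0) {P Q : W.Point} (hP : P ≠ 0) (hQ : Q ≠ 0)
    (hX : xc P ≠ xc Q) :
    P - Q ≠ 0 ∧ xc (P - Q) = ((yc P + yc Q) / (xc P - xc Q)) ^ 2 - W.a₂ - xc P - xc Q := by
  have h := add_of_xc_ne h₁ hP ((neg_ne_zero_iff Q).2 hQ) (by rwa [xc_neg])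
  rw [xc_neg, yc_neg h₁ h₃, sub_neg_eq_add, ← sub_eq_add_neg] at h
  exact h

/-- Sum formula for the `x`-coordinates of `P ± Q`. -/
lemma xc_add_add_xc_sub (h₁ : W.a₁ = 0) (h₃ : W.a₃ = 0) (h₆ : W.a₆ = 0)
    {P Q : W.Point} (hP : P ≠ 0) (hQ : Q ≠ 0) (hX : xc P ≠ xc Q) :
    xc (P + Q) + xc (P - Q) =
      2 * ((xc P + xc Q) * (xc P * xc Q + W.a₄) + 2 * W.a₂ * (xc P * xc Q)) /
        (xc P - xc Q) ^ 2 := by
  rw [(add_of_xc_ne h₁ hP hQ hX).2, (sub_of_xc_ne h₁ h₃ hP hQ hX).2]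
  have e1 := yc_sq h₁ h₃ h₆ hP
  have e2 := yc_sq h₁ h₃ h₆ hQ
  have hd : xc P - xc Q ≠ 0 := sub_ne_zero.2 hX
  field_simp
  linear_combination 2 * e1 + 2 * e2

/-- Product formula for the `x`-coordinates of `P ± Q`. -/
lemma xc_add_mul_xc_sub (h₁ : W.a₁ = 0) (h₃ : W.a₃ = 0) (h₆ : W.a₆ = 0)
    {P Q : W.Point} (hP : P ≠ 0) (hQ : Q ≠ 0) (hX : xc P ≠ xc Q) :
    xc (P + Q) * xc (P - Q) = (xc P * xc Q - W.a₄) ^ 2 / (xc P - xc Q) ^ 2 := by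
  rw [(add_of_xc_ne h₁ hP hQ hX).2, (sub_of_xc_ne h₁ h₃ hP hQ hX).2]
  have e1 := yc_sq h₁ h₃ h₆ hP
  have e2 := yc_sq h₁ h₃ h₆ hQ
  have hd : xc P - xc Q ≠ 0 := sub_ne_zero.2 hX
  field_simp
  grind

/-- Duplication formula for the `x`-coordinate. -/
lemma xc_add_self (h₁ : W.a₁ = 0) (h₃ : W.a₃ = 0) (h₆ : W.a₆ = 0) (h2 : (2 : K) ≠ 0)
    {P : W.Point} (hP : P ≠ 0) (hY : yc P ≠ 0) :
    xc (P + P) = (xc P ^ 2 - W.a₄) ^ 2 / (4 * yc P ^ 2) := by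
  rw [(add_self_of_yc_ne h₁ h₃ h2 hP hY).2]
  have e1 := yc_sq h₁ h₃ h₆ hP
  have h4 : (4 : K) ≠ 0 := by
    have : (4 : K) = 2 * 2 := by norm_num
    rw [this]; exact mul_ne_zero h2 h2
  field_simp
  grind

end model


section valuation

variable {Γ₀ : Type*} [LinearOrderedCommGroupWithZero Γ₀] (v : Valuation K Γ₀)

lemma val_natCast_le_one (n : ℕ) : v (n : K) ≤ 1 := by
  induction n with
  | zero => simp
  | succ n ih =>
    rw [Nat.cast_succ]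
    exact v.map_add_le ih (le_of_eq v.map_one)

lemma two_ne_zero_of_val (h2 : v (2 : K) = 1) : (2 : K) ≠ 0 := by
  intro h
  rw [h, v.map_zero] at h2
  exact zero_ne_one h2

lemma val_four (h2 : v (2 : K) = 1) : v (4 : K) = 1 := by
  have : (4 : K) = 2 * 2 := by norm_num
  rw [this, v.map_mul, h2, one_mul]

lemma ne_zero_of_one_lt {x : K} (hx : 1 < v x) : x ≠ 0 := by
  rintro rfl
  rw [v.map_zero] at hx
  exact not_lt_zero hx

lemma val_inv_lt_one {x : K} (hx : 1 < v x) : v x⁻¹ < 1 := by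
  rw [map_inv₀]
  exact inv_lt_one_of_one_lt₀ hx

lemma val_mul_lt_of_lt_one {a b : Γ₀} (ha : a ≤ 1) (hb : b < 1) : a * b < 1 :=
  lt_of_le_of_lt (mul_le_of_le_one_left' ha) hb

lemma ne_zero_of_val_eq_one {x : K} (hx : v x = 1) : x ≠ 0 := by
  rintro rfl
  rw [v.map_zero] at hx
  exact zero_ne_one hx

lemma val_mul_self_lt {a b : Γ₀} (ha : a ≠ 0) (hb : b < 1) : a * b < a := by
  have : a * b < a * 1 := by
    have ha' : 0 < a := zero_lt_iff.2 ha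
    gcongr
  rwa [mul_one] at this

lemma int_poly_dup {a b t : K} (ha : v a ≤ 1) (hb : v b ≤ 1) (ht : v t ≤ 1) :
    v (a + 3 * b * t - b ^ 2 * t ^ 3) ≤ 1 := by
  have ha' : a ∈ v.integer := ha
  have hb' : b ∈ v.integer := hb
  have ht' : t ∈ v.integer := ht
  have : a + 3 * b * t - b ^ 2 * t ^ 3 ∈ v.integer := by aesop
  exact this

lemma int_poly_sum {a b s t : K} (ha : v a ≤ 1) (hb : v b ≤ 1) (hs : v s ≤ 1) (ht : v t ≤ 1) :
    v ((s + t) * (3 * b - b ^ 2 * s * t) + 2 * a) ≤ 1 := by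
  have ha' : a ∈ v.integer := ha
  have hb' : b ∈ v.integer := hb
  have hs' : s ∈ v.integer := hs
  have ht' : t ∈ v.integer := ht
  have : (s + t) * (3 * b - b ^ 2 * s * t) + 2 * a ∈ v.integer := by aesop
  exact this

lemma val_unit_dup {a b t : K} (ha : v a ≤ 1) (hb : v b ≤ 1) (ht : v t < 1) :
    v (1 + (a * t + b * t ^ 2)) = 1 := by
  apply v.map_one_add_of_lt
  apply v.map_add_lt
  · rw [v.map_mul]
    exact val_mul_lt_of_lt_one ha ht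
  · rw [v.map_mul, v.map_pow]
    have : v t ^ 2 < 1 := by
      rw [sq]; exact val_mul_lt_of_lt_one (le_of_lt ht) ht
    exact val_mul_lt_of_lt_one hb this

lemma inv_add_inv_of_sum_prod {r₁ r₂ S N d : K} (hd : d ≠ 0) (hN : N ≠ 0)
    (hs : r₁ + r₂ = S / d ^ 2) (hp : r₁ * r₂ = N ^ 2 / d ^ 2) :
    r₁ ≠ 0 ∧ r₂ ≠ 0 ∧ r₁⁻¹ + r₂⁻¹ = S / N ^ 2 := by
  have h12 : r₁ * r₂ ≠ 0 := by
    rw [hp]; exact div_ne_zero (pow_ne_zero 2 hN) (pow_ne_zero 2 hd)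
  have h1 : r₁ ≠ 0 := left_ne_zero_of_mul h12
  have h2 : r₂ ≠ 0 := right_ne_zero_of_mul h12
  refine ⟨h1, h2, ?_⟩
  have : r₁⁻¹ + r₂⁻¹ = (r₁ + r₂) / (r₁ * r₂) := by
    field_simp
    ring
  rw [this, hs, hp]
  field_simp

variable [DecidableEq K] {W : WeierstrassCurve.Affine K}

/-- Duplication estimate in the kernel of reduction. -/
lemma dup_est (h₁ : W.a₁ = 0) (h₃ : W.a₃ = 0) (h₆ : W.a₆ = 0) (ha₂ : v W.a₂ ≤ 1)
    (ha₄ : v W.a₄ ≤ 1) (h2 : v 2 = 1)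
    {Q : W.Point} (hQ : Q ≠ 0) (hX : 1 < v (xc Q)) :
    Q + Q ≠ 0 ∧ xc (Q + Q) ≠ 0 ∧ v ((xc (Q + Q))⁻¹ - 4 * (xc Q)⁻¹) < v ((xc Q)⁻¹) := by
  have h20 := two_ne_zero_of_val v h2
  have h4 : (4 : K) ≠ 0 := ne_zero_of_val_eq_one v (val_four v h2)
  have hX0 : xc Q ≠ 0 := ne_zero_of_one_lt v hX
  have ht : v (xc Q)⁻¹ < 1 := val_inv_lt_one v hX
  have ht0 : (xc Q)⁻¹ ≠ 0 := inv_ne_zero hX0
  have hY := yc_sq h₁ h₃ h₆ hQ
  obtain ⟨a, hadef⟩ : ∃ a, a = W.a₂ := ⟨_, rfl⟩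
  obtain ⟨b, hbdef⟩ : ∃ b, b = W.a₄ := ⟨_, rfl⟩
  obtain ⟨X, hXdef⟩ : ∃ X, X = xc Q := ⟨_, rfl⟩
  obtain ⟨Y, hYdef⟩ : ∃ Y, Y = yc Q := ⟨_, rfl⟩
  rw [← hXdef] at hX hX0 ht ht0 hY ⊢
  rw [← hYdef] at hY
  rw [← hadef] at hY ha₂
  rw [← hbdef] at hY ha₄
  obtain ⟨t, htdef⟩ : ∃ t, t = X⁻¹ := ⟨_, rfl⟩
  rw [← htdef] at ht ht0 ⊢
  have hXt : X = t⁻¹ := by rw [htdef, inv_inv]
  -- units
  have hu1 : v (1 + (a * t + b * t ^ 2)) = 1 := val_unit_dup v ha₂ ha₄ ht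
  have hu3 : v (1 - b * t ^ 2) = 1 := by
    apply v.map_one_sub_of_lt
    rw [v.map_mul, v.map_pow]
    have : v t ^ 2 < 1 := by
      rw [sq]; exact val_mul_lt_of_lt_one (le_of_lt ht) ht
    exact val_mul_lt_of_lt_one ha₄ this
  have hn1 := ne_zero_of_val_eq_one v hu1
  have hn3 := ne_zero_of_val_eq_one v hu3
  have hY2 : Y ^ 2 = t⁻¹ ^ 3 * (1 + (a * t + b * t ^ 2)) := by
    rw [hY, hXt]
    field_simp
    ring
  have hY0 : Y ≠ 0 := by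
    intro h
    rw [h] at hY2
    have : t⁻¹ ^ 3 * (1 + (a * t + b * t ^ 2)) ≠ 0 :=
      mul_ne_zero (pow_ne_zero 3 (inv_ne_zero ht0)) hn1
    exact this (by rw [← hY2]; ring)
  have hN : X ^ 2 - b = t⁻¹ ^ 2 * (1 - b * t ^ 2) := by
    rw [hXt]
    field_simp
  rw [hYdef] at hY0
  have hdbl := xc_add_self h₁ h₃ h₆ h20 hQ hY0
  rw [← hXdef, ← hYdef, ← hbdef, hN, hY2] at hdbl
  refine ⟨(add_self_of_yc_ne h₁ h₃ h20 hQ hY0).1, ?_, ?_⟩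
  · rw [hdbl]
    exact div_ne_zero (pow_ne_zero 2 (mul_ne_zero (pow_ne_zero 2 (inv_ne_zero ht0)) hn3))
      (mul_ne_zero h4 (mul_ne_zero (pow_ne_zero 3 (inv_ne_zero ht0)) hn1))
  · have key : (xc (Q + Q))⁻¹ - 4 * t =
        4 * t ^ 2 * (a + 3 * b * t - b ^ 2 * t ^ 3) / (1 - b * t ^ 2) ^ 2 := by
      rw [hdbl]
      generalize hu : 1 - b * t ^ 2 = u at hn3 ⊢
      generalize hu1 : 1 + (a * t + b * t ^ 2) = u1 at hn1 ⊢
      field_simp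
      subst hu hu1
      ring
    rw [key, map_div₀, v.map_pow, hu3, one_pow, div_one, v.map_mul, v.map_mul, v.map_pow,
      val_four v h2, one_mul]
    have hw : v (a + 3 * b * t - b ^ 2 * t ^ 3) ≤ 1 := int_poly_dup v ha₂ ha₄ (le_of_lt ht)
    have htne : v t ≠ 0 := v.ne_zero_iff.2 ht0
    calc v t ^ 2 * v (a + 3 * b * t - b ^ 2 * t ^ 3)
        ≤ v t ^ 2 * 1 := by gcongr
      _ = v t * v t := by rw [mul_one, sq]
      _ < v t := val_mul_self_lt htne ht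

/-- Sum estimate in the kernel of reduction. -/
lemma sum_est (h₁ : W.a₁ = 0) (h₃ : W.a₃ = 0) (h₆ : W.a₆ = 0) (ha₂ : v W.a₂ ≤ 1)
    (ha₄ : v W.a₄ ≤ 1) (h2 : v 2 = 1)
    {P Q : W.Point} (hP : P ≠ 0) (hQ : Q ≠ 0)
    (hXP : 1 < v (xc P)) (hXQ : 1 < v (xc Q)) (hne : xc Q ≠ xc P) :
    Q + P ≠ 0 ∧ Q - P ≠ 0 ∧ xc (Q + P) ≠ 0 ∧ xc (Q - P) ≠ 0 ∧
      v ((xc (Q + P))⁻¹ + (xc (Q - P))⁻¹ - 2 * ((xc Q)⁻¹ + (xc P)⁻¹)) ≤
        v ((xc Q)⁻¹) * v ((xc P)⁻¹) := by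
  have hsum := xc_add_add_xc_sub h₁ h₃ h₆ hQ hP hne
  have hprod := xc_add_mul_xc_sub h₁ h₃ h₆ hQ hP hne
  refine ⟨(add_of_xc_ne h₁ hQ hP hne).1, (sub_of_xc_ne h₁ h₃ hQ hP hne).1, ?_⟩
  have hX10 : xc Q ≠ 0 := ne_zero_of_one_lt v hXQ
  have hX20 : xc P ≠ 0 := ne_zero_of_one_lt v hXP
  have ht1 : v (xc Q)⁻¹ < 1 := val_inv_lt_one v hXQ
  have ht2 : v (xc P)⁻¹ < 1 := val_inv_lt_one v hXP
  have hd : xc Q - xc P ≠ 0 := sub_ne_zero.2 hne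
  obtain ⟨a, hadef⟩ : ∃ a, a = W.a₂ := ⟨_, rfl⟩
  obtain ⟨b, hbdef⟩ : ∃ b, b = W.a₄ := ⟨_, rfl⟩
  obtain ⟨X₁, hX₁⟩ : ∃ X, X = xc Q := ⟨_, rfl⟩
  obtain ⟨X₂, hX₂⟩ : ∃ X, X = xc P := ⟨_, rfl⟩
  obtain ⟨r₁, hr₁⟩ : ∃ X, X = xc (Q + P) := ⟨_, rfl⟩
  obtain ⟨r₂, hr₂⟩ : ∃ X, X = xc (Q - P) := ⟨_, rfl⟩
  rw [← hX₁, ← hX₂, ← hr₁, ← hr₂, ← hadef, ← hbdef] at hsum
  rw [← hX₁, ← hX₂, ← hr₁, ← hr₂, ← hbdef] at hprod
  rw [← hadef] at ha₂
  rw [← hbdef] at ha₄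
  rw [← hX₁] at hX10 ht1 hd
  rw [← hX₂] at hX20 ht2 hd
  rw [← hX₁, ← hX₂, ← hr₁, ← hr₂]
  obtain ⟨t₁, ht₁⟩ : ∃ t, t = X₁⁻¹ := ⟨_, rfl⟩
  obtain ⟨t₂, ht₂⟩ : ∃ t, t = X₂⁻¹ := ⟨_, rfl⟩
  rw [← ht₁] at ht1 ⊢
  rw [← ht₂] at ht2 ⊢
  have ht10 : t₁ ≠ 0 := by rw [ht₁]; exact inv_ne_zero hX10
  have ht20 : t₂ ≠ 0 := by rw [ht₂]; exact inv_ne_zero hX20
  have hX1t : X₁ = t₁⁻¹ := by rw [ht₁, inv_inv]
  have hX2t : X₂ = t₂⁻¹ := by rw [ht₂, inv_inv]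
  have hu : v (1 - b * t₁ * t₂) = 1 := by
    apply v.map_one_sub_of_lt
    rw [v.map_mul, v.map_mul]
    exact val_mul_lt_of_lt_one (mul_le_one' ha₄ (le_of_lt ht1)) ht2
  have hun := ne_zero_of_val_eq_one v hu
  have hN' : X₁ * X₂ - b = t₁⁻¹ * t₂⁻¹ * (1 - b * t₁ * t₂) := by
    rw [hX1t, hX2t]
    field_simp
  have hN : X₁ * X₂ - b ≠ 0 := by
    rw [hN']
    exact mul_ne_zero (mul_ne_zero (inv_ne_zero ht10) (inv_ne_zero ht20)) hun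
  obtain ⟨hr10, hr20, hinv⟩ := inv_add_inv_of_sum_prod hd hN hsum hprod
  refine ⟨hr10, hr20, ?_⟩
  have key : r₁⁻¹ + r₂⁻¹ - 2 * (t₁ + t₂) =
      2 * t₁ * t₂ * ((t₁ + t₂) * (3 * b - b ^ 2 * t₁ * t₂) + 2 * a) /
        (1 - b * t₁ * t₂) ^ 2 := by
    rw [hinv, hN', hX1t, hX2t]
    generalize huu : 1 - b * t₁ * t₂ = u at hun ⊢
    field_simp
    subst huu
    ring
  rw [key, map_div₀, v.map_pow, hu, one_pow, div_one, v.map_mul, v.map_mul, v.map_mul, h2,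
    one_mul]
  have hw := int_poly_sum v ha₂ ha₄ (le_of_lt ht1) (le_of_lt ht2)
  calc v t₁ * v t₂ * v ((t₁ + t₂) * (3 * b - b ^ 2 * t₁ * t₂) + 2 * a)
      ≤ v t₁ * v t₂ * 1 := by gcongr
    _ = v t₁ * v t₂ := mul_one _

/-- The induction claim: `t(nP) ≡ n² t(P)` to first order. -/
def Claim (P : W.Point) (n : ℕ) : Prop :=
  (n • P = 0 ∧ v (n : K) < 1) ∨
    (n • P ≠ 0 ∧ xc (n • P) ≠ 0 ∧
      v ((xc (n • P))⁻¹ - (n : K) ^ 2 * (xc P)⁻¹) < v ((xc P)⁻¹))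

omit [DecidableEq K] in
lemma claim_val_gt {P Q : W.Point} {c : K} (hc : v c ≤ 1) (hX : 1 < v (xc P))
    (hQ0 : xc Q ≠ 0) (h : v ((xc Q)⁻¹ - c * (xc P)⁻¹) < v ((xc P)⁻¹)) :
    v ((xc Q)⁻¹) ≤ v ((xc P)⁻¹) ∧ 1 < v (xc Q) := by
  have ht : v (xc P)⁻¹ < 1 := val_inv_lt_one v hX
  have h1 : v ((xc Q)⁻¹) ≤ v ((xc P)⁻¹) := by
    have : (xc Q)⁻¹ = ((xc Q)⁻¹ - c * (xc P)⁻¹) + c * (xc P)⁻¹ := by ring
    rw [this]
    apply v.map_add_le (le_of_lt h)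
    rw [v.map_mul]
    exact mul_le_of_le_one_left' hc
  refine ⟨h1, ?_⟩
  have h2 : v ((xc Q)⁻¹) < 1 := lt_of_le_of_lt h1 ht
  rw [map_inv₀] at h2
  have hne : v (xc Q) ≠ 0 := v.ne_zero_iff.2 hQ0
  by_contra hle
  push Not at hle
  have : 1 ≤ (v (xc Q))⁻¹ := (one_le_inv₀ (zero_lt_iff.2 hne)).2 hle
  exact absurd h2 (not_lt.2 this)

lemma claim_step (h₁ : W.a₁ = 0) (h₃ : W.a₃ = 0) (h₆ : W.a₆ = 0) (ha₂ : v W.a₂ ≤ 1)
    (ha₄ : v W.a₄ ≤ 1) (h2 : v 2 = 1)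
    {P : W.Point} (hP : P ≠ 0) (hX : 1 < v (xc P)) (n : ℕ)
    (hn : Claim v P n) (hm : Claim v P (n + 1)) : Claim v P (n + 2) := by
  have hX0 : xc P ≠ 0 := ne_zero_of_one_lt v hX
  have ht : v (xc P)⁻¹ < 1 := val_inv_lt_one v hX
  have ht0 : v (xc P)⁻¹ ≠ 0 := v.ne_zero_iff.2 (inv_ne_zero hX0)
  have hn2 : (n + 2) • P = (n + 1) • P + P := succ_nsmul P (n + 1)
  have hn0 : n • P = (n + 1) • P - P := by rw [succ_nsmul]; abel
  have hcast3 : v ((n : K) + 3) ≤ 1 := by exact_mod_cast val_natCast_le_one v (n + 3)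
  have hcast4 : v ((n : K) + 4) ≤ 1 := by exact_mod_cast val_natCast_le_one v (n + 4)
  rcases hm with ⟨hQ, hvm⟩ | ⟨hQ, hXQ0, hQv⟩
  · -- (n+1)P = 0
    right
    rw [hn2, hQ, zero_add]
    refine ⟨hP, hX0, ?_⟩
    have : (xc P)⁻¹ - ((n + 2 : ℕ) : K) ^ 2 * (xc P)⁻¹ =
        -(((n + 1 : ℕ) : K) * ((n : K) + 3) * (xc P)⁻¹) := by
      push_cast; ring
    rw [this, v.map_neg, v.map_mul, v.map_mul]
    calc v ((n + 1 : ℕ) : K) * v ((n : K) + 3) * v (xc P)⁻¹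
        ≤ v ((n + 1 : ℕ) : K) * 1 * v (xc P)⁻¹ := by gcongr
      _ = v (xc P)⁻¹ * v ((n + 1 : ℕ) : K) := by rw [mul_one, mul_comm]
      _ < v (xc P)⁻¹ := val_mul_self_lt ht0 hvm
  · obtain ⟨hQle, hXQ⟩ := claim_val_gt v (c := ((n + 1 : ℕ) : K) ^ 2)
      (by rw [v.map_pow]; exact pow_le_one' (val_natCast_le_one v (n + 1)) 2) hX hXQ0 hQv
    by_cases hXeq : xc ((n + 1) • P) = xc P
    · -- (n+1)P = ± P
      have hm1 : v (1 - ((n + 1 : ℕ) : K) ^ 2) < 1 := by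
        rw [hXeq] at hQv
        have : (xc P)⁻¹ - ((n + 1 : ℕ) : K) ^ 2 * (xc P)⁻¹ =
            (1 - ((n + 1 : ℕ) : K) ^ 2) * (xc P)⁻¹ := by ring
        rw [this, v.map_mul] at hQv
        by_contra hcon
        push Not at hcon
        have : v (xc P)⁻¹ ≤ v (1 - ((n + 1 : ℕ) : K) ^ 2) * v (xc P)⁻¹ :=
          le_mul_of_one_le_left' hcon
        exact absurd hQv (not_lt.2 this)
      obtain ⟨hPP, hXPP0, hPPv⟩ := dup_est v h₁ h₃ h₆ ha₂ ha₄ h2 hP hX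
      rcases eq_or_eq_neg_of_xc h₁ h₃ h₆ hQ hP hXeq with hQP | hQP
      · -- (n+1)P = P
        have hnP : n • P = 0 := by rw [hn0, hQP, sub_self]
        have hvn : v (n : K) < 1 := by
          rcases hn with ⟨_, h⟩ | ⟨h, _⟩
          · exact h
          · exact absurd hnP h
        right
        rw [hn2, hQP]
        refine ⟨hPP, hXPP0, ?_⟩
        have : (xc (P + P))⁻¹ - ((n + 2 : ℕ) : K) ^ 2 * (xc P)⁻¹ =
            ((xc (P + P))⁻¹ - 4 * (xc P)⁻¹) - (n : K) * ((n : K) + 4) * (xc P)⁻¹ := by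
          push_cast; ring
        rw [this]
        apply v.map_sub_lt hPPv
        rw [v.map_mul, v.map_mul]
        calc v (n : K) * v ((n : K) + 4) * v (xc P)⁻¹
            ≤ v (n : K) * 1 * v (xc P)⁻¹ := by gcongr
          _ = v (xc P)⁻¹ * v (n : K) := by rw [mul_one, mul_comm]
          _ < v (xc P)⁻¹ := val_mul_self_lt ht0 hvn
      · -- (n+1)P = -P
        left
        have hnP : n • P = -(P + P) := by rw [hn0, hQP]; abel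
        refine ⟨by rw [hn2, hQP, neg_add_cancel], ?_⟩
        have hnP0 : n • P ≠ 0 := by
          rw [hnP]; exact (neg_ne_zero_iff _).2 hPP
        have hnv : v ((xc (P + P))⁻¹ - (n : K) ^ 2 * (xc P)⁻¹) < v ((xc P)⁻¹) := by
          rcases hn with ⟨h, _⟩ | ⟨_, _, h⟩
          · exact absurd h hnP0
          · rwa [hnP, xc_neg] at h
        have h4n : v ((4 : K) - (n : K) ^ 2) < 1 := by
          have : ((4 : K) - (n : K) ^ 2) * (xc P)⁻¹ =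
              ((xc (P + P))⁻¹ - (n : K) ^ 2 * (xc P)⁻¹) - ((xc (P + P))⁻¹ - 4 * (xc P)⁻¹) := by
            ring
          have h' : v (((4 : K) - (n : K) ^ 2) * (xc P)⁻¹) < v ((xc P)⁻¹) := by
            rw [this]; exact v.map_sub_lt hnv hPPv
          rw [v.map_mul] at h'
          by_contra hcon
          push Not at hcon
          have : v (xc P)⁻¹ ≤ v ((4 : K) - (n : K) ^ 2) * v (xc P)⁻¹ :=
            le_mul_of_one_le_left' hcon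
          exact absurd h' (not_lt.2 this)
        have e1 : (1 : K) - ((n + 1 : ℕ) : K) ^ 2 = -((n : K) * ((n : K) + 2)) := by
          push_cast; ring
        have e2 : (4 : K) - (n : K) ^ 2 = (2 - (n : K)) * ((n : K) + 2) := by ring
        rw [e1, v.map_neg, v.map_mul] at hm1
        rw [e2, v.map_mul] at h4n
        by_contra hcon
        have hcon' : v ((n : K) + 2) = 1 := by
          have : v (((n + 2 : ℕ) : K)) ≤ 1 := val_natCast_le_one v (n + 2)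
          push_cast at hcon this
          exact le_antisymm this (not_lt.1 hcon)
        rw [hcon', mul_one] at hm1 h4n
        have : v (2 : K) < 1 := by
          have : (2 : K) = (2 - (n : K)) + (n : K) := by ring
          rw [this]
          exact v.map_add_lt h4n hm1
        rw [h2] at this
        exact lt_irrefl _ this
    · -- generic case
      obtain ⟨hs1, hs2, hs3, hs4, hs5⟩ := sum_est v h₁ h₃ h₆ ha₂ ha₄ h2 hP hQ hX hXQ hXeq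
      have hnv : v ((xc ((n + 1) • P - P))⁻¹ - (n : K) ^ 2 * (xc P)⁻¹) < v ((xc P)⁻¹) := by
        rcases hn with ⟨h, _⟩ | ⟨_, _, h⟩
        · rw [hn0] at h; exact absurd h hs2
        · rwa [hn0] at h
      right
      rw [hn2]
      refine ⟨hs1, hs3, ?_⟩
      have hs5' : v ((xc ((n + 1) • P + P))⁻¹ + (xc ((n + 1) • P - P))⁻¹ -
          2 * ((xc ((n + 1) • P))⁻¹ + (xc P)⁻¹)) < v ((xc P)⁻¹) := by
        refine lt_of_le_of_lt hs5 ?_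
        rw [mul_comm]
        exact val_mul_self_lt ht0 (lt_of_le_of_lt hQle ht)
      have : (xc ((n + 1) • P + P))⁻¹ - ((n + 2 : ℕ) : K) ^ 2 * (xc P)⁻¹ =
          ((xc ((n + 1) • P + P))⁻¹ + (xc ((n + 1) • P - P))⁻¹ -
            2 * ((xc ((n + 1) • P))⁻¹ + (xc P)⁻¹))
          - ((xc ((n + 1) • P - P))⁻¹ - (n : K) ^ 2 * (xc P)⁻¹)
          + 2 * ((xc ((n + 1) • P))⁻¹ - ((n + 1 : ℕ) : K) ^ 2 * (xc P)⁻¹) := by
        push_cast; ring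
      rw [this]
      apply v.map_add_lt (v.map_sub_lt hs5' hnv)
      rw [v.map_mul, h2, one_mul]
      exact hQv

/-- A point in the kernel of reduction is not killed by an integer that is a unit. -/
theorem nsmul_ne_zero (h₁ : W.a₁ = 0) (h₃ : W.a₃ = 0) (h₆ : W.a₆ = 0) (ha₂ : v W.a₂ ≤ 1)
    (ha₄ : v W.a₄ ≤ 1) (h2 : v 2 = 1) {P : W.Point} (hP : P ≠ 0) (hX : 1 < v (xc P)) (n : ℕ)
    (hn : v (n : K) = 1) : n • P ≠ 0 := by
  have hX0 : xc P ≠ 0 := ne_zero_of_one_lt v hX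
  have key : ∀ k : ℕ, Claim v P k ∧ Claim v P (k + 1) := by
    intro k
    induction k with
    | zero =>
      refine ⟨Or.inl ⟨zero_nsmul P, ?_⟩, Or.inr ?_⟩
      · simp
      · rw [zero_add, one_nsmul]
        refine ⟨hP, hX0, ?_⟩
        have : (xc P)⁻¹ - ((1 : ℕ) : K) ^ 2 * (xc P)⁻¹ = 0 := by push_cast; ring
        rw [this, v.map_zero]
        exact zero_lt_iff.2 (v.ne_zero_iff.2 (inv_ne_zero hX0))
    | succ k ih =>
      exact ⟨ih.2, claim_step v h₁ h₃ h₆ ha₂ ha₄ h2 hP hX k ih.1 ih.2⟩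
  rcases (key n).1 with ⟨_, h⟩ | ⟨h, _⟩
  · rw [hn] at h; exact absurd h (lt_irrefl _)
  · exact h

/-- **Part 1.** On `y² = x³ + a x² + b x` with integral `a`, `b` and `v 2 = 1`: a point killed
by a natural number `n` with `v n = 1` has integral `x`-coordinate. -/
theorem torsion_integral (W : WeierstrassCurve.Affine K) (h₁ : W.a₁ = 0) (h₃ : W.a₃ = 0)
    (h₆ : W.a₆ = 0) (ha₂ : v W.a₂ ≤ 1) (ha₄ : v W.a₄ ≤ 1) (h2 : v 2 = 1) (n : ℕ)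
    (hn : v (n : K) = 1) :
    ∀ Q : W.Point, n • Q = 0 → ∀ (x y : K) (h : W.Nonsingular x y),
      Q = Affine.Point.some x y h → v x ≤ 1 := by
  intro Q hQ x y h hQe
  by_contra hx
  push Not at hx
  have hQ0 : Q ≠ 0 := by rw [hQe]; exact Affine.Point.some_ne_zero h
  have hX : 1 < v (xc Q) := by rw [hQe, xc_some]; exact hx
  exact nsmul_ne_zero v h₁ h₃ h₆ ha₂ ha₄ h2 hQ0 hX n hn hQ

end valuation

end Fermat.Agent.S05.KerRed
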