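import Mathlib
import Fermat.Agent.S05.Ident
import Fermat.Agent.S05.KeyLemma

set_option autoImplicit false

namespace Fermat.Agent.S05.TorsionHeight

open WeierstrassCurve WeierstrassCurve.Affine
open Fermat.Agent.S05.KeyLemma

variable {K : Type*} [Field K] {Γ₀ : Type*} [LinearOrderedCommGroupWithZero Γ₀]

/-- The clamped height of a point: `1` at the origin, `clamp ν (v x)` at an affine point. -/
def ht (v : Valuation K Γ₀) (ν : Γ₀) {W : Affine K} : W.Point → Γ₀
  | .zero => 1
  | .some x _ _ => clamp ν (v x)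

variable (v : Valuation K Γ₀) (ν : Γ₀) {W : Affine K}

theorem ht_zero : ht v ν (0 : W.Point) = 1 := rfl

theorem ht_some {x y : K} (h : W.Nonsingular x y) : ht v ν (Point.some x y h) = clamp ν (v x) := rfl

theorem ht_neg (Q : W.Point) : ht v ν (-Q) = ht v ν Q := by
  rcases Q with _ | ⟨x, y, h⟩
  · rfl
  · rw [Point.neg_some, ht_some, ht_some]

theorem ht_mem (hν : ν ≤ 1) (Q : W.Point) : ν ≤ ht v ν Q ∧ ht v ν Q ≤ 1 := by
  rcases Q with _ | ⟨x, y, h⟩
  · exact ⟨hν, le_refl _⟩
  · exact ⟨le_clamp _ _, clamp_le_one hν _⟩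

variable [DecidableEq K]

/-- Part 3, valuation form: a point of odd order `p` on the Legendre curve
`Y² = X (X - α) (X + β)` with `v α < 1`, `v β = 1`, `v 2 = 1`, whose `x`-coordinate is a non-unit,
has `v α < v x` and `v x ^ p` an even power of `v α`. -/
theorem val_of_torsion (W : Affine K) {α β : K} (ha₁ : W.a₁ = 0) (ha₃ : W.a₃ = 0)
    (ha₆ : W.a₆ = 0) (ha₂ : W.a₂ = β - α) (ha₄ : W.a₄ = -(α * β))
    (h2 : v 2 = 1) (hβ : v β = 1) (hα : v α < 1) (hα0 : α ≠ 0) {p : ℕ} (hodd : Odd p)
    {x y : K} (h : W.Nonsingular x y) (hp : p • Point.some x y h = 0) (hx : v x < 1) :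
    v α < v x ∧ ∃ k : ℤ, v x ^ p = v α ^ (2 * k) := by
  have hν0 : v α ≠ 0 := (v.ne_zero_iff).mpr hα0
  have h20 : (2 : K) ≠ 0 := by
    intro h0
    rw [h0, map_zero] at h2
    exact zero_ne_one h2
  set P : W.Point := Point.some x y h with hP
  set j := clamp (v α) (v x) with hj
  have hjν : v α ≤ j := le_clamp _ _
  have hj0 : j ≠ 0 := (lt_of_lt_of_le (zero_lt_iff.mpr hν0) hjν).ne'
  have hj1 : j ≤ 1 := clamp_le_one hα.le _
  -- `y ≠ 0`, since `P` has odd order
  have hy : y ≠ 0 := by
    intro hy0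
    have h2P : P + P = 0 := (Ident.add_self_leg ha₁ ha₃ ha₆ h20 h).1 hy0
    obtain ⟨m, hm⟩ := hodd
    have : p • P = P := by
      rw [hm, add_smul, one_smul, mul_comm, mul_smul, two_smul, h2P, smul_zero, zero_add]
    rw [hp] at this
    exact Point.some_ne_zero h this.symm
  -- the doubling height
  obtain ⟨x', y', hP', h2P, hx'⟩ := (Ident.add_self_leg ha₁ ha₃ ha₆ h20 h).2 hy
  have hE := (Ident.equation_iff_leg ha₁ ha₃ ha₆ x y).mp h.1
  have hdbl : ht v (v α) (P + P) = fold (v α) (j * j) := by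
    rw [hP, h2P, ht_some]
    exact double_law_ab v ha₂ ha₄ h2 hβ hα hα0 hy hE hx'
  have key := height_of_torsion hodd hν0 hα hjν (fun n => ht v (v α) (n • P))
    (fun n => ht_mem v (v α) hα.le _) (by simp [ht_zero]) (by simp [hP, ht_some, hj]) ?_
    (by rw [hp]; rfl)
  · obtain ⟨hlt, k, hk⟩ := key
    have hjx : j = v x := by
      rw [hj, clamp, min_eq_right hx.le]
      rcases le_total (v α) (v x) with hle | hle
      · exact max_eq_right hle
      · exfalso
        rw [hj, clamp, min_eq_right hx.le, max_eq_left hle] at hlt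
        exact lt_irrefl _ hlt
    rw [hjx] at hlt hk
    exact ⟨hlt, k, hk⟩
  · intro n hn
    have hsucc : (n + 1) • P = n • P + P := succ_nsmul P n
    have hpred : (n - 1) • P = n • P - P := by
      have : n • P = (n - 1) • P + P := by
        rw [← succ_nsmul, Nat.sub_add_cancel hn]
      rw [this, add_sub_cancel_right]
    change Rel (v α) (ht v (v α) (n • P)) j (ht v (v α) ((n + 1) • P)) (ht v (v α) ((n - 1) • P))
    rw [hsucc, hpred]
    generalize n • P = Q
    rcases Q with _ | ⟨xq, yq, hq⟩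
    · -- `Q = 0`
      change Rel (v α) (ht v (v α) (0 : W.Point)) j (ht v (v α) (0 + P)) (ht v (v α) (0 - P))
      rw [zero_add, zero_sub, ht_neg, ht_zero]
      have e1 : ht v (v α) P = j := rfl
      rw [e1]
      left
      refine ⟨?_, ?_⟩
      · rw [one_mul, fold_of_le hjν]
      · rw [mr_of_le one_ne_zero hj0 hj1, div_one]
    · by_cases hxq : xq = x
      · subst hxq
        rcases Affine.Y_eq_of_X_eq hq.1 h.1 rfl with hyq | hyq
        · -- `Q = P`
          subst hyq
          have e1 : (Point.some xq yq hq : W.Point) = P := rfl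
          rw [e1, sub_self, ht_zero, hdbl]
          have e2 : ht v (v α) P = j := rfl
          rw [e2]
          left
          exact ⟨rfl, (mr_self hj0).symm⟩
        · -- `Q = -P`
          have e1 : (Point.some xq yq hq : W.Point) = -P := by
            rw [hP, Point.neg_some]
            congr 1
          rw [e1, neg_add_cancel, ht_zero, ht_neg, ← neg_add', ht_neg, hdbl]
          have e2 : ht v (v α) P = j := rfl
          rw [e2]
          right
          exact ⟨rfl, (mr_self hj0).symm⟩
      · obtain ⟨x₃, y₃, hP₃, x₄, y₄, hP₄, hadd, hsub, -, -, F1, F2⟩ :=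
          Ident.add_sub_of_X_ne ha₁ ha₃ ha₆ hq h hxq
        rw [hP, hadd, hsub, ht_some, ht_some, ht_some]
        exact add_law_ab v ha₂ ha₄ h2 hβ hα hα0 hxq F1 F2

end Fermat.Agent.S05.TorsionHeight
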