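import Mathlib.Algebra.Order.Group.Defs
import Mathlib.Algebra.Order.Group.Abs
import Mathlib.Algebra.Field.Basic
import Mathlib.Tactic

set_option autoImplicit false

/-!
Additive valuations on the nonzero elements of a field, with values in a linearly ordered
additive group, and the "Newton polygon" lemmas for the two roots of a quadratic.
-/

namespace Fermat.Agent.S05.AVal

variable {K : Type*} [Field K] {G : Type*} [AddCommGroup G] [LinearOrder G] [IsOrderedAddMonoid G]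

/-- An additive valuation on the nonzero elements of `K` (the value at `0` is junk). -/
structure AddVal (K : Type*) [Field K] (G : Type*) [AddCommGroup G] [LinearOrder G]
    [IsOrderedAddMonoid G] where
  w : K → G
  map_mul : ∀ x y : K, x ≠ 0 → y ≠ 0 → w (x * y) = w x + w y
  map_add : ∀ x y : K, x ≠ 0 → y ≠ 0 → x + y ≠ 0 → min (w x) (w y) ≤ w (x + y)

variable (ω : AddVal K G)

/-- `x` has valuation at least `t` (with the convention that `0` has valuation `+∞`). -/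
def GE (x : K) (t : G) : Prop := x = 0 ∨ t ≤ ω.w x

/-- `x` is nonzero of valuation exactly `t`. -/
def EQ (x : K) (t : G) : Prop := x ≠ 0 ∧ ω.w x = t

variable {ω}

theorem w_one : ω.w 1 = 0 := by
  have h := ω.map_mul 1 1 one_ne_zero one_ne_zero
  rw [mul_one] at h
  grind

theorem w_neg_one : ω.w (-1) = 0 := by
  have h := ω.map_mul (-1) (-1) (neg_ne_zero.mpr one_ne_zero) (neg_ne_zero.mpr one_ne_zero)
  rw [neg_mul_neg, mul_one, w_one] at h
  grind

theorem w_neg {x : K} (hx : x ≠ 0) : ω.w (-x) = ω.w x := by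
  have h := ω.map_mul (-1) x (neg_ne_zero.mpr one_ne_zero) hx
  rw [neg_one_mul, w_neg_one, zero_add] at h
  exact h

theorem w_inv {x : K} (hx : x ≠ 0) : ω.w x⁻¹ = -ω.w x := by
  have h := ω.map_mul x x⁻¹ hx (inv_ne_zero hx)
  rw [mul_inv_cancel₀ hx, w_one] at h
  grind

theorem EQ.ne {x : K} {t : G} (h : EQ ω x t) : x ≠ 0 := h.1

theorem EQ.w_eq {x : K} {t : G} (h : EQ ω x t) : ω.w x = t := h.2

theorem EQ.ge {x : K} {t : G} (h : EQ ω x t) : GE ω x t := Or.inr h.2.ge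

theorem EQ.mk {x : K} (hx : x ≠ 0) : EQ ω x (ω.w x) := ⟨hx, rfl⟩

theorem EQ.congr {x : K} {s t : G} (h : EQ ω x s) (hst : s = t) : EQ ω x t := hst ▸ h

theorem GE.zero (t : G) : GE ω (0 : K) t := Or.inl rfl

theorem GE.mono {x : K} {s t : G} (h : GE ω x s) (hts : t ≤ s) : GE ω x t := by
  rcases h with h | h
  · exact Or.inl h
  · exact Or.inr (hts.trans h)

theorem GE.le_of_EQ {x : K} {s t : G} (h : GE ω x t) (h' : EQ ω x s) : t ≤ s := by
  rcases h with h | h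
  · exact absurd h h'.1
  · rw [h'.2] at h; exact h

theorem EQ.mul {x y : K} {s t : G} (hx : EQ ω x s) (hy : EQ ω y t) : EQ ω (x * y) (s + t) :=
  ⟨mul_ne_zero hx.1 hy.1, by rw [ω.map_mul x y hx.1 hy.1, hx.2, hy.2]⟩

theorem EQ.neg {x : K} {s : G} (hx : EQ ω x s) : EQ ω (-x) s :=
  ⟨neg_ne_zero.mpr hx.1, by rw [w_neg hx.1, hx.2]⟩

theorem EQ.inv {x : K} {s : G} (hx : EQ ω x s) : EQ ω x⁻¹ (-s) :=
  ⟨inv_ne_zero hx.1, by rw [w_inv hx.1, hx.2]⟩

theorem EQ.sq {x : K} {s : G} (hx : EQ ω x s) : EQ ω (x ^ 2) (s + s) := by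
  rw [pow_two]; exact hx.mul hx

theorem GE.mul {x y : K} {s t : G} (hx : GE ω x s) (hy : GE ω y t) : GE ω (x * y) (s + t) := by
  rcases hx with hx | hx
  · left; rw [hx, zero_mul]
  rcases hy with hy | hy
  · left; rw [hy, mul_zero]
  by_cases hx0 : x = 0
  · left; rw [hx0, zero_mul]
  by_cases hy0 : y = 0
  · left; rw [hy0, mul_zero]
  right
  rw [ω.map_mul x y hx0 hy0]
  exact add_le_add hx hy

theorem GE.neg {x : K} {s : G} (hx : GE ω x s) : GE ω (-x) s := by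
  rcases hx with hx | hx
  · left; rw [hx, neg_zero]
  by_cases hx0 : x = 0
  · left; rw [hx0, neg_zero]
  right; rw [w_neg hx0]; exact hx

theorem GE.sq {x : K} {s : G} (hx : GE ω x s) : GE ω (x ^ 2) (s + s) := by
  rw [pow_two]; exact hx.mul hx

theorem GE.add {x y : K} {s : G} (hx : GE ω x s) (hy : GE ω y s) : GE ω (x + y) s := by
  by_cases hx0 : x = 0
  · rw [hx0, zero_add]; exact hy
  by_cases hy0 : y = 0
  · rw [hy0, add_zero]; exact hx
  by_cases hxy : x + y = 0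
  · left; exact hxy
  right
  have h := ω.map_add x y hx0 hy0 hxy
  have h1 : s ≤ ω.w x := hx.resolve_left hx0
  have h2 : s ≤ ω.w y := hy.resolve_left hy0
  exact (le_min h1 h2).trans h

theorem GE.sub {x y : K} {s : G} (hx : GE ω x s) (hy : GE ω y s) : GE ω (x - y) s := by
  rw [sub_eq_add_neg]; exact hx.add hy.neg

/-- Strict ultrametric inequality. -/
theorem EQ.add_of_lt {x y : K} {s t : G} (hx : EQ ω x s) (hy : GE ω y t) (hst : s < t) :
    EQ ω (x + y) s := by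
  by_cases hy0 : y = 0
  · rw [hy0, add_zero]; exact hx
  have hty : t ≤ ω.w y := hy.resolve_left hy0
  have hxy : x + y ≠ 0 := by
    intro h
    have hx' : x = -y := eq_neg_of_add_eq_zero_left h
    have : ω.w x = ω.w y := by rw [hx', w_neg hy0]
    rw [hx.2] at this
    exact absurd hty (by rw [← this]; exact not_le.mpr hst)
  refine ⟨hxy, ?_⟩
  have h1 := ω.map_add x y hx.1 hy0 hxy
  have h2 := ω.map_add (x + y) (-y) hxy (neg_ne_zero.mpr hy0) (by rw [add_neg_cancel_right]; exact hx.1)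
  rw [add_neg_cancel_right, w_neg hy0] at h2
  rw [hx.2] at h1 h2
  rcases min_le_iff.mp h2 with h3 | h3
  · have h4 : s ≤ ω.w (x + y) := by
      rcases le_total s (ω.w y) with h5 | h5
      · rw [min_eq_left h5] at h1; exact h1
      · exact absurd (hty.trans h5) (not_le.mpr hst)
    exact le_antisymm h3 h4
  · exact absurd (hty.trans h3) (not_le.mpr hst)

theorem EQ.add_of_lt' {x y : K} {s t : G} (hx : GE ω x t) (hy : EQ ω y s) (hst : s < t) :
    EQ ω (x + y) s := by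
  rw [add_comm]; exact hy.add_of_lt hx hst

theorem EQ.sub_of_lt {x y : K} {s t : G} (hx : EQ ω x s) (hy : GE ω y t) (hst : s < t) :
    EQ ω (x - y) s := by
  rw [sub_eq_add_neg]; exact hx.add_of_lt hy.neg hst

theorem EQ.sub_of_lt' {x y : K} {s t : G} (hx : GE ω x t) (hy : EQ ω y s) (hst : s < t) :
    EQ ω (x - y) s := by
  rw [sub_eq_add_neg]; exact hy.neg.add_of_lt' hx hst

/-- If `x * y = z`, `y` has valuation `s` and `z` has valuation `t`, then `x` has valuation `t - s`. -/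
theorem EQ.of_mul_eq {x y z : K} {s t : G} (h : x * y = z) (hy : EQ ω y s) (hz : EQ ω z t) :
    EQ ω x (t - s) := by
  have hx : x = z * y⁻¹ := by rw [← h, mul_assoc, mul_inv_cancel₀ hy.1, mul_one]
  rw [hx, sub_eq_add_neg]
  exact hz.mul hy.inv

theorem GE.of_mul_eq {x y z : K} {s t : G} (h : x * y = z) (hy : EQ ω y s) (hz : GE ω z t) :
    GE ω x (t - s) := by
  have hx : x = z * y⁻¹ := by rw [← h, mul_assoc, mul_inv_cancel₀ hy.1, mul_one]
  rw [hx, sub_eq_add_neg]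
  exact hz.mul hy.inv.ge

/-! ### Newton polygon lemmas for the two roots of a quadratic -/

theorem np1 {r₁ r₂ s pd : K} {t : G} (hs : r₁ + r₂ = s) (hpd : r₁ * r₂ = pd)
    (hPd : EQ ω pd (t + t)) (hS : GE ω s t) : EQ ω r₁ t ∧ EQ ω r₂ t := by
  have h1 : r₁ ≠ 0 := by rintro rfl; rw [zero_mul] at hpd; exact hPd.1 hpd.symm
  have h2 : r₂ ≠ 0 := by rintro rfl; rw [mul_zero] at hpd; exact hPd.1 hpd.symm
  have hsum : ω.w r₁ + ω.w r₂ = t + t := by
    rw [← ω.map_mul r₁ r₂ h1 h2, hpd]; exact hPd.2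
  rcases lt_trichotomy (ω.w r₁) (ω.w r₂) with h | h | h
  · have h3 : EQ ω (r₁ + r₂) (ω.w r₁) := (EQ.mk h1).add_of_lt (EQ.mk h2).ge h
    rw [hs] at h3
    have h4 := hS.le_of_EQ h3
    grind
  · refine ⟨⟨h1, ?_⟩, ⟨h2, ?_⟩⟩ <;> grind
  · have h3 : EQ ω (r₁ + r₂) (ω.w r₂) := (EQ.mk h2).add_of_lt' (EQ.mk h1).ge h
    rw [hs] at h3
    have h4 := hS.le_of_EQ h3
    grind

theorem np2 {r₁ r₂ s pd : K} {σ τ : G} (hs : r₁ + r₂ = s) (hpd : r₁ * r₂ = pd)
    (hS : EQ ω s σ) (hPd : GE ω pd τ) (hlt : σ + σ < τ) : EQ ω r₁ σ ∨ EQ ω r₂ σ := by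
  by_cases h1 : r₁ = 0
  · right; rw [h1, zero_add] at hs; rw [hs]; exact hS
  by_cases h2 : r₂ = 0
  · left; rw [h2, add_zero] at hs; rw [hs]; exact hS
  have hpd0 : pd ≠ 0 := by rw [← hpd]; exact mul_ne_zero h1 h2
  have hsum : τ ≤ ω.w r₁ + ω.w r₂ := by
    rw [← ω.map_mul r₁ r₂ h1 h2, hpd]; exact hPd.resolve_left hpd0
  rcases lt_trichotomy (ω.w r₁) (ω.w r₂) with h | h | h
  · have h3 : EQ ω (r₁ + r₂) (ω.w r₁) := (EQ.mk h1).add_of_lt (EQ.mk h2).ge h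
    rw [hs] at h3
    left; exact ⟨h1, by rw [h3.2.symm.trans hS.2]⟩
  · exfalso
    have h3 : GE ω (r₁ + r₂) (ω.w r₁) := (EQ.mk h1).ge.add ((EQ.mk h2).ge.mono h.le)
    rw [hs] at h3
    have h4 := h3.le_of_EQ hS
    grind
  · have h3 : EQ ω (r₁ + r₂) (ω.w r₂) := (EQ.mk h2).add_of_lt' (EQ.mk h1).ge h
    rw [hs] at h3
    right; exact ⟨h2, by rw [h3.2.symm.trans hS.2]⟩

theorem lge {r₁ r₂ s pd : K} {τ : G} (hs : r₁ + r₂ = s) (hpd : r₁ * r₂ = pd)
    (hPd : EQ ω pd τ) (hτ : τ ≤ 0) (hS : GE ω s τ) :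
    (r₁ ≠ 0 ∧ ω.w r₁ ≤ 0) ∧ (r₂ ≠ 0 ∧ ω.w r₂ ≤ 0) := by
  have h1 : r₁ ≠ 0 := by rintro rfl; rw [zero_mul] at hpd; exact hPd.1 hpd.symm
  have h2 : r₂ ≠ 0 := by rintro rfl; rw [mul_zero] at hpd; exact hPd.1 hpd.symm
  have hsum : ω.w r₁ + ω.w r₂ = τ := by
    rw [← ω.map_mul r₁ r₂ h1 h2, hpd]; exact hPd.2
  refine ⟨⟨h1, ?_⟩, ⟨h2, ?_⟩⟩
  · by_contra hc
    have h : ω.w r₂ < ω.w r₁ := by grind
    have h3 : EQ ω (r₁ + r₂) (ω.w r₂) := (EQ.mk h2).add_of_lt' (EQ.mk h1).ge h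
    rw [hs] at h3
    have h4 := hS.le_of_EQ h3
    grind
  · by_contra hc
    have h : ω.w r₁ < ω.w r₂ := by grind
    have h3 : EQ ω (r₁ + r₂) (ω.w r₁) := (EQ.mk h1).add_of_lt (EQ.mk h2).ge h
    rw [hs] at h3
    have h4 := hS.le_of_EQ h3
    grind

theorem lle_aux {r₁ r₂ s pd : K} {e : G} (hs : r₁ + r₂ = s) (hpd : r₁ * r₂ = pd)
    (hS : GE ω s e) (hPd : GE ω pd (e + e)) : GE ω r₁ e := by
  by_contra hc
  have h1 : r₁ ≠ 0 := fun h => hc (Or.inl h)
  have h1' : ω.w r₁ < e := by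
    by_contra h; exact hc (Or.inr (not_lt.mp h))
  by_cases h2 : r₂ = 0
  · rw [h2, add_zero] at hs
    rw [← hs] at hS
    exact absurd (hS.resolve_left h1) (not_le.mpr h1')
  have hpd0 : pd ≠ 0 := by rw [← hpd]; exact mul_ne_zero h1 h2
  have hsum : e + e ≤ ω.w r₁ + ω.w r₂ := by
    rw [← ω.map_mul r₁ r₂ h1 h2, hpd]; exact hPd.resolve_left hpd0
  have h : ω.w r₁ < ω.w r₂ := by grind
  have h3 : EQ ω (r₁ + r₂) (ω.w r₁) := (EQ.mk h1).add_of_lt (EQ.mk h2).ge h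
  rw [hs] at h3
  have h4 := hS.le_of_EQ h3
  grind

theorem lle {r₁ r₂ s pd : K} {e : G} (hs : r₁ + r₂ = s) (hpd : r₁ * r₂ = pd)
    (hS : GE ω s e) (hPd : GE ω pd (e + e)) : GE ω r₁ e ∧ GE ω r₂ e :=
  ⟨lle_aux hs hpd hS hPd, lle_aux (by rw [add_comm]; exact hs) (by rw [mul_comm]; exact hpd) hS hPd⟩

end Fermat.Agent.S05.AVal
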