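import Fermat.Agent.S05.AVal

set_option autoImplicit false
set_option linter.unusedVariables false

/-!
The unsigned component law at the level of field elements: given the symmetric functions of
`x(P+Q)`, `x(P-Q)` in terms of `x(P)`, `x(Q)` on `y² = x³ + a x² + b x` with `w a = 0`, `w b = e > 0`,
the clamped valuations of the two roots are `fold (c₁ + c₂)` and `|c₁ - c₂|` in some order.
-/

namespace Fermat.Agent.S05.AVal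

variable {K : Type*} [Field K] {G : Type*} [AddCommGroup G] [LinearOrder G] [IsOrderedAddMonoid G]
variable {ω : AddVal K G}

open scoped Classical in
/-- The clamped valuation of `x` in `[0, e]` (`e` for `x = 0`). -/
noncomputable def cl (ω : AddVal K G) (e : G) (x : K) : G := if x = 0 then e else max 0 (min e (ω.w x))

/-- Folding `[0, 2e]` onto `[0, e]`. -/
def fold (e t : G) : G := min t (e + e - t)

theorem cl_of_le0 {e : G} (he : 0 ≤ e) {x : K} (hx : x ≠ 0) (h : ω.w x ≤ 0) : cl ω e x = 0 := by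
  unfold cl; rw [if_neg hx]; grind

theorem cl_of_GE {e : G} (he : 0 ≤ e) {x : K} (h : GE ω x e) : cl ω e x = e := by
  unfold cl
  by_cases hx : x = 0
  · rw [if_pos hx]
  · rw [if_neg hx]
    have := h.resolve_left hx
    grind

theorem cl_of_EQ {e t : G} {x : K} (h : EQ ω x t) : cl ω e x = max 0 (min e t) := by
  unfold cl; rw [if_neg h.1, h.2]

theorem cl_nonneg {e : G} (he : 0 ≤ e) (x : K) : 0 ≤ cl ω e x := by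
  unfold cl; split_ifs <;> grind

theorem cl_le {e : G} (he : 0 ≤ e) (x : K) : cl ω e x ≤ e := by
  unfold cl; split_ifs <;> grind

theorem trichotomy (e : G) (x : K) :
    (x ≠ 0 ∧ ω.w x ≤ 0) ∨ (x ≠ 0 ∧ 0 < ω.w x ∧ ω.w x < e) ∨ GE ω x e := by
  by_cases hx : x = 0
  · right; right; exact Or.inl hx
  rcases le_or_gt (ω.w x) 0 with h | h
  · left; exact ⟨hx, h⟩
  rcases lt_or_ge (ω.w x) e with h' | h'
  · right; left; exact ⟨hx, h, h'⟩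
  · right; right; exact Or.inr h'

section regions

variable {e : G} {a b x₁ x₂ x₃ x₄ : K}

theorem region_AA (he : 0 < e) (h2 : EQ ω 2 0) (ha : EQ ω a 0) (hb : EQ ω b e)
    (h₁ : x₁ ≠ 0) (hu₁ : ω.w x₁ ≤ 0) (h₂ : x₂ ≠ 0) (hu₂ : ω.w x₂ ≤ 0) (hx : x₁ ≠ x₂)
    (hS : (x₃ + x₄) * (x₁ - x₂) ^ 2 = 2 * ((x₁ + x₂) * (x₁ * x₂ + b) + 2 * a * x₁ * x₂))
    (hPd : x₃ * x₄ * (x₁ - x₂) ^ 2 = (x₁ * x₂ - b) ^ 2) :
    (x₃ ≠ 0 ∧ ω.w x₃ ≤ 0) ∧ (x₄ ≠ 0 ∧ ω.w x₄ ≤ 0) := by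
  have e1 : EQ ω x₁ (ω.w x₁) := EQ.mk h₁
  have e2 : EQ ω x₂ (ω.w x₂) := EQ.mk h₂
  generalize ω.w x₁ = u₁ at *
  generalize ω.w x₂ = u₂ at *
  have hd0 : x₁ - x₂ ≠ 0 := sub_ne_zero.mpr hx
  have hdge : GE ω (x₁ - x₂) (min u₁ u₂) :=
    (e1.ge.mono (min_le_left _ _)).sub (e2.ge.mono (min_le_right _ _))
  have hδ : min u₁ u₂ ≤ ω.w (x₁ - x₂) := hdge.resolve_left hd0
  have ed : EQ ω (x₁ - x₂) (ω.w (x₁ - x₂)) := EQ.mk hd0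
  generalize ω.w (x₁ - x₂) = δ at *
  have eD : EQ ω (x₁ * x₂ - b) (u₁ + u₂) := (e1.mul e2).sub_of_lt hb.ge (by grind)
  have ePd := EQ.of_mul_eq hPd ed.sq eD.sq
  have g1 : GE ω (x₁ + x₂) (min u₁ u₂) :=
    (e1.ge.mono (min_le_left _ _)).add (e2.ge.mono (min_le_right _ _))
  have g2 : GE ω (x₁ * x₂ + b) (u₁ + u₂) := (e1.mul e2).ge.add (hb.ge.mono (by grind))
  have g3 : GE ω (2 * a * x₁ * x₂) (0 + 0 + u₁ + u₂) := (((h2.mul ha).mul e1).mul e2).ge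
  have gN : GE ω ((x₁ + x₂) * (x₁ * x₂ + b) + 2 * a * x₁ * x₂) (min u₁ u₂ + (u₁ + u₂)) :=
    (g1.mul g2).add (g3.mono (by grind))
  have gS := GE.of_mul_eq hS ed.sq (h2.ge.mul gN)
  exact lge rfl rfl ePd (by grind) (gS.mono (by grind))

theorem region_AB (he : 0 < e) (h2 : EQ ω 2 0) (ha : EQ ω a 0) (hb : EQ ω b e)
    (h₁ : x₁ ≠ 0) (hu₁ : ω.w x₁ ≤ 0) (h₂ : x₂ ≠ 0) (hu₂ : 0 < ω.w x₂) (hu₂' : ω.w x₂ < e)
    (hS : (x₃ + x₄) * (x₁ - x₂) ^ 2 = 2 * ((x₁ + x₂) * (x₁ * x₂ + b) + 2 * a * x₁ * x₂))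
    (hPd : x₃ * x₄ * (x₁ - x₂) ^ 2 = (x₁ * x₂ - b) ^ 2) :
    EQ ω x₃ (ω.w x₂) ∧ EQ ω x₄ (ω.w x₂) := by
  have e1 : EQ ω x₁ (ω.w x₁) := EQ.mk h₁
  have e2 : EQ ω x₂ (ω.w x₂) := EQ.mk h₂
  generalize ω.w x₁ = u₁ at *
  generalize ω.w x₂ = u₂ at *
  have ed : EQ ω (x₁ - x₂) u₁ := e1.sub_of_lt e2.ge (by grind)
  have eD : EQ ω (x₁ * x₂ - b) (u₁ + u₂) := (e1.mul e2).sub_of_lt hb.ge (by grind)
  have ePd := EQ.of_mul_eq hPd ed.sq eD.sq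
  have g1 : GE ω (x₁ + x₂) u₁ := e1.ge.add (e2.ge.mono (by grind))
  have g2 : GE ω (x₁ * x₂ + b) (u₁ + u₂) := (e1.mul e2).ge.add (hb.ge.mono (by grind))
  have g3 : GE ω (2 * a * x₁ * x₂) (0 + 0 + u₁ + u₂) := (((h2.mul ha).mul e1).mul e2).ge
  have gN : GE ω ((x₁ + x₂) * (x₁ * x₂ + b) + 2 * a * x₁ * x₂) (u₁ + (u₁ + u₂)) :=
    (g1.mul g2).add (g3.mono (by grind))
  have gS := GE.of_mul_eq hS ed.sq (h2.ge.mul gN)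
  exact np1 rfl rfl (ePd.congr (by grind)) (gS.mono (by grind))

theorem region_AC (he : 0 < e) (h2 : EQ ω 2 0) (ha : EQ ω a 0) (hb : EQ ω b e)
    (h₁ : x₁ ≠ 0) (hu₁ : ω.w x₁ ≤ 0) (h₂ : GE ω x₂ e)
    (hS : (x₃ + x₄) * (x₁ - x₂) ^ 2 = 2 * ((x₁ + x₂) * (x₁ * x₂ + b) + 2 * a * x₁ * x₂))
    (hPd : x₃ * x₄ * (x₁ - x₂) ^ 2 = (x₁ * x₂ - b) ^ 2) :
    GE ω x₃ e ∧ GE ω x₄ e := by
  have e1 : EQ ω x₁ (ω.w x₁) := EQ.mk h₁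
  generalize ω.w x₁ = u₁ at *
  have ed : EQ ω (x₁ - x₂) u₁ := e1.sub_of_lt h₂ (by grind)
  have gD : GE ω (x₁ * x₂ - b) (u₁ + e) := (e1.ge.mul h₂).sub (hb.ge.mono (by grind))
  have gPd := GE.of_mul_eq hPd ed.sq gD.sq
  have g1 : GE ω (x₁ + x₂) u₁ := e1.ge.add (h₂.mono (by grind))
  have g2 : GE ω (x₁ * x₂ + b) (u₁ + e) := (e1.ge.mul h₂).add (hb.ge.mono (by grind))
  have g3 : GE ω (2 * a * x₁ * x₂) (0 + 0 + u₁ + e) := ((h2.mul ha).ge.mul e1.ge).mul h₂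
  have gN : GE ω ((x₁ + x₂) * (x₁ * x₂ + b) + 2 * a * x₁ * x₂) (u₁ + (u₁ + e)) :=
    (g1.mul g2).add (g3.mono (by grind))
  have gS := GE.of_mul_eq hS ed.sq (h2.ge.mul gN)
  exact lle rfl rfl (gS.mono (by grind)) (gPd.mono (by grind))

theorem region_BC (he : 0 < e) (h2 : EQ ω 2 0) (ha : EQ ω a 0) (hb : EQ ω b e)
    (h₁ : x₁ ≠ 0) (hu₁ : 0 < ω.w x₁) (hu₁' : ω.w x₁ < e) (h₂ : GE ω x₂ e)
    (hS : (x₃ + x₄) * (x₁ - x₂) ^ 2 = 2 * ((x₁ + x₂) * (x₁ * x₂ + b) + 2 * a * x₁ * x₂))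
    (hPd : x₃ * x₄ * (x₁ - x₂) ^ 2 = (x₁ * x₂ - b) ^ 2) :
    EQ ω x₃ (e - ω.w x₁) ∧ EQ ω x₄ (e - ω.w x₁) := by
  have e1 : EQ ω x₁ (ω.w x₁) := EQ.mk h₁
  generalize ω.w x₁ = u₁ at *
  have ed : EQ ω (x₁ - x₂) u₁ := e1.sub_of_lt h₂ hu₁'
  have eD : EQ ω (x₁ * x₂ - b) e := EQ.sub_of_lt' (e1.ge.mul h₂) hb (by grind)
  have ePd := EQ.of_mul_eq hPd ed.sq eD.sq
  have g1 : GE ω (x₁ + x₂) u₁ := e1.ge.add (h₂.mono (by grind))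
  have g2 : GE ω (x₁ * x₂ + b) e := ((e1.ge.mul h₂).mono (by grind)).add hb.ge
  have g3 : GE ω (2 * a * x₁ * x₂) (0 + 0 + u₁ + e) := ((h2.mul ha).ge.mul e1.ge).mul h₂
  have gN : GE ω ((x₁ + x₂) * (x₁ * x₂ + b) + 2 * a * x₁ * x₂) (u₁ + e) :=
    (g1.mul g2).add (g3.mono (by grind))
  have gS := GE.of_mul_eq hS ed.sq (h2.ge.mul gN)
  exact np1 rfl rfl (ePd.congr (by grind)) (gS.mono (by grind))

theorem region_CC (he : 0 < e) (h2 : EQ ω 2 0) (ha : EQ ω a 0) (hb : EQ ω b e)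
    (h₁ : GE ω x₁ e) (h₂ : GE ω x₂ e) (hx : x₁ ≠ x₂)
    (hS : (x₃ + x₄) * (x₁ - x₂) ^ 2 = 2 * ((x₁ + x₂) * (x₁ * x₂ + b) + 2 * a * x₁ * x₂))
    (hPd : x₃ * x₄ * (x₁ - x₂) ^ 2 = (x₁ * x₂ - b) ^ 2) :
    (x₃ ≠ 0 ∧ ω.w x₃ ≤ 0) ∧ (x₄ ≠ 0 ∧ ω.w x₄ ≤ 0) := by
  have hd0 : x₁ - x₂ ≠ 0 := sub_ne_zero.mpr hx
  have hδ : e ≤ ω.w (x₁ - x₂) := (h₁.sub h₂).resolve_left hd0
  have ed : EQ ω (x₁ - x₂) (ω.w (x₁ - x₂)) := EQ.mk hd0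
  generalize ω.w (x₁ - x₂) = δ at *
  have eD : EQ ω (x₁ * x₂ - b) e := EQ.sub_of_lt' (h₁.mul h₂) hb (by grind)
  have ePd := EQ.of_mul_eq hPd ed.sq eD.sq
  have g1 : GE ω (x₁ + x₂) e := h₁.add h₂
  have g2 : GE ω (x₁ * x₂ + b) e := ((h₁.mul h₂).mono (by grind)).add hb.ge
  have g3 : GE ω (2 * a * x₁ * x₂) (0 + 0 + e + e) := ((h2.mul ha).ge.mul h₁).mul h₂
  have gN : GE ω ((x₁ + x₂) * (x₁ * x₂ + b) + 2 * a * x₁ * x₂) (e + e) :=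
    (g1.mul g2).add (g3.mono (by grind))
  have gS := GE.of_mul_eq hS ed.sq (h2.ge.mul gN)
  exact lge rfl rfl ePd (by grind) (gS.mono (by grind))

theorem region_BB_aux (he : 0 < e) (hb : EQ ω b e) {u₁ u₂ δ : G} {r r' : K}
    (e1 : EQ ω x₁ u₁) (e2 : EQ ω x₂ u₂) (hu₁ : 0 < u₁) (hu₁' : u₁ < e) (hu₂ : 0 < u₂)
    (hu₂' : u₂ < e) (ed : EQ ω (x₁ - x₂) δ) (hδ : min u₁ u₂ ≤ δ)
    (hδ' : u₁ = u₂ ∨ δ = min u₁ u₂) (hr : EQ ω r (u₁ + u₂ - (δ + δ)))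
    (hPd : r' * r * (x₁ - x₂) ^ 2 = (x₁ * x₂ - b) ^ 2) :
    cl ω e r = max (u₁ - u₂) (u₂ - u₁) ∧ cl ω e r' = fold e (u₁ + u₂) := by
  constructor
  · rw [cl_of_EQ hr]
    rcases hδ' with h | h <;> grind
  · rcases lt_trichotomy (u₁ + u₂) e with h | h | h
    · have eD : EQ ω (x₁ * x₂ - b) (u₁ + u₂) := (e1.mul e2).sub_of_lt hb.ge h
      have ePd := EQ.of_mul_eq hPd ed.sq eD.sq
      have er' := EQ.of_mul_eq rfl hr ePd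
      rw [cl_of_EQ er']; unfold fold; grind
    · have gD : GE ω (x₁ * x₂ - b) e := ((e1.mul e2).ge.mono (by grind)).sub hb.ge
      have gPd := GE.of_mul_eq hPd ed.sq gD.sq
      have gr' := GE.of_mul_eq rfl hr gPd
      rw [cl_of_GE he.le (gr'.mono (by grind))]; unfold fold; grind
    · have eD : EQ ω (x₁ * x₂ - b) e := EQ.sub_of_lt' (e1.mul e2).ge hb h
      have ePd := EQ.of_mul_eq hPd ed.sq eD.sq
      have er' := EQ.of_mul_eq rfl hr ePd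
      rw [cl_of_EQ er']; unfold fold; grind

theorem region_BB (he : 0 < e) (h2 : EQ ω 2 0) (ha : EQ ω a 0) (hb : EQ ω b e)
    (h₁ : x₁ ≠ 0) (hu₁ : 0 < ω.w x₁) (hu₁' : ω.w x₁ < e)
    (h₂ : x₂ ≠ 0) (hu₂ : 0 < ω.w x₂) (hu₂' : ω.w x₂ < e) (hx : x₁ ≠ x₂)
    (hS : (x₃ + x₄) * (x₁ - x₂) ^ 2 = 2 * ((x₁ + x₂) * (x₁ * x₂ + b) + 2 * a * x₁ * x₂))
    (hPd : x₃ * x₄ * (x₁ - x₂) ^ 2 = (x₁ * x₂ - b) ^ 2) :
    (cl ω e x₃ = max (ω.w x₁ - ω.w x₂) (ω.w x₂ - ω.w x₁) ∧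
        cl ω e x₄ = fold e (ω.w x₁ + ω.w x₂)) ∨
      (cl ω e x₄ = max (ω.w x₁ - ω.w x₂) (ω.w x₂ - ω.w x₁) ∧
        cl ω e x₃ = fold e (ω.w x₁ + ω.w x₂)) := by
  have e1 : EQ ω x₁ (ω.w x₁) := EQ.mk h₁
  have e2 : EQ ω x₂ (ω.w x₂) := EQ.mk h₂
  generalize ω.w x₁ = u₁ at *
  generalize ω.w x₂ = u₂ at *
  have hd0 : x₁ - x₂ ≠ 0 := sub_ne_zero.mpr hx
  have hdge : GE ω (x₁ - x₂) (min u₁ u₂) :=
    (e1.ge.mono (min_le_left _ _)).sub (e2.ge.mono (min_le_right _ _))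
  have hδ : min u₁ u₂ ≤ ω.w (x₁ - x₂) := hdge.resolve_left hd0
  have hδ' : u₁ = u₂ ∨ ω.w (x₁ - x₂) = min u₁ u₂ := by
    rcases lt_trichotomy u₁ u₂ with h | h | h
    · right; rw [(e1.sub_of_lt e2.ge h).2]; exact (min_eq_left h.le).symm
    · left; exact h
    · right; rw [(EQ.sub_of_lt' e1.ge e2 h).2]; exact (min_eq_right h.le).symm
  have ed : EQ ω (x₁ - x₂) (ω.w (x₁ - x₂)) := EQ.mk hd0
  generalize ω.w (x₁ - x₂) = δ at *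
  have g1 : GE ω (x₁ + x₂) (min u₁ u₂) :=
    (e1.ge.mono (min_le_left _ _)).add (e2.ge.mono (min_le_right _ _))
  have g2 : GE ω (x₁ * x₂ + b) (min (u₁ + u₂) e) :=
    ((e1.mul e2).ge.mono (min_le_left _ _)).add (hb.ge.mono (min_le_right _ _))
  have e3 : EQ ω (2 * a * x₁ * x₂) (0 + 0 + u₁ + u₂) := ((h2.mul ha).mul e1).mul e2
  have eN : EQ ω ((x₁ + x₂) * (x₁ * x₂ + b) + 2 * a * x₁ * x₂) (0 + 0 + u₁ + u₂) :=
    EQ.add_of_lt' (g1.mul g2) e3 (by grind)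
  have eS := EQ.of_mul_eq hS ed.sq (h2.mul eN)
  have gD : GE ω (x₁ * x₂ - b) (min (u₁ + u₂) e) :=
    ((e1.mul e2).ge.mono (min_le_left _ _)).sub (hb.ge.mono (min_le_right _ _))
  have gPd := GE.of_mul_eq hPd ed.sq gD.sq
  rcases np2 rfl rfl eS gPd (by grind) with h | h
  · left
    exact region_BB_aux he hb e1 e2 hu₁ hu₁' hu₂ hu₂' ed hδ hδ' (h.congr (by grind))
      (by rw [mul_comm x₄ x₃]; exact hPd)
  · right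
    exact region_BB_aux he hb e1 e2 hu₁ hu₁' hu₂ hu₂' ed hδ hδ' (h.congr (by grind)) hPd

/-- The unsigned component law for the two roots. -/
theorem cl_roots (he : 0 < e) (h2 : EQ ω 2 0) (ha : EQ ω a 0) (hb : EQ ω b e) (hx : x₁ ≠ x₂)
    (hS : (x₃ + x₄) * (x₁ - x₂) ^ 2 = 2 * ((x₁ + x₂) * (x₁ * x₂ + b) + 2 * a * x₁ * x₂))
    (hPd : x₃ * x₄ * (x₁ - x₂) ^ 2 = (x₁ * x₂ - b) ^ 2) :
    (cl ω e x₃ = fold e (cl ω e x₁ + cl ω e x₂) ∧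
        cl ω e x₄ = max (cl ω e x₁ - cl ω e x₂) (cl ω e x₂ - cl ω e x₁)) ∨
      (cl ω e x₃ = max (cl ω e x₁ - cl ω e x₂) (cl ω e x₂ - cl ω e x₁) ∧
        cl ω e x₄ = fold e (cl ω e x₁ + cl ω e x₂)) := by
  have hS' : (x₃ + x₄) * (x₂ - x₁) ^ 2 = 2 * ((x₂ + x₁) * (x₂ * x₁ + b) + 2 * a * x₂ * x₁) := by
    linear_combination hS
  have hPd' : x₃ * x₄ * (x₂ - x₁) ^ 2 = (x₂ * x₁ - b) ^ 2 := by
    linear_combination hPd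
  rcases trichotomy (ω := ω) e x₁ with ⟨h₁, hu₁⟩ | ⟨h₁, hu₁, hu₁'⟩ | h₁ <;>
  rcases trichotomy (ω := ω) e x₂ with ⟨h₂, hu₂⟩ | ⟨h₂, hu₂, hu₂'⟩ | h₂
  · obtain ⟨⟨h3, h3'⟩, ⟨h4, h4'⟩⟩ := region_AA he h2 ha hb h₁ hu₁ h₂ hu₂ hx hS hPd
    rw [cl_of_le0 he.le h₁ hu₁, cl_of_le0 he.le h₂ hu₂, cl_of_le0 he.le h3 h3',
      cl_of_le0 he.le h4 h4']
    unfold fold; grind
  · obtain ⟨h3, h4⟩ := region_AB he h2 ha hb h₁ hu₁ h₂ hu₂ hu₂' hS hPd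
    rw [cl_of_le0 he.le h₁ hu₁, cl_of_EQ (EQ.mk h₂), cl_of_EQ h3, cl_of_EQ h4]
    unfold fold; grind
  · obtain ⟨h3, h4⟩ := region_AC he h2 ha hb h₁ hu₁ h₂ hS hPd
    rw [cl_of_le0 he.le h₁ hu₁, cl_of_GE he.le h₂, cl_of_GE he.le h3, cl_of_GE he.le h4]
    unfold fold; grind
  · obtain ⟨h3, h4⟩ := region_AB he h2 ha hb h₂ hu₂ h₁ hu₁ hu₁' hS' hPd'
    rw [cl_of_le0 he.le h₂ hu₂, cl_of_EQ (EQ.mk h₁), cl_of_EQ h3, cl_of_EQ h4]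
    unfold fold; grind
  · have h := region_BB he h2 ha hb h₁ hu₁ hu₁' h₂ hu₂ hu₂' hx hS hPd
    rw [cl_of_EQ (EQ.mk h₁), cl_of_EQ (EQ.mk h₂)]
    have r1 : max 0 (min e (ω.w x₁)) = ω.w x₁ := by grind
    have r2 : max 0 (min e (ω.w x₂)) = ω.w x₂ := by grind
    rw [r1, r2]
    rcases h with ⟨h3, h4⟩ | ⟨h4, h3⟩
    · right; exact ⟨h3, h4⟩
    · left; exact ⟨h3, h4⟩
  · obtain ⟨h3, h4⟩ := region_BC he h2 ha hb h₁ hu₁ hu₁' h₂ hS hPd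
    rw [cl_of_EQ (EQ.mk h₁), cl_of_GE he.le h₂, cl_of_EQ h3, cl_of_EQ h4]
    unfold fold; grind
  · obtain ⟨h3, h4⟩ := region_AC he h2 ha hb h₂ hu₂ h₁ hS' hPd'
    rw [cl_of_le0 he.le h₂ hu₂, cl_of_GE he.le h₁, cl_of_GE he.le h3, cl_of_GE he.le h4]
    unfold fold; grind
  · obtain ⟨h3, h4⟩ := region_BC he h2 ha hb h₂ hu₂ hu₂' h₁ hS' hPd'
    rw [cl_of_EQ (EQ.mk h₂), cl_of_GE he.le h₁, cl_of_EQ h3, cl_of_EQ h4]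
    unfold fold; grind
  · obtain ⟨⟨h3, h3'⟩, ⟨h4, h4'⟩⟩ := region_CC he h2 ha hb h₁ h₂ hx hS hPd
    rw [cl_of_GE he.le h₁, cl_of_GE he.le h₂, cl_of_le0 he.le h3 h3', cl_of_le0 he.le h4 h4']
    unfold fold; grind

end regions

section doubling

variable {e : G} {a b x y x' : K}

theorem cl_double (he : 0 < e) (h2 : EQ ω 2 0) (ha : EQ ω a 0) (hb : EQ ω b e)
    (hE : y ^ 2 = x ^ 3 + a * x ^ 2 + b * x) (hy : y ≠ 0)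
    (hx' : x' * (4 * y ^ 2) = (x ^ 2 - b) ^ 2) :
    cl ω e x' = fold e (cl ω e x + cl ω e x) := by
  have hyQ : y ^ 2 = x * (x ^ 2 + a * x + b) := by rw [hE]; ring
  have hy2 : y ^ 2 ≠ 0 := pow_ne_zero 2 hy
  have hx0 : x ≠ 0 := by rintro rfl; rw [zero_mul] at hyQ; exact hy2 hyQ
  have hQ0 : x ^ 2 + a * x + b ≠ 0 := by
    intro h; rw [h, mul_zero] at hyQ; exact hy2 hyQ
  have e4 : EQ ω (4 : K) (0 + 0) := by
    have h4 : (4 : K) = 2 * 2 := by norm_num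
    rw [h4]; exact h2.mul h2
  have e1 : EQ ω x (ω.w x) := EQ.mk hx0
  have eQ : EQ ω (x ^ 2 + a * x + b) (ω.w (x ^ 2 + a * x + b)) := EQ.mk hQ0
  have ey2 : EQ ω (y ^ 2) (ω.w x + ω.w (x ^ 2 + a * x + b)) := by
    rw [hyQ]; exact e1.mul eQ
  have e4y := e4.mul ey2
  rcases trichotomy (ω := ω) e x with ⟨h₁, hu₁⟩ | ⟨h₁, hu₁, hu₁'⟩ | h₁
  · have eNum : EQ ω (x ^ 2 - b) (ω.w x + ω.w x) := e1.sq.sub_of_lt hb.ge (by grind)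
    have gQ : GE ω (x ^ 2 + a * x + b) (ω.w x + ω.w x) :=
      (e1.sq.ge.add ((ha.mul e1).ge.mono (by grind))).add (hb.ge.mono (by grind))
    have hq := gQ.le_of_EQ eQ
    have ex' := EQ.of_mul_eq hx' e4y eNum.sq
    rw [cl_of_le0 he.le ex'.1 (by rw [ex'.2]; grind), cl_of_le0 he.le h₁ hu₁]
    unfold fold; grind
  · have eQ' : EQ ω (x ^ 2 + a * x + b) (ω.w x) :=
      (EQ.add_of_lt' e1.sq.ge ((ha.mul e1).congr (zero_add _)) (by grind)).add_of_lt hb.ge hu₁'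
    have hq : ω.w (x ^ 2 + a * x + b) = ω.w x := eQ'.2
    rcases lt_trichotomy (ω.w x + ω.w x) e with h | h | h
    · have eNum : EQ ω (x ^ 2 - b) (ω.w x + ω.w x) := e1.sq.sub_of_lt hb.ge h
      have ex' := EQ.of_mul_eq hx' e4y eNum.sq
      rw [cl_of_EQ ex', cl_of_EQ e1]
      unfold fold; grind
    · have gNum : GE ω (x ^ 2 - b) e := (e1.sq.ge.mono (by grind)).sub hb.ge
      have gx' := GE.of_mul_eq hx' e4y gNum.sq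
      rw [cl_of_GE he.le (gx'.mono (by grind)), cl_of_EQ e1]
      unfold fold; grind
    · have eNum : EQ ω (x ^ 2 - b) e := EQ.sub_of_lt' e1.sq.ge hb h
      have ex' := EQ.of_mul_eq hx' e4y eNum.sq
      rw [cl_of_EQ ex', cl_of_EQ e1]
      unfold fold; grind
  · have hu : e ≤ ω.w x := h₁.resolve_left hx0
    have eNum : EQ ω (x ^ 2 - b) e := EQ.sub_of_lt' e1.sq.ge hb (by grind)
    have gQ : GE ω (x ^ 2 + a * x + b) e :=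
      ((e1.sq.ge.mono (by grind)).add ((ha.mul e1).ge.mono (by grind))).add hb.ge
    have hq := gQ.le_of_EQ eQ
    have ex' := EQ.of_mul_eq hx' e4y eNum.sq
    rw [cl_of_le0 he.le ex'.1 (by rw [ex'.2]; grind), cl_of_GE he.le h₁]
    unfold fold; grind

theorem cl_double_zero (he : 0 < e) (ha : EQ ω a 0) (hb : EQ ω b e)
    (hE : 0 = x ^ 3 + a * x ^ 2 + b * x) : fold e (cl ω e x + cl ω e x) = 0 := by
  by_cases hx0 : x = 0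
  · rw [cl_of_GE he.le (Or.inl hx0)]; unfold fold; grind
  have hQ : x ^ 2 + a * x + b = 0 := by
    have h : x * (x ^ 2 + a * x + b) = 0 := by rw [hE]; ring
    exact (mul_eq_zero.mp h).resolve_left hx0
  have e1 : EQ ω x (ω.w x) := EQ.mk hx0
  rcases trichotomy (ω := ω) e x with ⟨h₁, hu₁⟩ | ⟨h₁, hu₁, hu₁'⟩ | h₁
  · rw [cl_of_le0 he.le h₁ hu₁]; unfold fold; grind
  · exfalso
    have eQ' : EQ ω (x ^ 2 + a * x + b) (ω.w x) :=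
      (EQ.add_of_lt' e1.sq.ge ((ha.mul e1).congr (zero_add _)) (by grind)).add_of_lt hb.ge hu₁'
    exact eQ'.1 hQ
  · rw [cl_of_GE he.le h₁]; unfold fold; grind

end doubling

end Fermat.Agent.S05.AVal
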