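import Fermat.Agent.S05.Ident
import Fermat.Agent.S05.Regions
import Mathlib.GroupTheory.QuotientGroup.Basic

set_option autoImplicit false
set_option linter.unusedVariables false
set_option linter.unusedSectionVars false

/-!
The unsigned component law on the points of `y² = x³ + a x² + b x` (`w a = 0`, `w b = e > 0`,
`w 2 = 0`) and its consequence for torsion points: if `p • P = 0` then `p • c(P) ∈ ℤ • 2e`.
-/

namespace Fermat.Agent.S05.Comp

open WeierstrassCurve WeierstrassCurve.Affine
open Fermat.Agent.S05.AVal Fermat.Agent.S05.Ident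

variable {K : Type*} [Field K] [DecidableEq K]
variable {G : Type*} [AddCommGroup G] [LinearOrder G] [IsOrderedAddMonoid G]
variable {W : WeierstrassCurve K}

/-- The clamped valuation of the `x`-coordinate of a point (`0` at the point at infinity). -/
noncomputable def c (ω : AddVal K G) (e : G) : W.toAffine.Point → G
  | .zero => 0
  | .some x _ _ => cl ω e x

variable {ω : AddVal K G} {e : G}

theorem c_zero : c ω e (0 : W.toAffine.Point) = 0 := rfl

theorem c_some {x y : K} (h : W.toAffine.Nonsingular x y) :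
    c ω e (Point.some x y h) = cl ω e x := rfl

theorem c_nonneg (he : 0 < e) (P : W.toAffine.Point) : 0 ≤ c ω e P := by
  cases P with
  | zero => exact le_refl _
  | some x y h => exact cl_nonneg he.le x

theorem c_le (he : 0 < e) (P : W.toAffine.Point) : c ω e P ≤ e := by
  cases P with
  | zero => exact he.le
  | some x y h => exact cl_le he.le x

theorem c_neg (P : W.toAffine.Point) : c ω e (-P) = c ω e P := by
  cases P with
  | zero => rfl
  | some x y h => rfl

section key

variable (h₁ : W.a₁ = 0) (h₃ : W.a₃ = 0) (h₆ : W.a₆ = 0) (he : 0 < e)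
  (h2 : EQ ω (2 : K) 0) (ha : EQ ω W.a₂ 0) (hb : EQ ω W.a₄ e)

include h₁ h₃ h₆ he h2 ha hb

theorem c_add_self (P : W.toAffine.Point) : c ω e (P + P) = fold e (c ω e P + c ω e P) := by
  cases P with
  | zero =>
    rw [← Point.zero_def, add_zero, c_zero]; unfold fold; grind
  | some x y h =>
    have E := (equation_iff_leg h₁ h₃ h₆ x y).mp h.1
    obtain ⟨hz, hnz⟩ := add_self_leg h₁ h₃ h₆ h2.1 h
    by_cases hy : y = 0
    · rw [hz hy, c_zero, c_some]
      rw [hy] at E
      have E' : (0 : K) = x ^ 3 + W.a₂ * x ^ 2 + W.a₄ * x := by rw [← E]; ring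
      exact (cl_double_zero he ha hb E').symm
    · obtain ⟨x', y', h', hadd, hx'⟩ := hnz hy
      rw [hadd, c_some, c_some]
      have h4 : (4 : K) * y ^ 2 ≠ 0 := by
        have h4' : (4 : K) = 2 * 2 := by norm_num
        rw [h4']
        exact mul_ne_zero (mul_ne_zero h2.1 h2.1) (pow_ne_zero 2 hy)
      have hx'' : x' * (4 * y ^ 2) = (x ^ 2 - W.a₄) ^ 2 := by
        rw [hx', div_mul_cancel₀ _ h4]
      exact cl_double he h2 ha hb E hy hx''

/-- The unsigned component law. -/
theorem key (P Q : W.toAffine.Point) :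
    (c ω e (P + Q) = fold e (c ω e P + c ω e Q) ∧
        c ω e (P - Q) = max (c ω e P - c ω e Q) (c ω e Q - c ω e P)) ∨
      (c ω e (P + Q) = max (c ω e P - c ω e Q) (c ω e Q - c ω e P) ∧
        c ω e (P - Q) = fold e (c ω e P + c ω e Q)) := by
  have hdbl := c_add_self h₁ h₃ h₆ he h2 ha hb
  cases P with
  | zero =>
    left
    have hQ0 := c_nonneg (ω := ω) he Q
    have hQ1 := c_le (ω := ω) he Q
    rw [← Point.zero_def, zero_add, zero_sub, c_neg, c_zero]
    unfold fold; grind
  | some x₁ y₁ hP =>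
    cases Q with
    | zero =>
      left
      have hQ0 := c_nonneg (ω := ω) he (Point.some x₁ y₁ hP)
      have hQ1 := c_le (ω := ω) he (Point.some x₁ y₁ hP)
      rw [← Point.zero_def, add_zero, sub_zero, c_zero]
      unfold fold; grind
    | some x₂ y₂ hQ =>
      by_cases hx : x₁ = x₂
      · rcases Point.X_eq_iff.mp hx with h | h
        · left
          rw [h, sub_self, c_zero, hdbl]
          exact ⟨rfl, by grind⟩
        · right
          have hc : c ω e (Point.some x₁ y₁ hP) = c ω e (Point.some x₂ y₂ hQ) := by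
            rw [h, c_neg]
          have hadd : Point.some x₁ y₁ hP + Point.some x₂ y₂ hQ = 0 := by
            rw [h, neg_add_cancel]
          have hsub : Point.some x₁ y₁ hP - Point.some x₂ y₂ hQ =
              Point.some x₁ y₁ hP + Point.some x₁ y₁ hP := by
            rw [sub_eq_add_neg, ← h]
          rw [hadd, hsub, hdbl, c_zero, hc]
          exact ⟨by grind, rfl⟩
      · obtain ⟨x₃, y₃, hP₃, x₄, y₄, hP₄, hadd, hsub, -, -, hsum, hprod⟩ :=
          add_sub_of_X_ne h₁ h₃ h₆ hP hQ hx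
        rw [hadd, hsub, c_some, c_some, c_some, c_some]
        have hd : x₁ - x₂ ≠ 0 := sub_ne_zero.mpr hx
        have hd2 : (x₁ - x₂) ^ 2 ≠ 0 := pow_ne_zero 2 hd
        have hS : (x₃ + x₄) * (x₁ - x₂) ^ 2 =
            2 * ((x₁ + x₂) * (x₁ * x₂ + W.a₄) + 2 * W.a₂ * x₁ * x₂) := by
          rw [hsum, div_mul_cancel₀ _ hd2]
        have hPd : x₃ * x₄ * (x₁ - x₂) ^ 2 = (x₁ * x₂ - W.a₄) ^ 2 := by
          rw [hprod, div_pow, div_mul_cancel₀ _ hd2]
        exact cl_roots he h2 ha hb hx hS hPd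

end key

theorem seq_claim {A : Type*} [AddCommGroup A] (J : A) (a : ℕ → A) (h0 : a 0 = 0) (h1 : a 1 = J)
    (hrec : ∀ n : ℕ, ∃ s t : A, (s = a (n + 1) + J ∨ s = -(a (n + 1) + J)) ∧
      (t = a (n + 1) - J ∨ t = -(a (n + 1) - J)) ∧
      ((a (n + 2) = s ∧ a n = t) ∨ (a (n + 2) = t ∧ a n = s))) :
    ∀ n : ℕ, a n = n • J ∨ a n = -(n • J) := by
  suffices H : ∀ n : ℕ, (a n = n • J ∨ a n = -(n • J)) ∧
      (a (n + 1) = (n + 1) • J ∨ a (n + 1) = -((n + 1) • J)) from fun n => (H n).1
  intro n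
  induction n with
  | zero => exact ⟨Or.inl (by rw [h0, zero_smul]), Or.inl (by rw [zero_add, h1, one_smul])⟩
  | succ n ih =>
    refine ⟨ih.2, ?_⟩
    obtain ⟨s, t, hs, ht, hc⟩ := hrec n
    have e1 : (n + 1) • J = n • J + J := succ_nsmul J n
    have e2 : (n + 1 + 1) • J = n • J + J + J := by rw [succ_nsmul, succ_nsmul]
    rw [e2]
    obtain ⟨ih1, ih2⟩ := ih
    rw [e1] at ih2
    generalize n • J = X at *
    generalize a n = a0 at *
    generalize a (n + 1) = a1 at *
    generalize a (n + 1 + 1) = a2 at *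
    grind

section torsion

variable (h₁ : W.a₁ = 0) (h₃ : W.a₃ = 0) (h₆ : W.a₆ = 0) (he : 0 < e)
  (h2 : EQ ω (2 : K) 0) (ha : EQ ω W.a₂ 0) (hb : EQ ω W.a₄ e)

include h₁ h₃ h₆ he h2 ha hb

/-- If `p • P = 0` then `p • c(P)` is an integer multiple of `2e`. -/
theorem torsion_c (P : W.toAffine.Point) (p : ℕ) (hP : p • P = 0) :
    ∃ k : ℤ, p • c ω e P = k • (e + e) := by
  let H : AddSubgroup G := AddSubgroup.zmultiples (e + e)
  let mk : G →+ G ⧸ H := QuotientAddGroup.mk' H
  have hmk0 : mk (e + e) = 0 := by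
    rw [QuotientAddGroup.mk'_apply, QuotientAddGroup.eq_zero_iff]
    exact AddSubgroup.mem_zmultiples (e + e)
  have hfold : ∀ u : G, mk (fold e u) = mk u ∨ mk (fold e u) = -mk u := by
    intro u
    unfold fold
    rcases min_choice u (e + e - u) with h | h
    · left; rw [h]
    · right; rw [h, map_sub, hmk0, zero_sub]
  have hmax : ∀ u v : G, mk (max (u - v) (v - u)) = mk u - mk v ∨
      mk (max (u - v) (v - u)) = -(mk u - mk v) := by
    intro u v
    rcases max_choice (u - v) (v - u) with h | h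
    · left; rw [h, map_sub]
    · right; rw [h, map_sub, neg_sub]
  have hseq := seq_claim (mk (c ω e P)) (fun n => mk (c ω e (n • P)))
    (by simp only [zero_smul, c_zero, map_zero]) (by simp only [one_smul])
    (by
      intro n
      have hk := key h₁ h₃ h₆ he h2 ha hb ((n + 1) • P) P
      have e1 : (n + 1) • P + P = (n + 2) • P := (succ_nsmul P (n + 1)).symm
      have e2 : (n + 1) • P - P = n • P := by rw [succ_nsmul, add_sub_cancel_right]
      rw [e1, e2] at hk
      refine ⟨mk (fold e (c ω e ((n + 1) • P) + c ω e P)),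
        mk (max (c ω e ((n + 1) • P) - c ω e P) (c ω e P - c ω e ((n + 1) • P))), ?_, ?_, ?_⟩
      · have := hfold (c ω e ((n + 1) • P) + c ω e P)
        rw [map_add] at this
        exact this
      · exact hmax _ _
      · rcases hk with ⟨hk1, hk2⟩ | ⟨hk1, hk2⟩
        · left; exact ⟨by rw [hk1], by rw [hk2]⟩
        · right; exact ⟨by rw [hk1], by rw [hk2]⟩)
    p
  simp only [hP, c_zero, map_zero] at hseq
  have hzero : mk (p • c ω e P) = 0 := by
    rw [map_nsmul]
    rcases hseq with h | h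
    · exact h.symm
    · exact neg_eq_zero.mp h.symm
  rw [QuotientAddGroup.mk'_apply, QuotientAddGroup.eq_zero_iff] at hzero
  obtain ⟨k, hk⟩ := AddSubgroup.mem_zmultiples_iff.mp hzero
  exact ⟨k, hk.symm⟩

/-- Torsion points of odd order: the `x`-coordinate is either a unit-or-pole, or lies strictly
between and `p • w x ∈ ℤ • 2e`. -/
theorem torsion_x {p : ℕ} (hp : Odd p) {x y : K} (h : W.toAffine.Nonsingular x y)
    (hP : p • Point.some x y h = 0) :
    (x ≠ 0 ∧ ω.w x ≤ 0) ∨
      (x ≠ 0 ∧ 0 < ω.w x ∧ ω.w x < e ∧ ∃ k : ℤ, p • ω.w x = k • (e + e)) := by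
  obtain ⟨k, hk⟩ := torsion_c h₁ h₃ h₆ he h2 ha hb (Point.some x y h) p hP
  rw [c_some] at hk
  rcases trichotomy (ω := ω) e x with ⟨hx, hu⟩ | ⟨hx, hu, hu'⟩ | hC
  · left; exact ⟨hx, hu⟩
  · right
    refine ⟨hx, hu, hu', k, ?_⟩
    rw [cl_of_EQ (EQ.mk hx)] at hk
    have r1 : max 0 (min e (ω.w x)) = ω.w x := by grind
    rw [r1] at hk
    exact hk
  · exfalso
    rw [cl_of_GE he.le hC] at hk
    have h1 : ((p : ℤ)) • e = (2 * k) • e := by
      rw [natCast_zsmul, hk, mul_comm, mul_zsmul, two_zsmul]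
    have h2' : (p : ℤ) = 2 * k := (zsmul_left_inj he).mp h1
    obtain ⟨m, hm⟩ := hp
    omega

end torsion

end Fermat.Agent.S05.Comp
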