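import Mathlib.AlgebraicGeometry.EllipticCurve.Affine.Point
import Fermat.Agent.S05.Ident
import Fermat.Agent.S05.KeyLemma

set_option autoImplicit false

/-!
Part 3 of the proof of S05 on Mathlib points: for the Legendre-form curve
`Y² = X (X - α) (X + β)` with `v α < 1`, `v β = 1`, `v 2 = 1`, a point `P = (x, y)` of odd
order `p` with `v x < 1` satisfies `v α < v x` and `v x ^ p ∈ (v α) ^ (2ℤ)`.
-/

namespace Fermat.Agent.S05.Comp3

open WeierstrassCurve WeierstrassCurve.Affine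
open Fermat.Agent.S05.KeyLemma Fermat.Agent.S05.Ident

variable {K : Type*} [Field K] [DecidableEq K] {Γ₀ : Type*} [LinearOrderedCommGroupWithZero Γ₀]
  (v : Valuation K Γ₀)

/-- The height of a point: the clamped valuation of its `X`-coordinate, `1` at the origin. -/
def ht (ν : Γ₀) {W : WeierstrassCurve K} : W.toAffine.Point → Γ₀
  | .zero => 1
  | .some x _ _ => clamp ν (v x)

theorem ht_zero (ν : Γ₀) {W : WeierstrassCurve K} : ht v ν (0 : W.toAffine.Point) = 1 := rfl

theorem ht_some (ν : Γ₀) {W : WeierstrassCurve K} {x y : K} (h : W.toAffine.Nonsingular x y) :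
    ht v ν (Point.some x y h) = clamp ν (v x) := rfl

theorem ht_neg (ν : Γ₀) {W : WeierstrassCurve K} (Q : W.toAffine.Point) :
    ht v ν (-Q) = ht v ν Q := by
  rcases Q with _ | ⟨x, y, h⟩
  · rfl
  · rw [Point.neg_some]
    rfl

theorem ht_mem {ν : Γ₀} (hν : ν ≤ 1) {W : WeierstrassCurve K} (Q : W.toAffine.Point) :
    ν ≤ ht v ν Q ∧ ht v ν Q ≤ 1 := by
  rcases Q with _ | ⟨x, y, h⟩
  · exact ⟨hν, le_rfl⟩
  · exact ⟨le_clamp _ _, clamp_le_one hν _⟩

/-- The unsigned component law on points: `Q + P` and `Q - P`. -/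
theorem rel_add {W : WeierstrassCurve K} {α β : K} (ha₁ : W.a₁ = 0) (ha₃ : W.a₃ = 0)
    (ha₆ : W.a₆ = 0) (ha₂ : W.a₂ = β - α) (ha₄ : W.a₄ = -(α * β)) (h2 : v 2 = 1)
    (hβ : v β = 1) (hα : v α < 1) (hα0 : α ≠ 0) {x y : K} (h : W.toAffine.Nonsingular x y)
    (hy : y ≠ 0) (Q : W.toAffine.Point) :
    Rel (v α) (ht v (v α) Q) (ht v (v α) (Point.some x y h))
      (ht v (v α) (Q + Point.some x y h)) (ht v (v α) (Q - Point.some x y h)) := by
  have hν0 : v α ≠ 0 := (v.ne_zero_iff).mpr hα0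
  have hνpos : 0 < v α := zero_lt_iff.mpr hν0
  have hj : v α ≤ clamp (v α) (v x) := le_clamp _ _
  have hj1 : clamp (v α) (v x) ≤ 1 := clamp_le_one hα.le _
  have hj0 : clamp (v α) (v x) ≠ 0 := (lt_of_lt_of_le hνpos hj).ne'
  have h2ne : (2 : K) ≠ 0 := by
    intro h0
    rw [h0, map_zero] at h2
    exact zero_ne_one h2
  have E := (equation_iff_leg ha₁ ha₃ ha₆ x y).mp h.1
  -- the doubling formula
  have hdbl : ht v (v α) (Point.some x y h + Point.some x y h) =
      fold (v α) (clamp (v α) (v x) * clamp (v α) (v x)) := by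
    obtain ⟨x2, y2, h2', hadd, hx2⟩ := (add_self_leg ha₁ ha₃ ha₆ h2ne h).2 hy
    rw [hadd, ht_some]
    exact double_law_ab v ha₂ ha₄ h2 hβ hα hα0 hy E hx2
  rw [ht_some]
  rcases Q with _ | ⟨x', y', h'⟩
  · rw [← Point.zero_def, zero_add, zero_sub, ht_neg, ht_zero, ht_some]
    refine Or.inl ⟨?_, ?_⟩
    · rw [one_mul, fold_of_le hj]
    · rw [mr_of_le one_ne_zero hj0 hj1, div_one]
  · by_cases hx : x' = x
    · subst hx
      have E' := (equation_iff_leg ha₁ ha₃ ha₆ x' y').mp h'.1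
      have hprod : (y' - y) * (y' + y) = 0 := by linear_combination E' - E
      rcases mul_eq_zero.mp hprod with hyy | hyy
      · have hyy' : y' = y := sub_eq_zero.mp hyy
        subst hyy'
        rw [sub_self, ht_zero, ht_some, hdbl]
        exact Or.inl ⟨rfl, (mr_self hj0).symm⟩
      · have hyy' : y' = -y := eq_neg_of_add_eq_zero_left hyy
        subst hyy'
        obtain ⟨h'', hneg⟩ := neg_some_leg ha₁ ha₃ h
        have hQ : Point.some x' (-y) h' = -Point.some x' y h := hneg.symm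
        rw [hQ, neg_add_cancel, ← neg_add', ht_neg, ht_neg, ht_zero, ht_some, hdbl]
        exact Or.inr ⟨rfl, (mr_self hj0).symm⟩
    · obtain ⟨x₃, y₃, hP₃, x₄, y₄, hP₄, hadd, hsub, -, -, F1, F2⟩ :=
        add_sub_of_X_ne ha₁ ha₃ ha₆ h' h hx
      rw [hadd, hsub, ht_some, ht_some, ht_some]
      exact add_law_ab v ha₂ ha₄ h2 hβ hα hα0 hx F1 F2

/-- Part 3: the valuation of the `X`-coordinate of a point of odd order `p` near the node. -/
theorem part3 {W : WeierstrassCurve K} {α β : K} (ha₁ : W.a₁ = 0) (ha₃ : W.a₃ = 0)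
    (ha₆ : W.a₆ = 0) (ha₂ : W.a₂ = β - α) (ha₄ : W.a₄ = -(α * β)) (h2 : v 2 = 1)
    (hβ : v β = 1) (hα : v α < 1) (hα0 : α ≠ 0) {p : ℕ} (hodd : Odd p) {x y : K}
    (h : W.toAffine.Nonsingular x y) (hp : p • Point.some x y h = 0) (hx1 : v x < 1) :
    v α < v x ∧ ∃ k : ℤ, v x ^ p = v α ^ (2 * k) := by
  have hν0 : v α ≠ 0 := (v.ne_zero_iff).mpr hα0
  have h2ne : (2 : K) ≠ 0 := by
    intro h0
    rw [h0, map_zero] at h2
    exact zero_ne_one h2
  have hy : y ≠ 0 := by
    intro hy0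
    have h2P : Point.some x y h + Point.some x y h = 0 :=
      (add_self_leg ha₁ ha₃ ha₆ h2ne h).1 hy0
    obtain ⟨m, rfl⟩ := hodd
    have e : (2 * m + 1) • Point.some x y h = Point.some x y h := by
      rw [add_smul, one_smul, mul_comm, mul_smul, two_smul, h2P, smul_zero, zero_add]
    rw [e] at hp
    exact Point.some_ne_zero h hp
  have hmem : ∀ n : ℕ, v α ≤ ht v (v α) (n • Point.some x y h) ∧
      ht v (v α) (n • Point.some x y h) ≤ 1 := fun n => ht_mem v hα.le _
  have h0 : ht v (v α) ((0 : ℕ) • Point.some x y h) = 1 := by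
    rw [zero_smul, ht_zero]
  have h1 : ht v (v α) ((1 : ℕ) • Point.some x y h) = clamp (v α) (v x) := by
    rw [one_smul, ht_some]
  have hR : ∀ n : ℕ, 1 ≤ n → Rel (v α) (ht v (v α) (n • Point.some x y h)) (clamp (v α) (v x))
      (ht v (v α) ((n + 1) • Point.some x y h)) (ht v (v α) ((n - 1) • Point.some x y h)) := by
    intro n hn
    have key := rel_add v ha₁ ha₃ ha₆ ha₂ ha₄ h2 hβ hα hα0 h hy (n • Point.some x y h)
    rw [ht_some, ← succ_nsmul] at key
    have hsub : n • Point.some x y h - Point.some x y h = (n - 1) • Point.some x y h := by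
      obtain ⟨m, rfl⟩ : ∃ m, n = m + 1 := ⟨n - 1, by omega⟩
      rw [Nat.add_sub_cancel, succ_nsmul, add_sub_cancel_right]
    rw [hsub] at key
    exact key
  have hpz : ht v (v α) (p • Point.some x y h) = 1 := by
    rw [hp, ht_zero]
  obtain ⟨hlt, k, hk⟩ := height_of_torsion hodd hν0 hα (le_clamp _ _)
    (fun n : ℕ => ht v (v α) (n • Point.some x y h)) hmem h0 h1 hR hpz
  have hxν : v α < v x := by
    by_contra hcon
    rw [not_lt] at hcon
    rw [clamp_of_le hα.le hcon] at hlt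
    exact lt_irrefl _ hlt
  rw [clamp_of_mem hxν.le hx1.le] at hk
  exact ⟨hxν, k, hk⟩

end Fermat.Agent.S05.Comp3
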