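import Fermat.Agent.S05.Comp
import Mathlib.RingTheory.Valuation.Basic

set_option autoImplicit false
set_option linter.unusedVariables false
set_option linter.unusedSectionVars false

/-!
Multiplicative (Mathlib `Valuation`) form of the torsion statement of `Comp`.
-/

namespace Fermat.Agent.S05.CompVal

open WeierstrassCurve WeierstrassCurve.Affine
open Fermat.Agent.S05.AVal Fermat.Agent.S05.Comp

variable {K : Type*} [Field K] {Γ₀ : Type*} [LinearOrderedCommGroupWithZero Γ₀]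

open scoped Classical in
/-- The unit of the value group attached to a nonzero element (`1` for `0`). -/
noncomputable def uval (v : Valuation K Γ₀) (x : K) : Γ₀ˣ :=
  if hx : x = 0 then 1 else Units.mk0 (v x) ((Valuation.ne_zero_iff v).mpr hx)

theorem uval_coe (v : Valuation K Γ₀) {x : K} (hx : x ≠ 0) : ((uval v x : Γ₀ˣ) : Γ₀) = v x := by
  unfold uval; rw [dif_neg hx]; rfl

theorem uval_mul (v : Valuation K Γ₀) {x y : K} (hx : x ≠ 0) (hy : y ≠ 0) :
    uval v (x * y) = uval v x * uval v y := by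
  apply Units.ext
  rw [Units.val_mul, uval_coe v hx, uval_coe v hy, uval_coe v (mul_ne_zero hx hy), map_mul]

/-- The additive valuation `-log v` on the nonzero elements. -/
noncomputable def toAddVal (v : Valuation K Γ₀) : AddVal K (Additive Γ₀ˣ) where
  w x := Additive.ofMul (uval v x)⁻¹
  map_mul x y hx hy := by
    rw [uval_mul v hx hy, mul_inv, ofMul_mul]
  map_add x y hx hy hxy := by
    have h := v.map_add x y
    rw [← uval_coe v hx, ← uval_coe v hy, ← uval_coe v hxy] at h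
    have h' : uval v (x + y) ≤ max (uval v x) (uval v y) := by
      rcases le_max_iff.mp h with h1 | h1
      · exact le_max_of_le_left (Units.val_le_val.mp h1)
      · exact le_max_of_le_right (Units.val_le_val.mp h1)
    rcases le_max_iff.mp h' with h1 | h1
    · exact min_le_of_left_le (Additive.ofMul_le.mpr (inv_le_inv_iff.mpr h1))
    · exact min_le_of_right_le (Additive.ofMul_le.mpr (inv_le_inv_iff.mpr h1))

theorem w_le_zero_iff (v : Valuation K Γ₀) {x : K} (hx : x ≠ 0) :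
    (toAddVal v).w x ≤ 0 ↔ 1 ≤ v x := by
  show Additive.ofMul (uval v x)⁻¹ ≤ Additive.ofMul 1 ↔ _
  rw [Additive.ofMul_le, inv_le_one', ← uval_coe v hx, ← Units.val_le_val, Units.val_one]

theorem w_lt_w_iff (v : Valuation K Γ₀) {x y : K} (hx : x ≠ 0) (hy : y ≠ 0) :
    (toAddVal v).w x < (toAddVal v).w y ↔ v y < v x := by
  show Additive.ofMul (uval v x)⁻¹ < Additive.ofMul (uval v y)⁻¹ ↔ _
  rw [Additive.ofMul_lt, inv_lt_inv_iff, ← uval_coe v hx, ← uval_coe v hy, Units.val_lt_val]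

theorem w_eq_zero_of (v : Valuation K Γ₀) {x : K} (h : v x = 1) : EQ (toAddVal v) x 0 := by
  have hx : x ≠ 0 := by
    rw [← Valuation.ne_zero_iff v, h]; exact one_ne_zero
  refine ⟨hx, ?_⟩
  show Additive.ofMul (uval v x)⁻¹ = Additive.ofMul 1
  have : uval v x = 1 := by
    apply Units.ext; rw [uval_coe v hx, h, Units.val_one]
  rw [this, inv_one]

variable [DecidableEq K] {W : WeierstrassCurve K}

/-- Torsion points of odd order `p` on `y² = x³ + a x² + b x` with `v 2 = v a = 1`, `v b < 1`: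
either `1 ≤ v x`, or `v b < v x < 1` and `(v x) ^ p ∈ (v b) ^ (2ℤ)`. -/
theorem torsion_valuation (v : Valuation K Γ₀) (h₁ : W.a₁ = 0) (h₃ : W.a₃ = 0) (h₆ : W.a₆ = 0)
    (hv2 : v 2 = 1) (hva : v W.a₂ = 1) (hb0 : W.a₄ ≠ 0) (hvb : v W.a₄ < 1) {p : ℕ} (hp : Odd p)
    {x y : K} (h : W.toAffine.Nonsingular x y) (hP : p • Point.some x y h = 0) :
    1 ≤ v x ∨ (v W.a₄ < v x ∧ v x < 1 ∧ ∃ k : ℤ, v x ^ p = v W.a₄ ^ (2 * k)) := by
  have he : 0 < (toAddVal v).w W.a₄ :=
    not_le.mp (fun h => absurd ((w_le_zero_iff v hb0).mp h) (not_le.mpr hvb))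
  have h2 : EQ (toAddVal v) (2 : K) 0 := w_eq_zero_of v hv2
  have ha : EQ (toAddVal v) W.a₂ 0 := w_eq_zero_of v hva
  have hb : EQ (toAddVal v) W.a₄ ((toAddVal v).w W.a₄) := ⟨hb0, rfl⟩
  rcases torsion_x h₁ h₃ h₆ he h2 ha hb hp h hP with ⟨hx, hu⟩ | ⟨hx, hu, hu', k, hk⟩
  · left; exact (w_le_zero_iff v hx).mp hu
  · right
    refine ⟨(w_lt_w_iff v hx hb0).mp hu', ?_, k, ?_⟩
    · by_contra hc
      exact absurd ((w_le_zero_iff v hx).mpr (not_lt.mp hc)) (not_le.mpr hu)
    · have hk' : (uval v x)⁻¹ ^ p = ((uval v W.a₄)⁻¹ * (uval v W.a₄)⁻¹) ^ k :=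
        congrArg Additive.toMul hk
      rw [inv_pow, ← mul_inv, inv_zpow, inv_inj, ← pow_two] at hk'
      have e2 : ((uval v W.a₄) ^ 2) ^ k = (uval v W.a₄) ^ (2 * k) := by
        rw [zpow_mul, zpow_ofNat]
      rw [e2] at hk'
      have hk'' := congrArg Units.val hk'
      rw [Units.val_pow_eq_pow_val, Units.val_zpow_eq_zpow_val, uval_coe v hx, uval_coe v hb0]
        at hk''
      exact hk''

/-- Variant: if moreover `v b = (v d) ^ p`, then `v x = v (d ^ (2k))`. -/
theorem torsion_valuation' (v : Valuation K Γ₀) (h₁ : W.a₁ = 0) (h₃ : W.a₃ = 0) (h₆ : W.a₆ = 0)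
    (hv2 : v 2 = 1) (hva : v W.a₂ = 1) (hb0 : W.a₄ ≠ 0) (hvb : v W.a₄ < 1) {p : ℕ} (hp : Odd p)
    {d : K} (hd : v W.a₄ = v d ^ p)
    {x y : K} (h : W.toAffine.Nonsingular x y) (hP : p • Point.some x y h = 0) :
    1 ≤ v x ∨ (v W.a₄ < v x ∧ v x < 1 ∧ ∃ k : ℤ, v x = v (d ^ (2 * k))) := by
  rcases torsion_valuation v h₁ h₃ h₆ hv2 hva hb0 hvb hp h hP with h | ⟨h1, h2, k, hk⟩
  · left; exact h
  · right
    refine ⟨h1, h2, k, ?_⟩
    have hp0 : p ≠ 0 := by rintro rfl; simp at hp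
    rw [hd, ← zpow_natCast (v d) p, ← zpow_mul, mul_comm, zpow_mul, zpow_natCast] at hk
    rw [map_zpow₀]
    exact (pow_left_inj hp0).mp hk

end Fermat.Agent.S05.CompVal
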