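import Mathlib.AlgebraicGeometry.EllipticCurve.Affine.Point
import Mathlib.RingTheory.Valuation.Basic
import Fermat.Agent.S05.Ident

set_option autoImplicit false

/-!
Part 1: on a curve `y² = x³ + a x² + b x` with `a, b` integral for a valuation `v` with
`v 2 = 1`, a point of odd prime order `p` with `v p = 1` has integral `x`-coordinate.
-/

namespace Fermat.Agent.S05.Integral

open WeierstrassCurve WeierstrassCurve.Affine

variable {K : Type*} [Field K] {Γ₀ : Type*} [LinearOrderedCommGroupWithZero Γ₀]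
  (v : Valuation K Γ₀)

theorem val_natCast_le_one (n : ℕ) : v (n : K) ≤ 1 := by
  induction n with
  | zero => simp
  | succ n ih =>
    rw [Nat.cast_succ]
    exact v.map_add_le ih (by simp)

theorem val_ofNat_le_one (n : ℕ) [n.AtLeastTwo] : v (OfNat.ofNat n : K) ≤ 1 := by
  have := val_natCast_le_one v (OfNat.ofNat n)
  rwa [Nat.cast_ofNat] at this

/-- If `t` is a non-unit (`v t < 1`) and nonzero, then `v t ^ 2 < v t`. -/
theorem sq_lt_self {g : Γ₀} (h0 : g ≠ 0) (h1 : g < 1) : g ^ 2 < g := by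
  have hpos : 0 < g := zero_lt_iff.mpr h0
  calc g ^ 2 = g * g := sq g
    _ < g * 1 := by exact mul_lt_mul_of_pos_left h1 hpos
    _ = g := mul_one g

/-- Doubling estimate. -/
theorem dbl_estimate {a b x y x' : K} (ha : v a ≤ 1) (hb : v b ≤ 1) (h2 : v 2 = 1)
    (hx : 1 < v x) (hE : y ^ 2 = x ^ 3 + a * x ^ 2 + b * x)
    (hx' : x' = (x ^ 2 - b) ^ 2 / (4 * y ^ 2)) :
    y ≠ 0 ∧ x' ≠ 0 ∧ v (x'⁻¹ - 4 * x⁻¹) < v x⁻¹ := by
  have hx0 : x ≠ 0 := by
    rintro rfl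
    simp at hx
  have hvx0 : v x ≠ 0 := (v.ne_zero_iff).mpr hx0
  obtain ⟨t, ht⟩ : ∃ t : K, t = x⁻¹ := ⟨_, rfl⟩
  have ht0 : t ≠ 0 := by rw [ht]; exact inv_ne_zero hx0
  have hvt : v t < 1 := by
    rw [ht, map_inv₀]
    exact inv_lt_one_of_one_lt₀ hx
  have hvt0 : v t ≠ 0 := (v.ne_zero_iff).mpr ht0
  have hxt : x = t⁻¹ := by rw [ht, inv_inv]
  have hvt1 : v t ≤ 1 := hvt.le
  have h3 : v (3 : K) ≤ 1 := val_ofNat_le_one v 3
  have h4 : v (4 : K) = 1 := by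
    have : (4 : K) = 2 * 2 := by norm_num
    rw [this, map_mul, h2, one_mul]
  have h40 : (4 : K) ≠ 0 := by
    intro h
    rw [h, map_zero] at h4
    exact zero_ne_one h4
  -- `1 - b t²` is a unit
  have hbt : v (b * t ^ 2) < 1 := by
    rw [map_mul, map_pow]
    calc v b * v t ^ 2 ≤ 1 * v t ^ 2 := mul_le_mul' hb le_rfl
      _ = v t ^ 2 := one_mul _
      _ < v t := sq_lt_self hvt0 hvt
      _ < 1 := hvt
  have hu : v (1 - b * t ^ 2) = 1 := v.map_one_sub_of_lt hbt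
  have hu0 : 1 - b * t ^ 2 ≠ 0 := by
    intro h
    rw [h, map_zero] at hu
    exact zero_ne_one hu
  have hxb' : x ^ 2 - b = x ^ 2 * (1 - b * t ^ 2) := by
    rw [ht]; field_simp
  have hxb : x ^ 2 - b ≠ 0 := by
    rw [hxb']
    exact mul_ne_zero (pow_ne_zero 2 hx0) hu0
  -- `y ≠ 0`
  have hw : v (a * t + b * t ^ 2) < 1 := by
    refine v.map_add_lt ?_ ?_
    · rw [map_mul]
      calc v a * v t ≤ 1 * v t := mul_le_mul' ha le_rfl
        _ = v t := one_mul _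
        _ < 1 := hvt
    · exact hbt
  have hw1 : v (1 + (a * t + b * t ^ 2)) = 1 := v.map_one_add_of_lt hw
  have hy2 : y ^ 2 = x ^ 3 * (1 + (a * t + b * t ^ 2)) := by
    rw [hE, ht]; field_simp; ring
  have hy0 : y ≠ 0 := by
    intro hy
    rw [hy] at hy2
    have : v (x ^ 3 * (1 + (a * t + b * t ^ 2))) = 0 := by
      rw [← hy2]; simp
    rw [map_mul, hw1, mul_one, map_pow] at this
    exact hvx0 (pow_eq_zero_iff (by norm_num) |>.mp this)
  have hx'0 : x' ≠ 0 := by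
    rw [hx']
    exact div_ne_zero (pow_ne_zero 2 hxb) (mul_ne_zero h40 (pow_ne_zero 2 hy0))
  refine ⟨hy0, hx'0, ?_⟩
  have key1 : x'⁻¹ - 4 * x⁻¹ =
      4 * (a * x ^ 3 + 3 * b * x ^ 2 - b ^ 2) / (x * (x ^ 2 - b) ^ 2) := by
    rw [hx', inv_div, hE]
    field_simp
    ring
  have key2 : 4 * (a * x ^ 3 + 3 * b * x ^ 2 - b ^ 2) / (x * (x ^ 2 - b) ^ 2) =
      4 * t ^ 2 * (a + 3 * b * t - b ^ 2 * t ^ 3) / (1 - b * t ^ 2) ^ 2 := by
    rw [hxb']
    rw [ht] at hu0 ⊢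
    field_simp
  rw [key1, key2, ← ht, map_div₀, map_pow, hu, one_pow, div_one, map_mul, map_mul, h4, one_mul,
    map_pow]
  have hnum : v (a + 3 * b * t - b ^ 2 * t ^ 3) ≤ 1 := by
    refine v.map_sub_le (v.map_add_le ha ?_) ?_
    · rw [map_mul, map_mul]
      exact mul_le_one' (mul_le_one' h3 hb) hvt1
    · rw [map_mul, map_pow, map_pow]
      exact mul_le_one' (pow_le_one' hb 2) (pow_le_one' hvt1 3)
  calc v t ^ 2 * v (a + 3 * b * t - b ^ 2 * t ^ 3) ≤ v t ^ 2 * 1 := mul_le_mul' le_rfl hnum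
    _ = v t ^ 2 := mul_one _
    _ < v t := sq_lt_self hvt0 hvt

/-- Chord estimate: from `t_k ≡ c t` and `t_{k-1} ≡ c₋ t` deduce `t_{k+1} ≡ c₊ t` when
`c₊ + c₋ = 2 + 2 c`. -/
theorem step_estimate {a b x xk x₃ x₄ c cm cp : K} (ha : v a ≤ 1) (hb : v b ≤ 1) (h2 : v 2 = 1)
    (hx : 1 < v x) (hxk0 : xk ≠ 0) (hcv : v c ≤ 1) (hk : v (xk⁻¹ - c * x⁻¹) < v x⁻¹)
    (hm : v (x₄⁻¹ - cm * x⁻¹) < v x⁻¹) (hne : xk ≠ x)
    (hS : x₃ + x₄ = 2 * ((xk + x) * (xk * x + b) + 2 * a * xk * x) / (xk - x) ^ 2)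
    (hP : x₃ * x₄ = ((xk * x - b) / (xk - x)) ^ 2) (hc : cp + cm = 2 + 2 * c) :
    x₃ ≠ 0 ∧ v (x₃⁻¹ - cp * x⁻¹) < v x⁻¹ := by
  have hx0 : x ≠ 0 := by
    rintro rfl
    simp at hx
  obtain ⟨t, ht⟩ : ∃ t : K, t = x⁻¹ := ⟨_, rfl⟩
  obtain ⟨tk, htk⟩ : ∃ tk : K, tk = xk⁻¹ := ⟨_, rfl⟩
  have ht0 : t ≠ 0 := by rw [ht]; exact inv_ne_zero hx0
  have htk0 : tk ≠ 0 := by rw [htk]; exact inv_ne_zero hxk0
  have hvt : v t < 1 := by
    rw [ht, map_inv₀]
    exact inv_lt_one_of_one_lt₀ hx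
  have hvt0 : v t ≠ 0 := (v.ne_zero_iff).mpr ht0
  have hvt1 : v t ≤ 1 := hvt.le
  rw [← ht] at hm ⊢
  rw [← ht, ← htk] at hk
  -- `v tk ≤ v t`
  have hvtk : v tk ≤ v t := by
    have : tk = (tk - c * t) + c * t := by ring
    rw [this]
    refine v.map_add_le hk.le ?_
    rw [map_mul]
    calc v c * v t ≤ 1 * v t := mul_le_mul' hcv le_rfl
      _ = v t := one_mul _
  have hvtt : v tk * v t ≤ v t ^ 2 := by
    rw [sq]; exact mul_le_mul' hvtk le_rfl
  obtain ⟨e, he⟩ : ∃ e : K, e = b * tk * t := ⟨_, rfl⟩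
  have hve : v e ≤ v t ^ 2 := by
    rw [he, mul_assoc, map_mul, map_mul]
    calc v b * (v tk * v t) ≤ 1 * v t ^ 2 := mul_le_mul' hb hvtt
      _ = v t ^ 2 := one_mul _
  have hve1 : v e < 1 := lt_of_le_of_lt hve (lt_trans (sq_lt_self hvt0 hvt) hvt)
  have hu : v (1 - e) = 1 := v.map_one_sub_of_lt hve1
  have hu0 : 1 - e ≠ 0 := by
    intro h
    rw [h, map_zero] at hu
    exact zero_ne_one hu
  have hd : xk - x ≠ 0 := sub_ne_zero.mpr hne
  have hxkx : xk * x - b = xk * x * (1 - e) := by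
    rw [he, htk, ht]; field_simp
  have hxkx0 : xk * x - b ≠ 0 := by
    rw [hxkx]; exact mul_ne_zero (mul_ne_zero hxk0 hx0) hu0
  have hP0 : x₃ * x₄ ≠ 0 := by
    rw [hP]; exact pow_ne_zero 2 (div_ne_zero hxkx0 hd)
  have hx₃0 : x₃ ≠ 0 := left_ne_zero_of_mul hP0
  have hx₄0 : x₄ ≠ 0 := right_ne_zero_of_mul hP0
  refine ⟨hx₃0, ?_⟩
  have h34 : x₃⁻¹ + x₄⁻¹ =
      2 * ((xk + x) * (xk * x + b) + 2 * a * xk * x) / (xk * x - b) ^ 2 := by
    have e1 : x₃⁻¹ + x₄⁻¹ = (x₃ + x₄) / (x₃ * x₄) := by field_simp; ring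
    rw [e1, hS, hP]
    field_simp
  have key : x₃⁻¹ + x₄⁻¹ - 2 * (t + tk) =
      2 * ((t + tk) * (3 * e - e ^ 2) + 2 * a * tk * t) / (1 - e) ^ 2 := by
    rw [h34, hxkx]
    rw [he, htk, ht] at hu0 ⊢
    field_simp
    ring
  have hdecomp : x₃⁻¹ - cp * t =
      (x₃⁻¹ + x₄⁻¹ - 2 * (t + tk)) - (x₄⁻¹ - cm * t) + 2 * (tk - c * t) := by
    linear_combination (-t) * hc
  rw [hdecomp]
  refine v.map_add_lt (v.map_sub_lt ?_ hm) ?_
  · rw [key, map_div₀, map_pow, hu, one_pow, div_one, map_mul, h2, one_mul]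
    refine lt_of_le_of_lt ?_ (sq_lt_self hvt0 hvt)
    refine v.map_add_le ?_ ?_
    · rw [map_mul]
      have h1 : v (t + tk) ≤ 1 := v.map_add_le hvt1 (hvtk.trans hvt1)
      have h2' : v (3 * e - e ^ 2) ≤ v t ^ 2 := by
        refine v.map_sub_le ?_ ?_
        · rw [map_mul]
          calc v 3 * v e ≤ 1 * v t ^ 2 := mul_le_mul' (val_ofNat_le_one v 3) hve
            _ = v t ^ 2 := one_mul _
        · rw [map_pow, sq]
          calc v e * v e ≤ 1 * v t ^ 2 := mul_le_mul' hve1.le hve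
            _ = v t ^ 2 := one_mul _
      calc v (t + tk) * v (3 * e - e ^ 2) ≤ 1 * v t ^ 2 := mul_le_mul' h1 h2'
        _ = v t ^ 2 := one_mul _
    · rw [mul_assoc, mul_assoc, map_mul, map_mul, map_mul, h2, one_mul]
      calc v a * (v tk * v t) ≤ 1 * v t ^ 2 := mul_le_mul' ha hvtt
        _ = v t ^ 2 := one_mul _
  · rw [map_mul, h2, one_mul]
    exact hk

theorem nsmul_ne_zero_of_prime {G : Type*} [AddGroup G] {P : G} {p : ℕ} (hp : p.Prime)
    (hP : P ≠ 0) (hpP : p • P = 0) {j : ℕ} (hj0 : 0 < j) (hjp : j < p) : j • P ≠ 0 := by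
  intro h
  have h1 : addOrderOf P ∣ p := addOrderOf_dvd_of_nsmul_eq_zero hpP
  have h2 : addOrderOf P ∣ j := addOrderOf_dvd_of_nsmul_eq_zero h
  rcases (Nat.dvd_prime hp).mp h1 with h3 | h3
  · exact hP (AddMonoid.addOrderOf_eq_one_iff.mp h3)
  · rw [h3] at h2
    exact absurd (Nat.le_of_dvd hj0 h2) (not_le.mpr hjp)

theorem lt_one_of_mul_lt {g a : Γ₀} (h : a * g < g) : a < 1 := by
  by_contra hcon
  have h1 : 1 ≤ a := not_lt.mp hcon
  have h2 : 1 * g ≤ a * g := mul_le_mul' h1 le_rfl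
  rw [one_mul] at h2
  exact absurd h (not_lt.mpr h2)

variable [DecidableEq K]

/-- **Part 1.** Points of odd prime order `p` (with `v p = 1`, `v 2 = 1`) on
`y² = x³ + a x² + b x` with `a, b` integral have integral `x`-coordinate. -/
theorem torsion_integral {W : WeierstrassCurve K} (h₁ : W.a₁ = 0) (h₃ : W.a₃ = 0) (h₆ : W.a₆ = 0)
    (ha₂ : v W.a₂ ≤ 1) (ha₄ : v W.a₄ ≤ 1) (h2 : v 2 = 1) {p : ℕ} (hp : p.Prime) (hp2 : p ≠ 2)
    (hvp : v (p : K) = 1) :
    ∀ Q : W.toAffine.Point, p • Q = 0 → ∀ (x y : K) (h : W.toAffine.Nonsingular x y),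
      Q = Point.some x y h → v x ≤ 1 := by
  intro Q hQ x y h hQe
  subst hQe
  by_contra hcon
  have hx : 1 < v x := not_le.mp hcon
  have hx0 : x ≠ 0 := by
    rintro rfl
    simp at hx
  have hvt0 : v x⁻¹ ≠ 0 := (v.ne_zero_iff).mpr (inv_ne_zero hx0)
  have hvtpos : 0 < v x⁻¹ := zero_lt_iff.mpr hvt0
  have h20 : (2 : K) ≠ 0 := by
    intro h'
    rw [h', map_zero] at h2
    exact zero_ne_one h2
  have hp3 : 3 ≤ p := by
    have := hp.two_le
    omega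
  have hP0 : Point.some x y h ≠ 0 := Point.some_ne_zero h
  have hmult : ∀ j, 0 < j → j < p → j • Point.some x y h ≠ 0 := fun j hj0 hjp =>
    nsmul_ne_zero_of_prime hp hP0 hQ hj0 hjp
  have E := (Ident.equation_iff_leg h₁ h₃ h₆ x y).mp h.1
  -- the inductive statement
  have G1 : ∃ (xk yk : K) (hk : W.toAffine.Nonsingular xk yk),
      1 • Point.some x y h = Point.some xk yk hk ∧ xk ≠ 0 ∧
        v (xk⁻¹ - ((1 : ℕ) : K) ^ 2 * x⁻¹) < v x⁻¹ := by
    refine ⟨x, y, h, one_nsmul _, hx0, ?_⟩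
    have : x⁻¹ - ((1 : ℕ) : K) ^ 2 * x⁻¹ = 0 := by push_cast; ring
    rw [this, map_zero]
    exact hvtpos
  have G2 : ∃ (xk yk : K) (hk : W.toAffine.Nonsingular xk yk),
      2 • Point.some x y h = Point.some xk yk hk ∧ xk ≠ 0 ∧
        v (xk⁻¹ - ((2 : ℕ) : K) ^ 2 * x⁻¹) < v x⁻¹ := by
    have hy0 : y ≠ 0 := (dbl_estimate v ha₂ ha₄ h2 hx E rfl).1
    obtain ⟨x', y', hP', hadd, hx'⟩ := (Ident.add_self_leg h₁ h₃ h₆ h20 h).2 hy0
    obtain ⟨-, hx'0, hv⟩ := dbl_estimate v ha₂ ha₄ h2 hx E hx'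
    refine ⟨x', y', hP', ?_, hx'0, ?_⟩
    · rw [two_nsmul, hadd]
    · have : ((2 : ℕ) : K) ^ 2 = 4 := by push_cast; norm_num
      rw [this]
      exact hv
  have step : ∀ k : ℕ, 1 ≤ k → k + 2 < p →
      (∃ (xk yk : K) (hk : W.toAffine.Nonsingular xk yk),
        k • Point.some x y h = Point.some xk yk hk ∧ xk ≠ 0 ∧
          v (xk⁻¹ - ((k : ℕ) : K) ^ 2 * x⁻¹) < v x⁻¹) →
      (∃ (xk yk : K) (hk : W.toAffine.Nonsingular xk yk),
        (k + 1) • Point.some x y h = Point.some xk yk hk ∧ xk ≠ 0 ∧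
          v (xk⁻¹ - ((k + 1 : ℕ) : K) ^ 2 * x⁻¹) < v x⁻¹) →
      (∃ (xk yk : K) (hk : W.toAffine.Nonsingular xk yk),
        (k + 2) • Point.some x y h = Point.some xk yk hk ∧ xk ≠ 0 ∧
          v (xk⁻¹ - ((k + 2 : ℕ) : K) ^ 2 * x⁻¹) < v x⁻¹) := by
    rintro k hk1 hkp ⟨xl, yl, hl, hlP, hxl0, hvl⟩ ⟨xm, ym, hm, hmP, hxm0, hvm⟩
    have hne : xm ≠ x := by
      intro hxe
      rcases (Point.X_eq_iff (h₁ := hm) (h₂ := h)).mp hxe with hc | hc
      · -- (k+1) P = P, so k P = 0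
        have : k • Point.some x y h = 0 := by
          have e1 : (k + 1) • Point.some x y h = k • Point.some x y h + Point.some x y h :=
            succ_nsmul _ _
          rw [hmP, hc] at e1
          have e1' := e1.symm
          simpa using e1'
        exact hmult k (by omega) (by omega) this
      · -- (k+1) P = -P, so (k+2) P = 0
        have : (k + 2) • Point.some x y h = 0 := by
          have e1 : (k + 2) • Point.some x y h = (k + 1) • Point.some x y h + Point.some x y h :=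
            succ_nsmul _ _
          rw [e1, hmP, hc, neg_add_cancel]
        exact hmult (k + 2) (by omega) hkp this
    obtain ⟨x₃, y₃, hP₃, x₄, y₄, hP₄, hadd, hsub, -, -, hS, hPi⟩ :=
      Ident.add_sub_of_X_ne h₁ h₃ h₆ hm h hne
    have e3 : (k + 2) • Point.some x y h = Point.some x₃ y₃ hP₃ := by
      have e1 : (k + 2) • Point.some x y h = (k + 1) • Point.some x y h + Point.some x y h :=
        succ_nsmul _ _
      rw [e1, hmP, hadd]
    have e4 : xl = x₄ := by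
      have e1 : (k + 1) • Point.some x y h = k • Point.some x y h + Point.some x y h :=
        succ_nsmul _ _
      have e2 : k • Point.some x y h = Point.some x₄ y₄ hP₄ := by
        rw [← hsub, ← hmP, e1, add_sub_cancel_right]
      rw [hlP] at e2
      exact (Point.some.inj e2).1
    have hcv : v (((k + 1 : ℕ) : K) ^ 2) ≤ 1 := by
      rw [map_pow]; exact pow_le_one' (val_natCast_le_one v _) 2
    have hc : ((k + 2 : ℕ) : K) ^ 2 + ((k : ℕ) : K) ^ 2 = 2 + 2 * ((k + 1 : ℕ) : K) ^ 2 := by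
      push_cast; ring
    rw [e4] at hvl
    obtain ⟨hx₃0, hv₃⟩ := step_estimate v ha₂ ha₄ h2 hx hxm0 hcv hvm hvl hne hS hPi hc
    exact ⟨x₃, y₃, hP₃, e3, hx₃0, hv₃⟩
  have all : ∀ k : ℕ, 1 ≤ k → k + 1 < p →
      (∃ (xk yk : K) (hk : W.toAffine.Nonsingular xk yk),
        k • Point.some x y h = Point.some xk yk hk ∧ xk ≠ 0 ∧
          v (xk⁻¹ - ((k : ℕ) : K) ^ 2 * x⁻¹) < v x⁻¹) ∧
      (∃ (xk yk : K) (hk : W.toAffine.Nonsingular xk yk),
        (k + 1) • Point.some x y h = Point.some xk yk hk ∧ xk ≠ 0 ∧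
          v (xk⁻¹ - ((k + 1 : ℕ) : K) ^ 2 * x⁻¹) < v x⁻¹) := by
    intro k hk1
    induction k, hk1 using Nat.le_induction with
    | base => intro _; exact ⟨G1, G2⟩
    | succ k hk1 ih =>
      intro hkp
      obtain ⟨ihk, ihk1⟩ := ih (by omega)
      exact ⟨ihk1, step k hk1 hkp ihk ihk1⟩
  -- conclusions at `p - 1`, `p - 2` and `2`
  obtain ⟨⟨xa, ya, ha, haP, -, hva⟩, ⟨xb, yb, hb, hbP, -, hvb⟩⟩ := all (p - 2) (by omega) (by omega)
  have hp21 : p - 2 + 1 = p - 1 := by omega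
  rw [hp21] at hbP hvb
  obtain ⟨x₂, y₂, h₂, h₂P, -, hv₂⟩ := G2
  -- `(p-1) P = -P`
  have eb : xb = x := by
    have e1 : p • Point.some x y h = (p - 1) • Point.some x y h + Point.some x y h := by
      have : p = p - 1 + 1 := by omega
      conv_lhs => rw [this]
      exact succ_nsmul _ _
    rw [hQ, hbP] at e1
    have e2 : Point.some xb yb hb = -Point.some x y h := eq_neg_of_add_eq_zero_left e1.symm
    rw [Point.neg_some] at e2
    exact (Point.some.inj e2).1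
  -- `(p-2) P = -(2 P)`
  have ea : xa = x₂ := by
    have e1 : p • Point.some x y h = (p - 2) • Point.some x y h + 2 • Point.some x y h := by
      have : p = p - 2 + 2 := by omega
      conv_lhs => rw [this]
      exact add_nsmul _ _ _
    rw [hQ, haP, h₂P] at e1
    have e2 : Point.some xa ya ha = -Point.some x₂ y₂ h₂ := eq_neg_of_add_eq_zero_left e1.symm
    rw [Point.neg_some] at e2
    exact (Point.some.inj e2).1
  have c1 : ((p - 1 : ℕ) : K) = (p : K) - 1 := by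
    rw [Nat.cast_sub (by omega)]; simp
  have c2 : ((p - 2 : ℕ) : K) = (p : K) - 2 := by
    rw [Nat.cast_sub (by omega)]; simp
  -- `v (p - 2) < 1`
  have r1 : v ((p : K) - 2) < 1 := by
    rw [eb, c1] at hvb
    have : x⁻¹ - ((p : K) - 1) ^ 2 * x⁻¹ = (-(p : K) * ((p : K) - 2)) * x⁻¹ := by ring
    rw [this, map_mul] at hvb
    have h' := lt_one_of_mul_lt hvb
    rwa [map_mul, Valuation.map_neg, hvp, one_mul] at h'
  -- `v (p - 4) < 1`
  have r2 : v ((p : K) - 4) < 1 := by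
    rw [ea, c2] at hva
    have h4 : ((2 : ℕ) : K) ^ 2 = 4 := by push_cast; norm_num
    rw [h4] at hv₂
    have hdiff : v ((x₂⁻¹ - 4 * x⁻¹) - (x₂⁻¹ - ((p : K) - 2) ^ 2 * x⁻¹)) < v x⁻¹ :=
      v.map_sub_lt hv₂ hva
    have : (x₂⁻¹ - 4 * x⁻¹) - (x₂⁻¹ - ((p : K) - 2) ^ 2 * x⁻¹) =
        ((p : K) * ((p : K) - 4)) * x⁻¹ := by ring
    rw [this, map_mul] at hdiff
    have h' := lt_one_of_mul_lt hdiff
    rwa [map_mul, hvp, one_mul] at h'
  have r3 : v (2 : K) < 1 := by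
    have : (2 : K) = ((p : K) - 2) - ((p : K) - 4) := by ring
    rw [this]
    exact v.map_sub_lt r1 r2
  rw [h2] at r3
  exact lt_irrefl _ r3

end Fermat.Agent.S05.Integral
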