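import Fermat.Agent.S05.SameRed

set_option autoImplicit false

namespace Fermat.Agent.S05.NearNode

open WeierstrassCurve WeierstrassCurve.Affine
open Fermat.Agent.S05.SameRed

variable {K : Type*} [Field K] {Γ₀ : Type*} [LinearOrderedCommGroupWithZero Γ₀]
  (v : Valuation K Γ₀) [DecidableEq K]

/-- If the slope of the line through `P₁` and `-P₂` is non-integral, then `P₁ - P₂` is an affine
point with non-integral `x`-coordinate. -/
theorem sub_of_slope_nonintegral (W : Affine K) (h₁ : v W.a₁ ≤ 1) (h₂ : v W.a₂ ≤ 1)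
    {x1 y1 x2 y2 : K} (hP1 : W.Nonsingular x1 y1) (hP2 : W.Nonsingular x2 y2)
    (hx1 : v x1 ≤ 1) (hx2 : v x2 ≤ 1) (hxx : x1 ≠ x2)
    (hs : v (x1 - x2) < v (y1 - W.negY x2 y2)) :
    ∃ (x3 y3 : K) (h3 : W.Nonsingular x3 y3),
      Point.some x1 y1 hP1 - Point.some x2 y2 hP2 = Point.some x3 y3 h3 ∧ 1 < v x3 := by
  have hxy : ¬(x1 = x2 ∧ y1 = W.negY x2 (W.negY x2 y2)) := fun h => hxx h.1
  refine ⟨_, _, nonsingular_add hP1 ((nonsingular_neg ..).mpr hP2) hxy, ?_, ?_⟩
  · rw [sub_eq_add_neg, Point.neg_some, Point.add_some hxy]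
  · apply one_lt_val_addX v W h₁ h₂ hx1 hx2
    rw [slope_of_X_ne hxx, map_div₀]
    have hD0' : 0 < v (x1 - x2) := by
      rw [pos_iff_ne_zero]; exact (v.ne_zero_iff).mpr (sub_ne_zero.mpr hxx)
    rw [lt_div_iff₀ hD0', one_mul]
    exact hs

section Map

variable {R S : Type*} [CommRing R] [CommRing S] [Algebra R S] [Algebra R K] [Algebra S K]
  [IsScalarTower R S K]

/-- Final step of PART 3.  Legendre form `y² = x (x - α) (x + β)` with `v β = 1`, `v 2 = 1`.
Let `(x, y)` be an `n`-torsion point near the node: `v α < v x < 1`, such that `x` is a unit times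
an `f`-fixed element `δ`.  If all `n`-torsion points are integral (Part 1), then `f` fixes the
point. -/
theorem map_eq_self_of_near_node {n : ℕ} (W' : Affine R) (f : K →ₐ[S] K)
    (hf : ∀ x, v x ≤ 1 → v (f x - x) < 1)
    {α β : K} (ha₁ : (W'⁄K).a₁ = 0) (ha₃ : (W'⁄K).a₃ = 0) (ha₆ : (W'⁄K).a₆ = 0)
    (ha₂ : (W'⁄K).a₂ = β - α) (ha₄ : (W'⁄K).a₄ = -(α * β))
    (h2 : v 2 = 1) (hβ : v β = 1)
    (hint : ∀ Q : (W'⁄K).Point, n • Q = 0 → ∀ (x y : K) (h : (W'⁄K).Nonsingular x y),
      Q = Point.some x y h → v x ≤ 1)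
    {x y : K} (h : (W'⁄K).Nonsingular x y) (hn : n • Point.some x y h = 0)
    {δ : K} (hδ : f δ = δ) (hxδ : v x = v δ) (hαx : v α < v x) (hx1 : v x < 1) :
    Point.map f (Point.some x y h) = Point.some x y h := by
  have hx0 : x ≠ 0 := by
    intro h0; rw [h0, map_zero] at hαx; exact absurd hαx (not_lt.mpr zero_le)
  have hvx0 : 0 < v x := lt_of_le_of_lt zero_le hαx
  have hδ0 : δ ≠ 0 := by
    intro h0; rw [h0, map_zero] at hxδ; rw [hxδ] at hvx0; exact lt_irrefl _ hvx0
  have hα1 : v α ≤ 1 := (lt_trans hαx hx1).le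
  have h₁ : v (W'⁄K).a₁ ≤ 1 := by rw [ha₁, map_zero]; exact zero_le_one
  have h₂ : v (W'⁄K).a₂ ≤ 1 := by rw [ha₂]; exact v.map_sub_le hβ.le hα1
  have hfx1 : v (f x) ≤ 1 := by
    have : f x = (f x - x) + x := by ring
    rw [this]; exact v.map_add_le (hf x hx1.le).le hx1.le
  -- the unit `u = x / δ`
  have hu : v (x / δ) = 1 := by
    rw [map_div₀, hxδ, div_self]
    rw [← hxδ]; exact hvx0.ne'
  have hfxx : v (f x - x) < v x := by
    have e : f x - x = δ * (f (x / δ) - x / δ) := by
      rw [map_div₀, hδ]; field_simp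
    rw [e, map_mul, hxδ]
    calc v δ * v (f (x / δ) - x / δ) < v δ * 1 := by
          apply (mul_lt_mul_iff_right₀ (by rw [← hxδ]; exact hvx0)).mpr
          exact hf _ hu.le
      _ = v δ := mul_one _
  -- the unit `γ = y / x`
  have hE := ((W'⁄K).equation_iff x y).mp h.1
  rw [ha₁, ha₃, ha₆, ha₂, ha₄] at hE
  have hγ2 : (y / x) ^ 2 = (1 - α / x) * (x + β) := by
    field_simp
    linear_combination hE
  have hγ : v (y / x) = 1 := by
    have h1 : v (1 - α / x) = 1 := by
      apply v.map_one_sub_of_lt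
      rw [map_div₀, div_lt_one₀ hvx0]; exact hαx
    have h2' : v (x + β) = 1 := by
      rw [v.map_add_eq_of_lt_right (by rw [hβ]; exact hx1), hβ]
    have : v (y / x) ^ 2 = 1 := by
      rw [← map_pow, hγ2, map_mul, h1, h2', one_mul]
    exact (pow_eq_one_iff.mp this).resolve_right (by norm_num)
  have hfγ : v (f (y / x) - y / x) < 1 := hf _ hγ.le
  have hy : y = (y / x) * x := by field_simp
  have hfy : f y = f (y / x) * f x := by rw [← map_mul, ← hy]
  have hfP : (W'⁄K).Nonsingular (f x) (f y) := (W'.baseChange_nonsingular f.injective ..).mpr h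
  have hxeq : f x = x := by
    by_contra hne
    have hs : v (f x - x) < v (f y - (W'⁄K).negY x y) := by
      have e : f y - (W'⁄K).negY x y =
          (f (y / x) + y / x) * x + f (y / x) * (f x - x) := by
        simp only [negY, ha₁, ha₃]
        rw [hfy]
        field_simp
        ring
      have hsum : v (f (y / x) + y / x) = 1 := by
        have e2 : f (y / x) + y / x = 2 * (y / x) + (f (y / x) - y / x) := by ring
        have h2γ : v (2 * (y / x)) = 1 := by rw [map_mul, h2, hγ, one_mul]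
        rw [e2, v.map_add_eq_of_lt_left (by rw [h2γ]; exact hfγ), h2γ]
      have hfγ1 : v (f (y / x)) ≤ 1 := by
        have : f (y / x) = (f (y / x) - y / x) + y / x := by ring
        rw [this]; exact v.map_add_le hfγ.le hγ.le
      have hA : v ((f (y / x) + y / x) * x) = v x := by rw [map_mul, hsum, one_mul]
      have hB : v (f (y / x) * (f x - x)) < v x := by
        rw [map_mul]
        calc v (f (y / x)) * v (f x - x) ≤ 1 * v (f x - x) := by gcongr
          _ = v (f x - x) := one_mul _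
          _ < v x := hfxx
      rw [e, v.map_add_eq_of_lt_left (by rw [hA]; exact hB), hA]
      exact hfxx
    obtain ⟨x3, y3, h3, hsub, hx3⟩ :=
      sub_of_slope_nonintegral v (W'⁄K) h₁ h₂ hfP h hfx1 hx1.le hne hs
    have hQ : n • (Point.map f (Point.some x y h) - Point.some x y h) = 0 := by
      rw [smul_sub, ← map_nsmul, hn, map_zero, sub_zero]
    rw [Point.map_some, hsub] at hQ
    exact absurd (hint _ hQ x3 y3 h3 rfl) (not_le.mpr hx3)
  have hyeq : f y = y := by
    have hγeq : f (y / x) = y / x ∨ f (y / x) = -(y / x) := by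
      have hsq : f (y / x) ^ 2 = (y / x) ^ 2 := by
        have hE' := ((W'⁄K).equation_iff (f x) (f y)).mp hfP.1
        rw [ha₁, ha₃, ha₆, ha₂, ha₄, hxeq] at hE'
        have hy2 : f y ^ 2 = y ^ 2 := by linear_combination hE' - hE
        rw [map_div₀, hxeq, div_pow, div_pow, hy2]
      exact sq_eq_sq_iff_eq_or_eq_neg.mp hsq
    rcases hγeq with hg | hg
    · rw [hfy, hg, hxeq]; exact hy.symm
    · exfalso
      have : v (f (y / x) - y / x) = 1 := by
        have e : f (y / x) - y / x = -(2 * (y / x)) := by rw [hg]; ring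
        rw [e, v.map_neg, map_mul, h2, hγ, one_mul]
      rw [this] at hfγ
      exact lt_irrefl _ hfγ
  rw [Point.map_some, Point.some.injEq]
  exact ⟨hxeq, hyeq⟩

end Map

end Fermat.Agent.S05.NearNode
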