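import Mathlib
import Fermat.Agent.S05.Shell
import Fermat.Agent.S05.Comp3

set_option autoImplicit false

/-!
Part 3 of S05 in the exact shape consumed by `Fermat.Agent.S05.Final.legStatement_of_parts`.
-/

namespace Fermat.Agent.S05.Part3

open WeierstrassCurve WeierstrassCurve.Affine
open Fermat.Agent.S05.Shell

local notation "Kbar" => AlgebraicClosure ℚ

theorem hP3 : ∀ (A : ValuationSubring Kbar) (α β : ℤ) (p : ℕ), p.Prime → p ≠ 2 → α ≠ 0 →
    A.valuation (2 : Kbar) = 1 → A.valuation (p : Kbar) = 1 →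
    A.valuation (β : Kbar) = 1 → A.valuation ((α : Kbar) + β) = 1 →
    A.valuation (α : Kbar) < 1 →
    ∀ (x y : Kbar) (h : ((Leg (α : ℚ) (β : ℚ))⁄Kbar).Nonsingular x y),
      p • Point.some x y h = 0 → A.valuation x < 1 →
        A.valuation (α : Kbar) < A.valuation x ∧
          ∃ k : ℤ, A.valuation x ^ p = A.valuation (α : Kbar) ^ (2 * k) := by
  intro A α β p hp hp2 hα0 v2 _ vβ _ vα x y h hQ hx
  have hα0' : (α : Kbar) ≠ 0 := Int.cast_ne_zero.mpr hα0
  exact Comp3.part3 A.valuation (leg_a₁ α β) (leg_a₃ α β) (leg_a₆ α β) (leg_a₂ α β)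
    (leg_a₄ α β) v2 vβ vα hα0' (hp.odd_of_ne_two hp2) h hQ hx

end Fermat.Agent.S05.Part3
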