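import Mathlib
import Fermat.Agent.S05.Ident

set_option autoImplicit false

/-!
Point-level half of Part 3 for `S05`: heights of the multiples of a torsion point near the node
of `Y² = X (X - α) (X + β)`, from an abstract "unsigned component law" on `x`-coordinates.
-/

namespace Fermat.Agent.S05.PointSeq

open WeierstrassCurve WeierstrassCurve.Affine

section Abstract

variable {Γ₀ : Type*} [LinearOrderedCommGroupWithZero Γ₀]

/-- The unsigned component law: the pair `(hp, hm)` is `(fold (h1 h2), mr h1 h2)` in some order. -/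
def Rel (ν h1 h2 hp hm : Γ₀) : Prop :=
  (hp = (if ν ≤ h1 * h2 then h1 * h2 else ν * ν / (h1 * h2)) ∧ hm = min (h1 / h2) (h2 / h1)) ∨
  (hm = (if ν ≤ h1 * h2 then h1 * h2 else ν * ν / (h1 * h2)) ∧ hp = min (h1 / h2) (h2 / h1))

theorem mono_mul {j ν : Γ₀} (hj : j ≠ 0) (hν : ν ≠ 0) (a b c d : ℤ) :
    j ^ a * ν ^ b * (j ^ c * ν ^ d) = j ^ (a + c) * ν ^ (b + d) := by
  rw [zpow_add₀ hj, zpow_add₀ hν, mul_mul_mul_comm]

theorem mono_inv {j ν : Γ₀} (a b : ℤ) : (j ^ a * ν ^ b)⁻¹ = j ^ (-a) * ν ^ (-b) := by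
  rw [mul_inv, zpow_neg, zpow_neg]

/-- `c` is `j ^ m` times an even power of `ν`. -/
def D (ν j : Γ₀) (m : ℤ) (c : Γ₀) : Prop := ∃ k : ℤ, c = j ^ m * ν ^ (2 * k)

/-- `c` is `j ^ (± m)` times an even power of `ν`. -/
def T (ν j : Γ₀) (m : ℤ) (c : Γ₀) : Prop := D ν j m c ∨ D ν j (-m) c

theorem D_mul {ν j : Γ₀} (hj : j ≠ 0) (hν : ν ≠ 0) {m : ℤ} {c : Γ₀} (h : D ν j m c) :
    D ν j (m + 1) (c * j) := by
  obtain ⟨k, rfl⟩ := h
  refine ⟨k, ?_⟩
  have := mono_mul hj hν m (2 * k) 1 0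
  simpa using this

theorem D_fold {ν j : Γ₀} (hj : j ≠ 0) (hν : ν ≠ 0) {m : ℤ} {c : Γ₀} (h : D ν j m c) :
    D ν j (-(m + 1)) (ν * ν / (c * j)) := by
  obtain ⟨k, rfl⟩ := h
  refine ⟨1 - k, ?_⟩
  have h1 : j ^ m * ν ^ (2 * k) * j = j ^ (m + 1) * ν ^ (2 * k) := by
    simpa using mono_mul hj hν m (2 * k) 1 0
  have h2 : ν * ν = j ^ (0 : ℤ) * ν ^ (2 : ℤ) := by
    rw [zpow_zero, one_mul, zpow_ofNat, pow_two]
  have e1 : (0 : ℤ) + -(m + 1) = -(m + 1) := by ring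
  have e2 : (2 : ℤ) + -(2 * k) = 2 * (1 - k) := by ring
  rw [h1, div_eq_mul_inv, mono_inv, h2, mono_mul hj hν, e1, e2]

theorem D_div {ν j : Γ₀} (hj : j ≠ 0) (hν : ν ≠ 0) {m : ℤ} {c : Γ₀} (h : D ν j m c) :
    D ν j (m - 1) (c / j) := by
  obtain ⟨k, rfl⟩ := h
  refine ⟨k, ?_⟩
  have h2 : j⁻¹ = j ^ (-1 : ℤ) * ν ^ (0 : ℤ) := by simp
  have e1 : m + -1 = m - 1 := by ring
  rw [div_eq_mul_inv, h2, mono_mul hj hν, e1, add_zero]

theorem D_inv_div {ν j : Γ₀} (hj : j ≠ 0) (hν : ν ≠ 0) {m : ℤ} {c : Γ₀} (h : D ν j m c) :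
    D ν j (-(m - 1)) (j / c) := by
  obtain ⟨k, rfl⟩ := h
  refine ⟨-k, ?_⟩
  have e1 : (1 : ℤ) + -m = -(m - 1) := by ring
  have e2 : (0 : ℤ) + -(2 * k) = 2 * -k := by ring
  calc j / (j ^ m * ν ^ (2 * k))
      = j ^ (1 : ℤ) * ν ^ (0 : ℤ) * (j ^ (-m) * ν ^ (-(2 * k))) := by
        rw [div_eq_mul_inv, mono_inv, zpow_one, zpow_zero, mul_one]
    _ = j ^ (-(m - 1)) * ν ^ (2 * -k) := by rw [mono_mul hj hν, e1, e2]

theorem D_transfer {ν j : Γ₀} (hν : ν ≠ 0) {a b : ℤ} {c c' : Γ₀}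
    (ha : D ν j a c) (hb : D ν j b c) :
    (D ν j b c' → D ν j a c') ∧ (D ν j (-b) c' → D ν j (-a) c') := by
  obtain ⟨k₁, h₁⟩ := ha
  obtain ⟨k₂, h₂⟩ := hb
  have e : j ^ b = j ^ a * ν ^ (2 * (k₁ - k₂)) := by
    have hne : ν ^ (2 * k₂) ≠ 0 := zpow_ne_zero _ hν
    have h3 : j ^ b * ν ^ (2 * k₂) = j ^ a * ν ^ (2 * k₁) := by rw [← h₁, ← h₂]
    have h4 : j ^ b = j ^ a * ν ^ (2 * k₁) * (ν ^ (2 * k₂))⁻¹ := by
      rw [← h3, mul_assoc, mul_inv_cancel₀ hne, mul_one]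
    have e3 : 2 * k₁ + -(2 * k₂) = 2 * (k₁ - k₂) := by ring
    rw [h4, mul_assoc, ← zpow_neg, ← zpow_add₀ hν, e3]
  constructor
  · rintro ⟨k, rfl⟩
    refine ⟨k₁ - k₂ + k, ?_⟩
    have e3 : 2 * (k₁ - k₂) + 2 * k = 2 * (k₁ - k₂ + k) := by ring
    rw [e, mul_assoc, ← zpow_add₀ hν, e3]
  · rintro ⟨k, rfl⟩
    refine ⟨-(k₁ - k₂) + k, ?_⟩
    have e3 : -(2 * (k₁ - k₂)) + 2 * k = 2 * (-(k₁ - k₂) + k) := by ring
    rw [zpow_neg, e, mul_inv, ← zpow_neg, ← zpow_neg, mul_assoc, ← zpow_add₀ hν, e3]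

theorem T_neg {ν j : Γ₀} {m : ℤ} {c : Γ₀} : T ν j (-m) c ↔ T ν j m c := by
  unfold T
  rw [neg_neg]
  exact or_comm

theorem T_transfer {ν j : Γ₀} (hν : ν ≠ 0) {a b : ℤ} {c c' : Γ₀}
    (ha : T ν j a c) (hb : T ν j b c) (hc : T ν j b c') : T ν j a c' := by
  rcases ha with ha | ha <;> rcases hb with hb | hb
  · obtain ⟨f, g⟩ := D_transfer hν ha hb (c' := c')
    rcases hc with hc | hc
    · exact Or.inl (f hc)
    · exact Or.inr (g hc)
  · obtain ⟨f, g⟩ := D_transfer hν ha hb (c' := c')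
    rcases hc with hc | hc
    · exact Or.inr (g (by rwa [neg_neg]))
    · exact Or.inl (f hc)
  · obtain ⟨f, g⟩ := D_transfer hν ha hb (c' := c')
    rcases hc with hc | hc
    · exact Or.inr (f hc)
    · have := g hc
      rw [neg_neg] at this
      exact Or.inl this
  · obtain ⟨f, g⟩ := D_transfer hν ha hb (c' := c')
    rcases hc with hc | hc
    · have := g (by rwa [neg_neg])
      rw [neg_neg] at this
      exact Or.inl this
    · exact Or.inr (f hc)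

theorem T_fold {ν j : Γ₀} (hj : j ≠ 0) (hν : ν ≠ 0) {m : ℤ} {c : Γ₀} (h : D ν j m c) :
    T ν j (m + 1) (if ν ≤ c * j then c * j else ν * ν / (c * j)) := by
  split_ifs
  · exact Or.inl (D_mul hj hν h)
  · exact Or.inr (D_fold hj hν h)

theorem T_mr {ν j : Γ₀} (hj : j ≠ 0) (hν : ν ≠ 0) {m : ℤ} {c : Γ₀} (h : D ν j m c) :
    T ν j (m - 1) (min (c / j) (j / c)) := by
  rcases min_choice (c / j) (j / c) with e | e <;> rw [e]
  · exact Or.inl (D_div hj hν h)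
  · exact Or.inr (D_inv_div hj hν h)

theorem T_step {ν j : Γ₀} (hj : j ≠ 0) (hν : ν ≠ 0) {n : ℤ} {hn hp hm : Γ₀}
    (h1 : T ν j n hn) (h0 : T ν j (n - 1) hm) (hR : Rel ν hn j hp hm) : T ν j (n + 1) hp := by
  rcases h1 with h1 | h1
  · have F := T_fold hj hν h1
    have M := T_mr hj hν h1
    rcases hR with ⟨e1, e2⟩ | ⟨e1, e2⟩
    · rw [e1]; exact F
    · rw [e2]
      rw [e1] at h0
      exact T_transfer hν F h0 M
  · have F := T_fold hj hν h1
    have M := T_mr hj hν h1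
    have eF : -n + 1 = -(n - 1) := by ring
    have eM : -n - 1 = -(n + 1) := by ring
    rw [eF, T_neg] at F
    rw [eM, T_neg] at M
    rcases hR with ⟨e1, e2⟩ | ⟨e1, e2⟩
    · rw [e1]
      rw [e2] at h0
      exact T_transfer hν M h0 F
    · rw [e2]; exact M

/-- The sequence law: `h n` is `j ^ (± n)` times an even power of `ν`. -/
theorem seq_mem {ν j : Γ₀} (hj : j ≠ 0) (hν : ν ≠ 0) (h : ℕ → Γ₀) (h0 : h 0 = 1) (h1 : h 1 = j)
    (hR : ∀ n, 1 ≤ n → Rel ν (h n) j (h (n + 1)) (h (n - 1))) :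
    ∀ n : ℕ, T ν j n (h n) := by
  have key : ∀ n : ℕ, T ν j n (h n) ∧ T ν j ((n + 1 : ℕ) : ℤ) (h (n + 1)) := by
    intro n
    induction n with
    | zero =>
      refine ⟨Or.inl ⟨0, by simp [h0]⟩, Or.inl ⟨0, by simp [h1]⟩⟩
    | succ n ih =>
      refine ⟨ih.2, ?_⟩
      have e : ((n + 1 : ℕ) : ℤ) - 1 = (n : ℤ) := by push_cast; ring
      have hR' := hR (n + 1) (by omega)
      rw [Nat.add_sub_cancel] at hR'
      have := T_step hj hν (n := ((n + 1 : ℕ) : ℤ)) ih.2 (by rw [e]; exact ih.1) hR'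
      have e' : ((n + 1 : ℕ) : ℤ) + 1 = ((n + 1 + 1 : ℕ) : ℤ) := by push_cast; ring
      rw [e'] at this
      exact this
  exact fun n => (key n).1

theorem exists_pow_eq_of_T_one {ν j : Γ₀} (hj : j ≠ 0) {p : ℕ}
    (h : T ν j p 1) : ∃ k : ℤ, j ^ p = ν ^ (2 * k) := by
  rcases h with ⟨k, hk⟩ | ⟨k, hk⟩
  · refine ⟨-k, ?_⟩
    have h3 : j ^ (p : ℤ) = (ν ^ (2 * k))⁻¹ := eq_inv_of_mul_eq_one_left hk.symm
    have e : -(2 * k) = 2 * -k := by ring
    rw [← zpow_natCast, h3, ← zpow_neg, e]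
  · refine ⟨k, ?_⟩
    have hne : j ^ (p : ℤ) ≠ 0 := zpow_ne_zero _ hj
    rw [zpow_neg] at hk
    have h3 : j ^ (p : ℤ) = ν ^ (2 * k) := by
      have h4 : j ^ (p : ℤ) * 1 = j ^ (p : ℤ) * ((j ^ (p : ℤ))⁻¹ * ν ^ (2 * k)) := by rw [← hk]
      rw [mul_one, ← mul_assoc, mul_inv_cancel₀ hne, one_mul] at h4
      exact h4
    rw [← zpow_natCast, h3]

theorem not_pow_eq_zpow_two_mul {ν : Γ₀} (hν0 : ν ≠ 0) (hν1 : ν < 1) {p : ℕ} (hp : Odd p)
    (k : ℤ) (h : ν ^ p = ν ^ (2 * k)) : False := by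
  have h1 : ν ^ ((p : ℤ) - 2 * k) = 1 := by
    rw [zpow_sub₀ hν0, zpow_natCast, h, div_self (zpow_ne_zero _ hν0)]
  have hne : (p : ℤ) - 2 * k ≠ 0 := by
    obtain ⟨m, rfl⟩ := hp
    push_cast
    omega
  exact hne ((zpow_eq_one_iff_right₀ zero_le hν1.ne).mp h1)

end Abstract

section Points

variable {K : Type*} [Field K] [DecidableEq K] {Γ₀ : Type*} [LinearOrderedCommGroupWithZero Γ₀]
  (v : Valuation K Γ₀)

/-- The clamped height of a point: `1` at the origin, `max ν (min 1 (v x))` at `(x, y)`. -/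
def hpt (W : Affine K) (ν : Γ₀) : W.Point → Γ₀
  | .zero => 1
  | .some x _ _ => max ν (min 1 (v x))

omit [DecidableEq K] in
theorem hpt_zero (W : Affine K) (ν : Γ₀) : hpt v W ν 0 = 1 := rfl

omit [DecidableEq K] in
theorem hpt_some (W : Affine K) (ν : Γ₀) {x y : K} (h : W.Nonsingular x y) :
    hpt v W ν (Point.some x y h) = max ν (min 1 (v x)) := rfl

/-- The component law for `Q ± P`, for an arbitrary point `Q` and an affine point `P` which is
not `2`-torsion. -/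
theorem rel_point (W : Affine K) {α β : K} (ha₁ : W.a₁ = 0) (ha₃ : W.a₃ = 0) (ha₆ : W.a₆ = 0)
    (ha₂ : W.a₂ = β - α) (ha₄ : W.a₄ = -(α * β)) (h2 : (2 : K) ≠ 0)
    (hα : v α < 1) (hα0 : α ≠ 0)
    (HA : ∀ X1 X2 Xp Xm : K, X1 ≠ X2 →
      Xp + Xm = 2 * ((X1 + X2) * (X1 * X2 - α * β) + 2 * (β - α) * (X1 * X2)) / (X1 - X2) ^ 2 →
      Xp * Xm = (X1 * X2 + α * β) ^ 2 / (X1 - X2) ^ 2 →
      Rel (v α) (max (v α) (min 1 (v X1))) (max (v α) (min 1 (v X2)))
        (max (v α) (min 1 (v Xp))) (max (v α) (min 1 (v Xm))))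
    (HD : ∀ X X' : K, X * (X - α) * (X + β) ≠ 0 →
      X' = (X ^ 2 + α * β) ^ 2 / (4 * (X * (X - α) * (X + β))) →
      max (v α) (min 1 (v X')) =
        (if v α ≤ max (v α) (min 1 (v X)) * max (v α) (min 1 (v X))
          then max (v α) (min 1 (v X)) * max (v α) (min 1 (v X))
          else v α * v α / (max (v α) (min 1 (v X)) * max (v α) (min 1 (v X)))))
    {x y : K} (h : W.Nonsingular x y) (hy : y ≠ 0) (Q : W.Point) :
    Rel (v α) (hpt v W (v α) Q) (hpt v W (v α) (Point.some x y h))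
      (hpt v W (v α) (Q + Point.some x y h)) (hpt v W (v α) (Q - Point.some x y h)) := by
  set ν := v α with hν
  have hν0 : ν ≠ 0 := (v.ne_zero_iff).mpr hα0
  have hνpos : 0 < ν := zero_lt_iff.mpr hν0
  set j := max ν (min 1 (v x)) with hj
  have hjν : ν ≤ j := le_max_left _ _
  have hj1 : j ≤ 1 := max_le hα.le (min_le_left _ _)
  have hjpos : 0 < j := lt_of_lt_of_le hνpos hjν
  have hj0 : j ≠ 0 := hjpos.ne'
  have hP : hpt v W ν (Point.some x y h) = j := rfl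
  obtain ⟨hneg, eneg⟩ := Ident.neg_some_leg ha₁ ha₃ h
  have E := (Ident.equation_iff_leg ha₁ ha₃ ha₆ x y).mp h.1
  -- the doubling data
  obtain ⟨x'', y'', hP'', hdbl, hx''⟩ := (Ident.add_self_leg ha₁ ha₃ ha₆ h2 h).2 hy
  have hg : x * (x - α) * (x + β) = y ^ 2 := by
    rw [E, ha₂, ha₄]; ring
  have hg0 : x * (x - α) * (x + β) ≠ 0 := by rw [hg]; exact pow_ne_zero 2 hy
  have hD := HD x x'' hg0 (by rw [hx'', hg, ha₄]; ring)
  have hmin1 : (1 : Γ₀) = min (j / j) (j / j) := by rw [div_self hj0, min_self]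
  rw [hP]
  rcases Q with _ | ⟨x', y', h'⟩
  · -- `Q = 0`
    have e1 : (Point.zero : W.Point) + Point.some x y h = Point.some x y h := zero_add _
    have e2 : (Point.zero : W.Point) - Point.some x y h = Point.some x (-y) hneg := by
      rw [← eneg]; exact zero_sub _
    rw [e1, e2]
    refine Or.inl ⟨?_, ?_⟩
    · show j = if ν ≤ 1 * j then 1 * j else ν * ν / (1 * j)
      rw [one_mul, if_pos hjν]
    · show j = min (1 / j) (j / 1)
      rw [div_one, min_eq_right]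
      rw [le_div_iff₀ hjpos]
      exact mul_le_one₀ hj1 zero_le hj1
  · by_cases hxx : x' = x
    · subst hxx
      have E' := (Ident.equation_iff_leg ha₁ ha₃ ha₆ x' y').mp h'.1
      have hyy : (y' - y) * (y' + y) = 0 := by linear_combination E' - E
      rcases mul_eq_zero.mp hyy with hy' | hy'
      · -- `Q = P`
        have hy'' : y' = y := sub_eq_zero.mp hy'
        subst hy''
        have e2 : Point.some x' y' h' - Point.some x' y' h = 0 := sub_self _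
        rw [e2, hdbl]
        refine Or.inl ⟨hD, hmin1⟩
      · -- `Q = -P`
        have hy'' : y' = -y := by linear_combination hy'
        subst hy''
        have eQ : Point.some x' (-y) h' = -Point.some x' y h := eneg.symm
        have e1 : Point.some x' (-y) h' + Point.some x' y h = 0 := by
          rw [eQ]; exact neg_add_cancel _
        have e2 : Point.some x' (-y) h' - Point.some x' y h = -Point.some x'' y'' hP'' := by
          rw [eQ, ← hdbl]; abel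
        obtain ⟨hneg'', eneg''⟩ := Ident.neg_some_leg ha₁ ha₃ hP''
        rw [e1, e2, eneg'']
        refine Or.inr ⟨hD, hmin1⟩
    · obtain ⟨x₃, y₃, hP₃, x₄, y₄, hP₄, hadd, hsub, -, -, hF1, hF2⟩ :=
        Ident.add_sub_of_X_ne ha₁ ha₃ ha₆ h' h hxx
      rw [hadd, hsub]
      refine HA x' x x₃ x₄ hxx ?_ ?_
      · rw [hF1, ha₄, ha₂]; ring
      · rw [hF2, ha₄, div_pow]; ring

/-- Point-level half of Part 3: a torsion point of odd order `p` with `v x < 1` near the node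
has `v α < v x` and `v x ^ p` an even power of `v α`. -/
theorem part3val (W : Affine K) {α β : K} (ha₁ : W.a₁ = 0) (ha₃ : W.a₃ = 0) (ha₆ : W.a₆ = 0)
    (ha₂ : W.a₂ = β - α) (ha₄ : W.a₄ = -(α * β)) (h2 : (2 : K) ≠ 0)
    (hα : v α < 1) (hα0 : α ≠ 0) {p : ℕ} (hp : Odd p)
    (HA : ∀ X1 X2 Xp Xm : K, X1 ≠ X2 →
      Xp + Xm = 2 * ((X1 + X2) * (X1 * X2 - α * β) + 2 * (β - α) * (X1 * X2)) / (X1 - X2) ^ 2 →
      Xp * Xm = (X1 * X2 + α * β) ^ 2 / (X1 - X2) ^ 2 →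
      Rel (v α) (max (v α) (min 1 (v X1))) (max (v α) (min 1 (v X2)))
        (max (v α) (min 1 (v Xp))) (max (v α) (min 1 (v Xm))))
    (HD : ∀ X X' : K, X * (X - α) * (X + β) ≠ 0 →
      X' = (X ^ 2 + α * β) ^ 2 / (4 * (X * (X - α) * (X + β))) →
      max (v α) (min 1 (v X')) =
        (if v α ≤ max (v α) (min 1 (v X)) * max (v α) (min 1 (v X))
          then max (v α) (min 1 (v X)) * max (v α) (min 1 (v X))
          else v α * v α / (max (v α) (min 1 (v X)) * max (v α) (min 1 (v X)))))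
    {x y : K} (h : W.Nonsingular x y) (hP : p • Point.some x y h = 0) (hx : v x < 1) :
    v α < v x ∧ ∃ k : ℤ, v x ^ p = v α ^ (2 * k) := by
  set ν := v α with hν
  have hν0 : ν ≠ 0 := (v.ne_zero_iff).mpr hα0
  have hνpos : 0 < ν := zero_lt_iff.mpr hν0
  set j := max ν (min 1 (v x)) with hj
  have hjν : ν ≤ j := le_max_left _ _
  have hj0 : j ≠ 0 := (lt_of_lt_of_le hνpos hjν).ne'
  -- `P` is not `2`-torsion
  have hy : y ≠ 0 := by
    intro hy
    have h2P : Point.some x y h + Point.some x y h = 0 :=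
      (Ident.add_self_leg ha₁ ha₃ ha₆ h2 h).1 hy
    obtain ⟨m, rfl⟩ := hp
    have h3 : (2 * m + 1) • Point.some x y h = Point.some x y h := by
      rw [add_nsmul, one_nsmul, mul_nsmul, two_nsmul, h2P, nsmul_zero, zero_add]
    rw [h3] at hP
    exact Point.some_ne_zero h hP
  set hs : ℕ → Γ₀ := fun n => hpt v W ν (n • Point.some x y h) with hhs
  have hs0 : hs 0 = 1 := by simp only [hhs, zero_nsmul]; rfl
  have hs1 : hs 1 = j := by simp only [hhs, one_nsmul]; rfl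
  have hR : ∀ n, 1 ≤ n → Rel ν (hs n) j (hs (n + 1)) (hs (n - 1)) := by
    intro n hn
    have e1 : (n + 1) • Point.some x y h = n • Point.some x y h + Point.some x y h :=
      succ_nsmul _ _
    have e2 : (n - 1) • Point.some x y h = n • Point.some x y h - Point.some x y h := by
      rw [eq_sub_iff_add_eq, ← succ_nsmul, Nat.sub_add_cancel hn]
    have := rel_point v W ha₁ ha₃ ha₆ ha₂ ha₄ h2 hα hα0 HA HD h hy (n • Point.some x y h)
    simp only [hhs, e1, e2]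
    exact this
  have hT := seq_mem hj0 hν0 hs hs0 hs1 hR p
  have hsp : hs p = 1 := by simp only [hhs, hP]; rfl
  rw [hsp] at hT
  obtain ⟨k, hk⟩ := exists_pow_eq_of_T_one hj0 hT
  have hjne : j ≠ ν := by
    intro e
    rw [e] at hk
    exact not_pow_eq_zpow_two_mul hν0 hα hp k hk
  have hxν : ν < v x := by
    by_contra hle
    rw [not_lt] at hle
    apply hjne
    rw [hj, min_eq_right hx.le, max_eq_left hle]
  have hjx : j = v x := by
    rw [hj, min_eq_right hx.le, max_eq_right hxν.le]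
  exact ⟨hxν, k, by rw [← hjx]; exact hk⟩

end Points

end Fermat.Agent.S05.PointSeq
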